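import Mathlib

/-!
# Herbrand quotients (P-CFT, module B-HQ)

For an additive commutative group `M` with two endomorphisms `f g` such that `f ∘ g = 0` and
`g ∘ f = 0` we put `hidx f g = [ker f : im g]` (a natural number, `0` if the index is infinite).
For an endomorphism `s` with `s ^ n = 1` the pair `(del s, nrm s n) = (s - 1, 1 + s + ⋯ + s^(n-1))`
is such a pair, and `h0 s n = hidx (del s) (nrm s n)`, `h1 s n = hidx (nrm s n) (del s)` are the
orders of the Tate cohomology groups `Ĥ⁰`, `Ĥ¹` of the cyclic group generated by `s`.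

Main results.
* `EquivExact.hidx_mul_eq`, `h0_mul_h1_mul_h1`: hexagon identity for a short exact sequence,
  as an identity of natural numbers, without finiteness assumptions.
* `IsHQ s n q` ("the Herbrand quotient is defined and equals `q`"), `hq_mid`, `hq_left`,
  `hq_right`: two out of three, with multiplicativity.
* `hq_of_finite`, `h0_eq_h1_of_finite`: finite groups.
* `hq_congr`, `hq_iff_of_finiteIndex`: invariance under isomorphisms and under passing to a
  subgroup of finite index.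
* `h0_int`, `h1_int`, `hq_int`, `hq_of_equiv_int`: the group `ℤ`.
-/

set_option autoImplicit false

namespace Fermat.Agent.S14.HQ

open AddSubgroup

section Index

variable {G G' : Type*} [AddCommGroup G] [AddCommGroup G']

/-- The index of `Y` in `X` is the index of the images times the index of the kernels. -/
theorem relIndex_eq_map_mul (φ : G →+ G') {X Y : AddSubgroup G} (h : Y ≤ X) :
    Y.relIndex X = (Y.map φ).relIndex (X.map φ) * Y.relIndex (X ⊓ φ.ker) := by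
  have h1 : Y ≤ Y ⊔ (X ⊓ φ.ker) := le_sup_left
  have h2 : Y ⊔ (X ⊓ φ.ker) ≤ X := sup_le h inf_le_left
  rw [← relIndex_mul_relIndex Y _ X h1 h2, mul_comm]
  congr 1
  · rw [relIndex_map_map]
    have h3 : X ⊔ φ.ker = X ⊔ (Y ⊔ φ.ker) := by
      rw [← sup_assoc, sup_eq_left.2 h]
    rw [h3, relIndex_sup_right, ← inf_relIndex_right (Y ⊔ φ.ker) X]
    rw [sup_inf_assoc_of_le φ.ker h, inf_comm φ.ker X]
  · rw [sup_comm, relIndex_sup_right]

end Index

section Pair

variable {B : Type*} [AddCommGroup B]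

/-- `hidx f g = [ker f : im g]` (`0` if infinite). -/
noncomputable def hidx (f g : B →+ B) : ℕ := g.range.relIndex f.ker

variable (f g : B →+ B) (S : AddSubgroup B)

/-- first auxiliary index: `[ker f : ker f ∩ (im g + S)]` -/
noncomputable def xOne : ℕ := (g.range ⊔ S).relIndex f.ker

/-- second auxiliary index: `[S ∩ ker f : S ∩ im g]` -/
noncomputable def xTwo : ℕ := g.range.relIndex (S ⊓ f.ker)

/-- third auxiliary index: `[S ∩ im f : f S]` -/
noncomputable def xFour : ℕ := (S.map f).relIndex (S ⊓ f.range)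

variable {f g}

theorem range_le_ker (hfg : ∀ x, f (g x) = 0) : g.range ≤ f.ker := by
  rintro _ ⟨x, rfl⟩
  exact (AddMonoidHom.mem_ker).2 (hfg x)

theorem hidx_eq_xOne_mul_xTwo (hfg : ∀ x, f (g x) = 0) :
    hidx f g = xOne f g S * xTwo f g S := by
  have hle := range_le_ker hfg
  have h1 : g.range ≤ (g.range ⊔ S) ⊓ f.ker := le_inf le_sup_left hle
  unfold hidx xOne xTwo
  rw [← relIndex_mul_relIndex g.range _ f.ker h1 inf_le_right, inf_relIndex_right, mul_comm]
  congr 1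
  rw [sup_inf_assoc_of_le S hle, relIndex_sup_left]

theorem relIndex_map_eq_xTwo_mul_xFour (hfg : ∀ x, f (g x) = 0) (hS : ∀ a ∈ S, g a ∈ S) :
    (S.map g).relIndex (S ⊓ f.ker) = xTwo f g S * xFour g S := by
  have hle := range_le_ker hfg
  have h1 : S.map g ≤ S ⊓ g.range := by
    rintro _ ⟨a, ha, rfl⟩
    exact ⟨hS a ha, a, rfl⟩
  have h2 : S ⊓ g.range ≤ S ⊓ f.ker := inf_le_inf_left S hle
  unfold xTwo xFour
  rw [← relIndex_mul_relIndex (S.map g) _ (S ⊓ f.ker) h1 h2, mul_comm]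
  congr 1
  rw [← inf_relIndex_right g.range (S ⊓ f.ker)]
  congr 1
  rw [inf_comm S g.range, ← inf_assoc, inf_comm (g.range ⊓ S), ← inf_assoc,
    inf_eq_right.2 hle]

theorem relIndex_comap_eq_xFour_mul_xOne (hfg : ∀ x, f (g x) = 0) (hS : ∀ a ∈ S, f a ∈ S) :
    (g.range ⊔ S).relIndex (S.comap f) = xFour f S * xOne f g S := by
  have hle := range_le_ker hfg
  have hker : f.ker ≤ S.comap f := fun x hx => by
    rw [mem_comap, (AddMonoidHom.mem_ker).1 hx]; exact S.zero_mem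
  have h1 : g.range ⊔ S ≤ S.comap f := sup_le (hle.trans hker) (fun a ha => hS a ha)
  rw [relIndex_eq_map_mul f h1]
  unfold xFour xOne
  congr 1
  · congr 1
    · rw [AddSubgroup.map_sup, (AddSubgroup.map_eq_bot_iff _).2 hle, bot_sup_eq]
    · rw [map_comap_eq, inf_comm]
  · rw [inf_eq_right.2 hker]

end Pair

section Exact

variable {A B C : Type*} [AddCommGroup A] [AddCommGroup B] [AddCommGroup C]

/-- An equivariant short exact sequence `0 → A → B → C → 0` of groups with pairs of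
endomorphisms `(f, g)` such that `f ∘ g = 0 = g ∘ f` on `B`. -/
structure EquivExact (φ : A →+ B) (ψ : B →+ C) (fA gA : A →+ A) (fB gB : B →+ B)
    (fC gC : C →+ C) : Prop where
  inj : Function.Injective φ
  surj : Function.Surjective ψ
  exact : φ.range = ψ.ker
  fg : ∀ x, fB (gB x) = 0
  gf : ∀ x, gB (fB x) = 0
  fA : ∀ a, φ (fA a) = fB (φ a)
  gA : ∀ a, φ (gA a) = gB (φ a)
  fC : ∀ b, ψ (fB b) = fC (ψ b)
  gC : ∀ b, ψ (gB b) = gC (ψ b)

variable {φ : A →+ B} {ψ : B →+ C} {fA gA : A →+ A} {fB gB : B →+ B} {fC gC : C →+ C}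

theorem EquivExact.swap (h : EquivExact φ ψ fA gA fB gB fC gC) :
    EquivExact φ ψ gA fA gB fB gC fC :=
  ⟨h.inj, h.surj, h.exact, h.gf, h.fg, h.gA, h.fA, h.gC, h.fC⟩

theorem EquivExact.stable_f (h : EquivExact φ ψ fA gA fB gB fC gC) :
    ∀ a ∈ φ.range, fB a ∈ φ.range := by
  rintro _ ⟨a, rfl⟩
  exact ⟨fA a, h.fA a⟩

theorem EquivExact.hidx_sub (h : EquivExact φ ψ fA gA fB gB fC gC) :
    hidx fA gA = (φ.range.map gB).relIndex (φ.range ⊓ fB.ker) := by
  unfold hidx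
  rw [← relIndex_map_map_of_injective gA.range fA.ker h.inj]
  congr 1
  · ext x
    constructor
    · rintro ⟨_, ⟨a, rfl⟩, rfl⟩
      exact ⟨φ a, ⟨a, rfl⟩, (h.gA a).symm⟩
    · rintro ⟨_, ⟨a, rfl⟩, rfl⟩
      exact ⟨gA a, ⟨a, rfl⟩, h.gA a⟩
  · ext x
    constructor
    · rintro ⟨a, ha, rfl⟩
      refine ⟨⟨a, rfl⟩, ?_⟩
      have ha' : fA a = 0 := ha
      show fB (φ a) = 0
      rw [← h.fA, ha', map_zero]
    · rintro ⟨⟨a, rfl⟩, hx⟩
      refine ⟨a, ?_, rfl⟩
      have hx' : fB (φ a) = 0 := hx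
      show fA a = 0
      apply h.inj
      rw [h.fA, hx', map_zero]

theorem EquivExact.hidx_quot (h : EquivExact φ ψ fA gA fB gB fC gC) :
    hidx fC gC = (gB.range ⊔ φ.range).relIndex (φ.range.comap fB) := by
  unfold hidx
  have h1 : gC.range.comap ψ = gB.range ⊔ φ.range := by
    ext x
    rw [mem_comap, AddSubgroup.mem_sup]
    constructor
    · rintro ⟨c, hc⟩
      obtain ⟨b, rfl⟩ := h.surj c
      refine ⟨gB b, ⟨b, rfl⟩, x - gB b, ?_, by abel⟩
      rw [h.exact, AddMonoidHom.mem_ker, map_sub, h.gC, hc, sub_self]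
    · rintro ⟨_, ⟨b, rfl⟩, z, hz, rfl⟩
      rw [h.exact, AddMonoidHom.mem_ker] at hz
      exact ⟨ψ b, by rw [map_add, hz, add_zero, h.gC]⟩
  have h2 : fC.ker.comap ψ = φ.range.comap fB := by
    ext x
    rw [mem_comap, mem_comap, AddMonoidHom.mem_ker, h.exact, AddMonoidHom.mem_ker, h.fC]
  rw [← h1, ← h2, relIndex_comap, map_comap_eq_self_of_surjective h.surj]

/-- The six "hexagon" indices: the orders of the six groups in the exact hexagon are products of
consecutive ones. -/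
theorem EquivExact.exists_factors (h : EquivExact φ ψ fA gA fB gB fC gC) :
    ∃ x₁ x₂ x₃ x₄ x₅ x₆ : ℕ,
      hidx fB gB = x₁ * x₂ ∧ hidx gB fB = x₆ * x₃ ∧
      hidx fA gA = x₂ * x₅ ∧ hidx gA fA = x₃ * x₄ ∧
      hidx fC gC = x₄ * x₁ ∧ hidx gC fC = x₅ * x₆ := by
  refine ⟨xOne fB gB φ.range, xTwo fB gB φ.range, xTwo gB fB φ.range, xFour fB φ.range,
    xFour gB φ.range, xOne gB fB φ.range, ?_, ?_, ?_, ?_, ?_, ?_⟩
  · exact hidx_eq_xOne_mul_xTwo _ h.fg
  · exact hidx_eq_xOne_mul_xTwo _ h.gf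
  · rw [h.hidx_sub]
    exact relIndex_map_eq_xTwo_mul_xFour _ h.fg h.swap.stable_f
  · rw [h.swap.hidx_sub]
    exact relIndex_map_eq_xTwo_mul_xFour _ h.gf h.stable_f
  · rw [h.hidx_quot]
    exact relIndex_comap_eq_xFour_mul_xOne _ h.fg h.stable_f
  · rw [h.swap.hidx_quot]
    exact relIndex_comap_eq_xFour_mul_xOne _ h.gf h.swap.stable_f

/-- **Multiplicativity of the Herbrand quotient**, in the form of an identity of natural numbers
(valid without any finiteness assumption, with the convention that infinite indices are `0`). -/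
theorem EquivExact.hidx_mul_eq (h : EquivExact φ ψ fA gA fB gB fC gC) :
    hidx fB gB * hidx gA fA * hidx gC fC = hidx gB fB * hidx fA gA * hidx fC gC := by
  obtain ⟨x₁, x₂, x₃, x₄, x₅, x₆, h1, h2, h3, h4, h5, h6⟩ := h.exists_factors
  rw [h1, h2, h3, h4, h5, h6]
  ring

end Exact

section HasHQ

variable {A B C M M' : Type*} [AddCommGroup A] [AddCommGroup B] [AddCommGroup C]
  [AddCommGroup M] [AddCommGroup M']

/-- `HasHQ f g q`: the indices `[ker f : im g]` and `[ker g : im f]` are finite and their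
quotient is `q` ("the Herbrand quotient of `(f, g)` is defined and equal to `q`"). -/
def HasHQ (f g : M →+ M) (q : ℚ) : Prop :=
  hidx f g ≠ 0 ∧ hidx g f ≠ 0 ∧ (hidx f g : ℚ) / (hidx g f : ℚ) = q

theorem HasHQ.ne_zero {f g : M →+ M} {q : ℚ} (h : HasHQ f g q) : q ≠ 0 := by
  obtain ⟨h0, h1, rfl⟩ := h
  exact div_ne_zero (Nat.cast_ne_zero.2 h0) (Nat.cast_ne_zero.2 h1)

theorem HasHQ.unique {f g : M →+ M} {q q' : ℚ} (h : HasHQ f g q) (h' : HasHQ f g q') :
    q = q' := h.2.2.symm.trans h'.2.2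

theorem HasHQ.pos {f g : M →+ M} {q : ℚ} (h : HasHQ f g q) : 0 < q := by
  obtain ⟨h0, h1, rfl⟩ := h
  exact div_pos (Nat.cast_pos.2 (Nat.pos_of_ne_zero h0)) (Nat.cast_pos.2 (Nat.pos_of_ne_zero h1))

theorem HasHQ.swap {f g : M →+ M} {q : ℚ} (h : HasHQ f g q) : HasHQ g f q⁻¹ := by
  obtain ⟨h0, h1, rfl⟩ := h
  exact ⟨h1, h0, (inv_div _ _).symm⟩

/-- Natural number form of `HasHQ`. -/
theorem HasHQ.mul_eq {f g : M →+ M} {q : ℚ} (h : HasHQ f g q) :
    (hidx f g : ℚ) = q * (hidx g f : ℚ) := by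
  obtain ⟨_, h1, rfl⟩ := h
  rw [div_mul_cancel₀]
  exact Nat.cast_ne_zero.2 h1

theorem hasHQ_of_eq {f g : M →+ M} {a b : ℕ} (ha : hidx f g = a) (hb : hidx g f = b)
    (ha0 : a ≠ 0) (hb0 : b ≠ 0) : HasHQ f g ((a : ℚ) / b) :=
  ⟨ha ▸ ha0, hb ▸ hb0, by rw [ha, hb]⟩

variable {φ : A →+ B} {ψ : B →+ C} {fA gA : A →+ A} {fB gB : B →+ B} {fC gC : C →+ C}

/-- Multiplicativity: sub and quotient give the middle term. -/
theorem EquivExact.hasHQ_mid (h : EquivExact φ ψ fA gA fB gB fC gC) {a c : ℚ}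
    (hA : HasHQ fA gA a) (hC : HasHQ fC gC c) : HasHQ fB gB (a * c) := by
  obtain ⟨x₁, x₂, x₃, x₄, x₅, x₆, h1, h2, h3, h4, h5, h6⟩ := h.exists_factors
  obtain ⟨hA0, hA1, rfl⟩ := hA
  obtain ⟨hC0, hC1, rfl⟩ := hC
  rw [h3] at hA0; rw [h4] at hA1; rw [h5] at hC0; rw [h6] at hC1
  have e1 : x₁ ≠ 0 := fun e => hC0 (by rw [e, mul_zero])
  have e2 : x₂ ≠ 0 := fun e => hA0 (by rw [e, zero_mul])
  have e3 : x₃ ≠ 0 := fun e => hA1 (by rw [e, zero_mul])
  have e4 : x₄ ≠ 0 := fun e => hA1 (by rw [e, mul_zero])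
  have e5 : x₅ ≠ 0 := fun e => hA0 (by rw [e, mul_zero])
  have e6 : x₆ ≠ 0 := fun e => hC1 (by rw [e, mul_zero])
  refine ⟨by rw [h1]; exact mul_ne_zero e1 e2, by rw [h2]; exact mul_ne_zero e6 e3, ?_⟩
  rw [h1, h2, h3, h4, h5, h6]
  have c1 : (x₁ : ℚ) ≠ 0 := Nat.cast_ne_zero.2 e1
  have c2 : (x₂ : ℚ) ≠ 0 := Nat.cast_ne_zero.2 e2
  have c3 : (x₃ : ℚ) ≠ 0 := Nat.cast_ne_zero.2 e3
  have c4 : (x₄ : ℚ) ≠ 0 := Nat.cast_ne_zero.2 e4
  have c5 : (x₅ : ℚ) ≠ 0 := Nat.cast_ne_zero.2 e5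
  have c6 : (x₆ : ℚ) ≠ 0 := Nat.cast_ne_zero.2 e6
  push_cast
  field_simp

/-- Multiplicativity: sub and middle give the quotient. -/
theorem EquivExact.hasHQ_right (h : EquivExact φ ψ fA gA fB gB fC gC) {a b : ℚ}
    (hA : HasHQ fA gA a) (hB : HasHQ fB gB b) : HasHQ fC gC (b / a) := by
  obtain ⟨x₁, x₂, x₃, x₄, x₅, x₆, h1, h2, h3, h4, h5, h6⟩ := h.exists_factors
  obtain ⟨hA0, hA1, rfl⟩ := hA
  obtain ⟨hB0, hB1, rfl⟩ := hB
  rw [h3] at hA0; rw [h4] at hA1; rw [h1] at hB0; rw [h2] at hB1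
  have e1 : x₁ ≠ 0 := fun e => hB0 (by rw [e, zero_mul])
  have e2 : x₂ ≠ 0 := fun e => hA0 (by rw [e, zero_mul])
  have e3 : x₃ ≠ 0 := fun e => hA1 (by rw [e, zero_mul])
  have e4 : x₄ ≠ 0 := fun e => hA1 (by rw [e, mul_zero])
  have e5 : x₅ ≠ 0 := fun e => hA0 (by rw [e, mul_zero])
  have e6 : x₆ ≠ 0 := fun e => hB1 (by rw [e, zero_mul])
  refine ⟨by rw [h5]; exact mul_ne_zero e4 e1, by rw [h6]; exact mul_ne_zero e5 e6, ?_⟩
  rw [h1, h2, h3, h4, h5, h6]
  have c1 : (x₁ : ℚ) ≠ 0 := Nat.cast_ne_zero.2 e1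
  have c2 : (x₂ : ℚ) ≠ 0 := Nat.cast_ne_zero.2 e2
  have c3 : (x₃ : ℚ) ≠ 0 := Nat.cast_ne_zero.2 e3
  have c4 : (x₄ : ℚ) ≠ 0 := Nat.cast_ne_zero.2 e4
  have c5 : (x₅ : ℚ) ≠ 0 := Nat.cast_ne_zero.2 e5
  have c6 : (x₆ : ℚ) ≠ 0 := Nat.cast_ne_zero.2 e6
  push_cast
  field_simp

/-- Multiplicativity: middle and quotient give the sub. -/
theorem EquivExact.hasHQ_left (h : EquivExact φ ψ fA gA fB gB fC gC) {b c : ℚ}
    (hB : HasHQ fB gB b) (hC : HasHQ fC gC c) : HasHQ fA gA (b / c) := by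
  obtain ⟨x₁, x₂, x₃, x₄, x₅, x₆, h1, h2, h3, h4, h5, h6⟩ := h.exists_factors
  obtain ⟨hB0, hB1, rfl⟩ := hB
  obtain ⟨hC0, hC1, rfl⟩ := hC
  rw [h1] at hB0; rw [h2] at hB1; rw [h5] at hC0; rw [h6] at hC1
  have e1 : x₁ ≠ 0 := fun e => hB0 (by rw [e, zero_mul])
  have e2 : x₂ ≠ 0 := fun e => hB0 (by rw [e, mul_zero])
  have e3 : x₃ ≠ 0 := fun e => hB1 (by rw [e, mul_zero])
  have e4 : x₄ ≠ 0 := fun e => hC0 (by rw [e, zero_mul])
  have e5 : x₅ ≠ 0 := fun e => hC1 (by rw [e, zero_mul])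
  have e6 : x₆ ≠ 0 := fun e => hB1 (by rw [e, zero_mul])
  refine ⟨by rw [h3]; exact mul_ne_zero e2 e5, by rw [h4]; exact mul_ne_zero e3 e4, ?_⟩
  rw [h1, h2, h3, h4, h5, h6]
  have c1 : (x₁ : ℚ) ≠ 0 := Nat.cast_ne_zero.2 e1
  have c2 : (x₂ : ℚ) ≠ 0 := Nat.cast_ne_zero.2 e2
  have c3 : (x₃ : ℚ) ≠ 0 := Nat.cast_ne_zero.2 e3
  have c4 : (x₄ : ℚ) ≠ 0 := Nat.cast_ne_zero.2 e4
  have c5 : (x₅ : ℚ) ≠ 0 := Nat.cast_ne_zero.2 e5
  have c6 : (x₆ : ℚ) ≠ 0 := Nat.cast_ne_zero.2 e6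
  push_cast
  field_simp

end HasHQ

section Finite

variable {M : Type*} [AddCommGroup M]

theorem card_range_mul_hidx {f g : M →+ M} (hfg : ∀ x, f (g x) = 0) :
    Nat.card g.range * hidx f g = Nat.card f.ker := by
  unfold hidx
  rw [← relIndex_bot_left, ← relIndex_bot_left, relIndex_mul_relIndex ⊥ g.range f.ker bot_le
    (range_le_ker hfg)]

theorem card_ker_mul_card_range (f : M →+ M) :
    Nat.card f.ker * Nat.card f.range = Nat.card M := by
  rw [← index_ker, card_mul_index]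

/-- (a) On a finite group the two indices agree and are nonzero. -/
theorem hidx_eq_of_finite [Finite M] {f g : M →+ M} (hfg : ∀ x, f (g x) = 0)
    (hgf : ∀ x, g (f x) = 0) : hidx f g = hidx g f ∧ hidx f g ≠ 0 := by
  have h1 := card_range_mul_hidx hfg
  have h2 := card_range_mul_hidx hgf
  have h3 := card_ker_mul_card_range f
  have h4 := card_ker_mul_card_range g
  have hf0 : Nat.card f.range ≠ 0 := Nat.card_pos.ne'
  have hg0 : Nat.card g.range ≠ 0 := Nat.card_pos.ne'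
  have hk0 : Nat.card f.ker ≠ 0 := Nat.card_pos.ne'
  constructor
  · have : Nat.card g.range * Nat.card f.range * hidx f g
        = Nat.card g.range * Nat.card f.range * hidx g f := by
      calc Nat.card g.range * Nat.card f.range * hidx f g
          = (Nat.card g.range * hidx f g) * Nat.card f.range := by ring
        _ = Nat.card M := by rw [h1, h3]
        _ = (Nat.card f.range * hidx g f) * Nat.card g.range := by rw [h2, h4]
        _ = Nat.card g.range * Nat.card f.range * hidx g f := by ring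
    exact Nat.eq_of_mul_eq_mul_left (Nat.pos_of_ne_zero (mul_ne_zero hg0 hf0)) this
  · intro h0
    rw [h0, mul_zero] at h1
    exact hk0 h1.symm

theorem hasHQ_of_finite [Finite M] {f g : M →+ M} (hfg : ∀ x, f (g x) = 0)
    (hgf : ∀ x, g (f x) = 0) : HasHQ f g 1 := by
  obtain ⟨h1, h2⟩ := hidx_eq_of_finite hfg hgf
  refine ⟨h2, h1 ▸ h2, ?_⟩
  rw [← h1, div_self (Nat.cast_ne_zero.2 h2)]

end Finite

section Congr

variable {M M' : Type*} [AddCommGroup M] [AddCommGroup M']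

/-- Invariance under equivariant isomorphisms. -/
theorem hidx_congr (e : M ≃+ M') {f g : M →+ M} {f' g' : M' →+ M'}
    (hf : ∀ x, e (f x) = f' (e x)) (hg : ∀ x, e (g x) = g' (e x)) :
    hidx f g = hidx f' g' := by
  unfold hidx
  rw [← relIndex_map_map_of_injective g.range f.ker (f := e.toAddMonoidHom) e.injective]
  congr 1
  · ext x
    constructor
    · rintro ⟨_, ⟨a, rfl⟩, rfl⟩
      exact ⟨e a, (hg a).symm⟩
    · rintro ⟨a, rfl⟩
      refine ⟨g (e.symm a), ⟨_, rfl⟩, ?_⟩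
      show e (g (e.symm a)) = _
      rw [hg, e.apply_symm_apply]
  · ext x
    constructor
    · rintro ⟨a, ha, rfl⟩
      have ha' : f a = 0 := ha
      show f' (e a) = 0
      rw [← hf, ha', map_zero]
    · intro hx
      have hx' : f' x = 0 := hx
      refine ⟨e.symm x, ?_, e.apply_symm_apply x⟩
      show f (e.symm x) = 0
      apply e.injective
      rw [hf, e.apply_symm_apply, hx', map_zero]

theorem hasHQ_congr (e : M ≃+ M') {f g : M →+ M} {f' g' : M' →+ M'}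
    (hf : ∀ x, e (f x) = f' (e x)) (hg : ∀ x, e (g x) = g' (e x)) {q : ℚ} :
    HasHQ f g q ↔ HasHQ f' g' q := by
  unfold HasHQ
  rw [hidx_congr e hf hg, hidx_congr e hg hf]

end Congr

section FiniteIndex

variable {A B : Type*} [AddCommGroup A] [AddCommGroup B]

/-- The short exact sequence `0 → A → B → B ⧸ φ(A) → 0` attached to an equivariant injection. -/
theorem equivExact_mk (φ : A →+ B) (hφ : Function.Injective φ)
    {fA gA : A →+ A} {fB gB : B →+ B}
    (hfg : ∀ x, fB (gB x) = 0) (hgf : ∀ x, gB (fB x) = 0)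
    (hfA : ∀ a, φ (fA a) = fB (φ a)) (hgA : ∀ a, φ (gA a) = gB (φ a)) :
    ∃ (fC gC : (B ⧸ φ.range) →+ (B ⧸ φ.range)),
      EquivExact φ (QuotientAddGroup.mk' φ.range) fA gA fB gB fC gC ∧
      (∀ x, fC (gC x) = 0) ∧ (∀ x, gC (fC x) = 0) := by
  have hf : φ.range ≤ φ.range.comap fB := by
    rintro _ ⟨a, rfl⟩
    exact ⟨fA a, hfA a⟩
  have hg : φ.range ≤ φ.range.comap gB := by
    rintro _ ⟨a, rfl⟩
    exact ⟨gA a, hgA a⟩
  refine ⟨QuotientAddGroup.map φ.range φ.range fB hf, QuotientAddGroup.map φ.range φ.range gB hg,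
    ⟨hφ, QuotientAddGroup.mk'_surjective _, (QuotientAddGroup.ker_mk' _).symm, hfg, hgf, hfA, hgA,
      fun b => rfl, fun b => rfl⟩, ?_, ?_⟩
  · intro x
    induction x using QuotientAddGroup.induction_on with
    | H b =>
      show ((fB (gB b) : B) : B ⧸ φ.range) = 0
      rw [hfg]; rfl
  · intro x
    induction x using QuotientAddGroup.induction_on with
    | H b =>
      show ((gB (fB b) : B) : B ⧸ φ.range) = 0
      rw [hgf]; rfl

/-- The Herbrand quotient does not change when passing to an equivariant subgroup of finite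
index. -/
theorem hasHQ_iff_of_finiteIndex (φ : A →+ B) (hφ : Function.Injective φ)
    (hfin : φ.range.index ≠ 0) {fA gA : A →+ A} {fB gB : B →+ B}
    (hfg : ∀ x, fB (gB x) = 0) (hgf : ∀ x, gB (fB x) = 0)
    (hfA : ∀ a, φ (fA a) = fB (φ a)) (hgA : ∀ a, φ (gA a) = gB (φ a)) {q : ℚ} :
    HasHQ fA gA q ↔ HasHQ fB gB q := by
  obtain ⟨fC, gC, hex, h1, h2⟩ := equivExact_mk φ hφ hfg hgf hfA hgA
  have : Finite (B ⧸ φ.range) := Nat.finite_of_card_ne_zero hfin
  have hC : HasHQ fC gC 1 := hasHQ_of_finite h1 h2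
  constructor
  · intro hA
    simpa using hex.hasHQ_mid hA hC
  · intro hB
    simpa using hex.hasHQ_left hB hC

end FiniteIndex

section Cyclic

variable {M : Type*} [AddCommGroup M]

/-- `del s = s - 1`. -/
def del (s : AddMonoid.End M) : M →+ M := (s - 1 : AddMonoid.End M)

/-- `nrm s n = 1 + s + ⋯ + s ^ (n - 1)`. -/
def nrm (s : AddMonoid.End M) (n : ℕ) : M →+ M :=
  (∑ i ∈ Finset.range n, s ^ i : AddMonoid.End M)

@[simp] theorem del_apply (s : AddMonoid.End M) (x : M) : del s x = s x - x := rfl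

theorem end_sum_apply {ι : Type*} (t : Finset ι) (f : ι → AddMonoid.End M) (x : M) :
    (∑ i ∈ t, f i : AddMonoid.End M) x = ∑ i ∈ t, f i x := by
  classical
  induction t using Finset.induction_on with
  | empty => simp
  | insert a t ha ih =>
    rw [Finset.sum_insert ha, Finset.sum_insert ha, ← ih]
    rfl

theorem nrm_apply (s : AddMonoid.End M) (n : ℕ) (x : M) :
    nrm s n x = ∑ i ∈ Finset.range n, (s^[i]) x := by
  exact end_sum_apply (Finset.range n) (fun i => s ^ i) x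

theorem end_pow_sub_one_apply (s : AddMonoid.End M) (n : ℕ) (hs : ∀ x, (s^[n]) x = x) (x : M) :
    (s ^ n - 1 : AddMonoid.End M) x = 0 := by
  show (s ^ n) x - x = 0
  rw [AddMonoid.End.coe_pow, hs, sub_self]

theorem del_comp_nrm (s : AddMonoid.End M) (n : ℕ) (hs : ∀ x, (s^[n]) x = x) (x : M) :
    del s (nrm s n x) = 0 := by
  have h : (s - 1) * ∑ i ∈ Finset.range n, s ^ i = s ^ n - 1 := mul_geom_sum _ _
  have h2 := DFunLike.congr_fun h x
  rw [end_pow_sub_one_apply s n hs] at h2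
  exact h2

theorem nrm_comp_del (s : AddMonoid.End M) (n : ℕ) (hs : ∀ x, (s^[n]) x = x) (x : M) :
    nrm s n (del s x) = 0 := by
  have h : (∑ i ∈ Finset.range n, s ^ i) * (s - 1) = s ^ n - 1 := geom_sum_mul _ _
  have h2 := DFunLike.congr_fun h x
  rw [end_pow_sub_one_apply s n hs] at h2
  exact h2

/-- order of `Ĥ⁰`: `[ker (s - 1) : im Nm]` -/
noncomputable def h0 (s : AddMonoid.End M) (n : ℕ) : ℕ := hidx (del s) (nrm s n)

/-- order of `Ĥ¹ = Ĥ⁻¹`: `[ker Nm : im (s - 1)]` -/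
noncomputable def h1 (s : AddMonoid.End M) (n : ℕ) : ℕ := hidx (nrm s n) (del s)

theorem h0_def (s : AddMonoid.End M) (n : ℕ) :
    h0 s n = (nrm s n).range.relIndex (del s).ker := rfl

theorem h1_def (s : AddMonoid.End M) (n : ℕ) :
    h1 s n = (del s).range.relIndex (nrm s n).ker := rfl

theorem iterate_semiconj {A B : Type*} [AddCommGroup A] [AddCommGroup B] (φ : A →+ B)
    (sA : AddMonoid.End A) (sB : AddMonoid.End B) (h : ∀ a, φ (sA a) = sB (φ a)) (i : ℕ)
    (a : A) : φ ((sA^[i]) a) = (sB^[i]) (φ a) := by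
  induction i generalizing a with
  | zero => rfl
  | succ k ih => rw [Function.iterate_succ_apply, Function.iterate_succ_apply, ih, h]

theorem map_del {A B : Type*} [AddCommGroup A] [AddCommGroup B] (φ : A →+ B)
    (sA : AddMonoid.End A) (sB : AddMonoid.End B) (h : ∀ a, φ (sA a) = sB (φ a)) (a : A) :
    φ (del sA a) = del sB (φ a) := by
  rw [del_apply, del_apply, map_sub, h]

theorem map_nrm {A B : Type*} [AddCommGroup A] [AddCommGroup B] (φ : A →+ B)
    (sA : AddMonoid.End A) (sB : AddMonoid.End B) (h : ∀ a, φ (sA a) = sB (φ a)) (n : ℕ)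
    (a : A) : φ (nrm sA n a) = nrm sB n (φ a) := by
  rw [nrm_apply, nrm_apply, map_sum]
  exact Finset.sum_congr rfl fun i _ => iterate_semiconj φ sA sB h i a

/-- A short exact sequence of groups with compatible endomorphisms `sA, sB, sC`, where
`sB ^ n = 1`, gives an `EquivExact` for the pairs `(del, nrm)`. -/
theorem equivExact_cyclic {A B C : Type*} [AddCommGroup A] [AddCommGroup B] [AddCommGroup C]
    {φ : A →+ B} {ψ : B →+ C} (hφ : Function.Injective φ) (hψ : Function.Surjective ψ)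
    (hex : φ.range = ψ.ker) {sA : AddMonoid.End A} {sB : AddMonoid.End B}
    {sC : AddMonoid.End C} {n : ℕ} (hs : ∀ x, (sB^[n]) x = x)
    (hA : ∀ a, φ (sA a) = sB (φ a)) (hC : ∀ b, ψ (sB b) = sC (ψ b)) :
    EquivExact φ ψ (del sA) (nrm sA n) (del sB) (nrm sB n) (del sC) (nrm sC n) where
  inj := hφ
  surj := hψ
  exact := hex
  fg := del_comp_nrm sB n hs
  gf := nrm_comp_del sB n hs
  fA := map_del φ sA sB hA
  gA := fun a => map_nrm φ sA sB hA n a
  fC := map_del ψ sB sC hC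
  gC := fun b => map_nrm ψ sB sC hC n b

/-- `IsHQ s n q`: the Herbrand quotient `h0 / h1` of `(M, s)` (with respect to the norm
`1 + s + ⋯ + s ^ (n - 1)`) is defined (both indices are finite) and equal to `q`. -/
def IsHQ (s : AddMonoid.End M) (n : ℕ) (q : ℚ) : Prop := HasHQ (del s) (nrm s n) q

theorem IsHQ.h0_ne_zero {s : AddMonoid.End M} {n : ℕ} {q : ℚ} (h : IsHQ s n q) : h0 s n ≠ 0 := h.1

theorem IsHQ.h1_ne_zero {s : AddMonoid.End M} {n : ℕ} {q : ℚ} (h : IsHQ s n q) : h1 s n ≠ 0 :=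
  h.2.1

theorem IsHQ.div_eq {s : AddMonoid.End M} {n : ℕ} {q : ℚ} (h : IsHQ s n q) :
    (h0 s n : ℚ) / (h1 s n : ℚ) = q := h.2.2

theorem IsHQ.h0_eq {s : AddMonoid.End M} {n : ℕ} {q : ℚ} (h : IsHQ s n q) :
    (h0 s n : ℚ) = q * (h1 s n : ℚ) := HasHQ.mul_eq h

theorem IsHQ.unique {s : AddMonoid.End M} {n : ℕ} {q q' : ℚ} (h : IsHQ s n q) (h' : IsHQ s n q') :
    q = q' := HasHQ.unique h h'

theorem hq_iff {s : AddMonoid.End M} {n : ℕ} {q : ℚ} :
    IsHQ s n q ↔ h0 s n ≠ 0 ∧ h1 s n ≠ 0 ∧ (h0 s n : ℚ) / (h1 s n : ℚ) = q := Iff.rfl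

theorem hq_of_eq {s : AddMonoid.End M} {n a b : ℕ} (ha : h0 s n = a) (hb : h1 s n = b)
    (ha0 : a ≠ 0) (hb0 : b ≠ 0) : IsHQ s n ((a : ℚ) / b) :=
  hasHQ_of_eq ha hb ha0 hb0

/-- natural number form: `h0 = a * h1` if the Herbrand quotient is the natural number `a`. -/
theorem IsHQ.h0_eq_nat {s : AddMonoid.End M} {n a : ℕ} (h : IsHQ s n (a : ℚ)) :
    h0 s n = a * h1 s n := by
  have := h.h0_eq
  exact_mod_cast this

/-- natural number form: `a * h0 = h1` if the Herbrand quotient is `1 / a`. -/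
theorem IsHQ.h1_eq_nat {s : AddMonoid.End M} {n a : ℕ} (h : IsHQ s n ((a : ℚ)⁻¹)) :
    a * h0 s n = h1 s n := by
  have e1 := h.h0_eq
  have ha : (a : ℚ) ≠ 0 := by
    intro e0
    have := HasHQ.ne_zero h
    rw [e0, inv_zero] at this
    exact this rfl
  have e2 : (a : ℚ) * (h0 s n : ℚ) = (h1 s n : ℚ) := by
    rw [e1, ← mul_assoc, mul_inv_cancel₀ ha, one_mul]
  exact_mod_cast e2

/-- (a) finite groups have Herbrand quotient `1`. -/
theorem hq_of_finite [Finite M] {s : AddMonoid.End M} {n : ℕ} (hs : ∀ x, (s^[n]) x = x) :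
    IsHQ s n 1 :=
  hasHQ_of_finite (del_comp_nrm s n hs) (nrm_comp_del s n hs)

/-- (a) on a finite group `h0 = h1 ≠ 0`. -/
theorem h0_eq_h1_of_finite [Finite M] {s : AddMonoid.End M} {n : ℕ}
    (hs : ∀ x, (s^[n]) x = x) : h0 s n = h1 s n ∧ h0 s n ≠ 0 :=
  hidx_eq_of_finite (del_comp_nrm s n hs) (nrm_comp_del s n hs)

section ExactCyclic

variable {A B C : Type*} [AddCommGroup A] [AddCommGroup B] [AddCommGroup C]
  {φ : A →+ B} {ψ : B →+ C} {sA : AddMonoid.End A} {sB : AddMonoid.End B}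
  {sC : AddMonoid.End C} {n : ℕ}

/-- (b) hexagon identity for the indices, no finiteness assumption (infinite index = `0`). -/
theorem h0_mul_h1_mul_h1 (hφ : Function.Injective φ) (hψ : Function.Surjective ψ)
    (hex : φ.range = ψ.ker) (hs : ∀ x, (sB^[n]) x = x)
    (hA : ∀ a, φ (sA a) = sB (φ a)) (hC : ∀ b, ψ (sB b) = sC (ψ b)) :
    h0 sB n * h1 sA n * h1 sC n = h1 sB n * h0 sA n * h0 sC n :=
  (equivExact_cyclic hφ hψ hex hs hA hC).hidx_mul_eq

/-- (b) multiplicativity: `A` and `C` give `B`. -/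
theorem hq_mid (hφ : Function.Injective φ) (hψ : Function.Surjective ψ)
    (hex : φ.range = ψ.ker) (hs : ∀ x, (sB^[n]) x = x)
    (hA : ∀ a, φ (sA a) = sB (φ a)) (hC : ∀ b, ψ (sB b) = sC (ψ b)) {a c : ℚ}
    (h1 : IsHQ sA n a) (h2 : IsHQ sC n c) : IsHQ sB n (a * c) :=
  (equivExact_cyclic hφ hψ hex hs hA hC).hasHQ_mid h1 h2

/-- (b) multiplicativity: `A` and `B` give `C`. -/
theorem hq_right (hφ : Function.Injective φ) (hψ : Function.Surjective ψ)
    (hex : φ.range = ψ.ker) (hs : ∀ x, (sB^[n]) x = x)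
    (hA : ∀ a, φ (sA a) = sB (φ a)) (hC : ∀ b, ψ (sB b) = sC (ψ b)) {a b : ℚ}
    (h1 : IsHQ sA n a) (h2 : IsHQ sB n b) : IsHQ sC n (b / a) :=
  (equivExact_cyclic hφ hψ hex hs hA hC).hasHQ_right h1 h2

/-- (b) multiplicativity: `B` and `C` give `A`. -/
theorem hq_left (hφ : Function.Injective φ) (hψ : Function.Surjective ψ)
    (hex : φ.range = ψ.ker) (hs : ∀ x, (sB^[n]) x = x)
    (hA : ∀ a, φ (sA a) = sB (φ a)) (hC : ∀ b, ψ (sB b) = sC (ψ b)) {b c : ℚ}
    (h1 : IsHQ sB n b) (h2 : IsHQ sC n c) : IsHQ sA n (b / c) :=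
  (equivExact_cyclic hφ hψ hex hs hA hC).hasHQ_left h1 h2

/-- invariance under equivariant isomorphisms -/
theorem hq_congr (e : A ≃+ B) (hA : ∀ a, e (sA a) = sB (e a)) {q : ℚ} :
    IsHQ sA n q ↔ IsHQ sB n q :=
  hasHQ_congr e (map_del e.toAddMonoidHom sA sB hA) (fun a => map_nrm e.toAddMonoidHom sA sB hA n a)

theorem h0_congr (e : A ≃+ B) (hA : ∀ a, e (sA a) = sB (e a)) : h0 sA n = h0 sB n :=
  hidx_congr e (map_del e.toAddMonoidHom sA sB hA) (fun a => map_nrm e.toAddMonoidHom sA sB hA n a)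

theorem h1_congr (e : A ≃+ B) (hA : ∀ a, e (sA a) = sB (e a)) : h1 sA n = h1 sB n :=
  hidx_congr e (fun a => map_nrm e.toAddMonoidHom sA sB hA n a) (map_del e.toAddMonoidHom sA sB hA)

/-- invariance under passing to an equivariant subgroup of finite index -/
theorem hq_iff_of_finiteIndex (hφ : Function.Injective φ) (hfin : φ.range.index ≠ 0)
    (hs : ∀ x, (sB^[n]) x = x) (hA : ∀ a, φ (sA a) = sB (φ a)) {q : ℚ} :
    IsHQ sA n q ↔ IsHQ sB n q :=
  hasHQ_iff_of_finiteIndex φ hφ hfin (del_comp_nrm sB n hs) (nrm_comp_del sB n hs)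
    (map_del φ sA sB hA) (fun a => map_nrm φ sA sB hA n a)

end ExactCyclic

section TrivialAction

theorem del_one : del (1 : AddMonoid.End M) = 0 := by
  ext x
  simp [del_apply]

theorem nrm_one_apply (n : ℕ) (x : M) : nrm (1 : AddMonoid.End M) n x = n • x := by
  rw [nrm_apply]
  simp

/-- trivial action: `h0 = [M : n M]` -/
theorem h0_one (n : ℕ) :
    h0 (1 : AddMonoid.End M) n = (nrm (1 : AddMonoid.End M) n).range.index := by
  rw [h0_def, del_one, AddMonoidHom.ker_zero, relIndex_top_right]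

/-- trivial action: `h1 = |M[n]|` -/
theorem h1_one (n : ℕ) :
    h1 (1 : AddMonoid.End M) n = Nat.card (nrm (1 : AddMonoid.End M) n).ker := by
  rw [h1_def, del_one, AddMonoidHom.range_zero, relIndex_bot_left]

/-- (d) `ℤ` with trivial action: `h0 = n`. -/
theorem h0_int (n : ℕ) : h0 (1 : AddMonoid.End ℤ) n = n := by
  rw [h0_one]
  have h : (nrm (1 : AddMonoid.End ℤ) n).range = AddSubgroup.zmultiples (n : ℤ) := by
    ext x
    rw [AddMonoidHom.mem_range, AddSubgroup.mem_zmultiples_iff]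
    constructor
    · rintro ⟨y, rfl⟩
      exact ⟨y, by rw [nrm_one_apply]; simp [mul_comm]⟩
    · rintro ⟨y, rfl⟩
      exact ⟨y, by rw [nrm_one_apply]; simp [mul_comm]⟩
  rw [h, Int.index_zmultiples]
  simp

/-- (d) `ℤ` with trivial action: `h1 = 1`. -/
theorem h1_int {n : ℕ} (hn : n ≠ 0) : h1 (1 : AddMonoid.End ℤ) n = 1 := by
  rw [h1_one]
  have h : (nrm (1 : AddMonoid.End ℤ) n).ker = ⊥ := by
    ext x
    rw [AddMonoidHom.mem_ker, nrm_one_apply, AddSubgroup.mem_bot]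
    simp [hn]
  rw [h]
  simp

/-- (d) `ℤ` with trivial action has Herbrand quotient `n`. -/
theorem hq_int {n : ℕ} (hn : n ≠ 0) : IsHQ (1 : AddMonoid.End ℤ) n (n : ℚ) := by
  have := hq_of_eq (h0_int n) (h1_int hn) hn one_ne_zero
  simpa using this

/-- an endomorphism of `ℤ` of odd finite order is the identity -/
theorem end_int_eq_one {s : AddMonoid.End ℤ} {n : ℕ} (hn : Odd n)
    (hs : ∀ x, (s^[n]) x = x) : s = 1 := by
  have hmul : ∀ x : ℤ, s x = s 1 * x := by
    intro x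
    have := map_zsmul s x (1 : ℤ)
    simpa [mul_comm] using this
  have hit : ∀ (i : ℕ) (x : ℤ), (s^[i]) x = (s 1) ^ i * x := by
    intro i
    induction i with
    | zero => intro x; simp
    | succ k ih =>
      intro x
      rw [Function.iterate_succ_apply', ih, hmul, pow_succ]
      ring
  have h1 : (s 1) ^ n = 1 := by
    have := hs 1
    rw [hit, mul_one] at this
    exact this
  have h2 : s 1 = 1 := by
    rcases Int.isUnit_iff.1 (IsUnit.of_pow_eq_one h1 hn.pos.ne') with h | h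
    · exact h
    · rw [h, hn.neg_one_pow] at h1
      exact absurd h1 (by decide)
  ext x
  rw [hmul x, h2, one_mul]
  rfl

/-- (d) a group isomorphic to `ℤ` with an automorphism of odd order `n`: quotient `n`. -/
theorem hq_of_equiv_int {s : AddMonoid.End M} {n : ℕ} (e : M ≃+ ℤ) (hn : Odd n)
    (hs : ∀ x, (s^[n]) x = x) : IsHQ s n (n : ℚ) := by
  let t : AddMonoid.End ℤ := (e.toAddMonoidHom.comp ((s : M →+ M).comp e.symm.toAddMonoidHom))
  have ht : ∀ x, t (e x) = e (s x) := by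
    intro x
    show e (s (e.symm (e x))) = e (s x)
    rw [e.symm_apply_apply]
  have hit : ∀ (i : ℕ) (y : ℤ), (t^[i]) y = e ((s^[i]) (e.symm y)) := by
    intro i
    induction i with
    | zero => intro y; simp
    | succ k ih =>
      intro y
      rw [Function.iterate_succ_apply', Function.iterate_succ_apply', ih, ← ht]
  have ht1 : t = 1 := end_int_eq_one hn (fun y => by rw [hit, hs, e.apply_symm_apply])
  have hcongr : IsHQ s n (n : ℚ) ↔ IsHQ t n (n : ℚ) := hq_congr e (fun a => (ht a).symm)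
  rw [hcongr, ht1]
  exact hq_int hn.pos.ne'

end TrivialAction

end Cyclic

end Fermat.Agent.S14.HQ
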