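import Mathlib
import Fermat.Agent.S14.Defs
import Fermat.Prelude.Def_ClassGroup_GaloisAction

/-!
# P-CFT / S14, module B-AMB (part 1): basic objects

* `BAmb_invariant_extended` : in an everywhere unramified Galois extension of number fields every
  nonzero Galois-stable ideal of `𝓞 L` is extended from `𝓞 K`.
* `BAmb_count_fibre`, `BAmb_index_le` : two elementary counting lemmas.
* `BAmb_nm`, `BAmb_uact`, `BAmb_unm`, `BAmb_uD`, `BAmb_h0`, `BAmb_h1`, `BAmb_clAct` : the norm on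
  `𝓞 L`, the Galois action on units, the Herbrand indices of the units and the Galois action on
  the class group.
-/

set_option autoImplicit false
set_option linter.unusedSectionVars false
set_option linter.style.haveILetI false

open NumberField IsDedekindDomain
open scoped nonZeroDivisors Pointwise

namespace Fermat.Agent.S14

section Counting

/-- counting lemma: if a relation `R` from a subgroup `F` to a finite type `Q` is total on `F` and
two elements of `F` related to the same `q` differ by an element of `J`, then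
`|F| ≤ |J| * |Q|`. -/
theorem BAmb_count_fibre {G : Type*} [Group G] [Finite G] (F J : Subgroup G) {Q : Type*}
    [Finite Q] (R : G → Q → Prop) (h1 : ∀ c ∈ F, ∃ q, R c q)
    (h2 : ∀ c c' q, c ∈ F → c' ∈ F → R c q → R c' q → c * c'⁻¹ ∈ J) :
    Nat.card F ≤ Nat.card J * Nat.card Q := by
  classical
  have h1' : ∀ c : F, ∃ q, R c q := fun c => h1 c c.2
  choose θ hθ using h1'
  -- base point for each `q`
  let base : Q → F := fun q => if h : ∃ c : F, θ c = q then h.choose else 1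
  have hbase : ∀ c : F, θ (base (θ c)) = θ c := by
    intro c
    have h : ∃ c' : F, θ c' = θ c := ⟨c, rfl⟩
    simp only [base, dif_pos h]
    exact h.choose_spec
  let f : F → J × Q := fun c =>
    (⟨(c : G) * ((base (θ c) : F) : G)⁻¹, h2 _ _ (θ c) c.2 (base (θ c)).2 (hθ c)
      (by have := hθ (base (θ c)); rwa [hbase c] at this)⟩, θ c)
  have hf : Function.Injective f := by
    intro c c' h
    simp only [f, Prod.mk.injEq, Subtype.mk.injEq] at h
    obtain ⟨h1, h2⟩ := h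
    rw [h2] at h1
    exact Subtype.ext (mul_right_cancel h1)
  calc Nat.card F ≤ Nat.card (J × Q) := Nat.card_le_card_of_injective f hf
    _ = Nat.card J * Nat.card Q := Nat.card_prod _ _

/-- counting lemma: if a relation `R` from a group `A` to a finite type `T` is total and two
elements related to the same `t` differ by an element of the subgroup `B`, then `B` has finite
index at most `|T|`. -/
theorem BAmb_index_le {A : Type*} [Group A] (B : Subgroup A) {T : Type*} [Finite T]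
    (R : A → T → Prop) (h1 : ∀ a, ∃ t, R a t)
    (h2 : ∀ a a' t, R a t → R a' t → a⁻¹ * a' ∈ B) :
    B.index ≠ 0 ∧ B.index ≤ Nat.card T := by
  classical
  choose θ hθ using h1
  let f : A ⧸ B → T := fun q => θ q.out
  have hf : Function.Injective f := by
    intro q q' h
    have h' : θ q.out = θ q'.out := h
    have := h2 _ _ _ (hθ q.out) (h' ▸ hθ q'.out)
    rw [← QuotientGroup.out_eq' q, ← QuotientGroup.out_eq' q']
    exact QuotientGroup.eq.mpr this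
  have : Finite (A ⧸ B) := Finite.of_injective f hf
  refine ⟨?_, ?_⟩
  · rw [Subgroup.index]
    exact Nat.card_pos.ne'
  · rw [Subgroup.index]
    exact Nat.card_le_card_of_injective f hf

end Counting

section Extended

variable {K L : Type} [Field K] [NumberField K] [Field L] [NumberField L] [Algebra K L]
  [IsGalois K L]

/-- the Galois group fixes extended ideals -/
theorem BAmb_smul_map (g : Gal(L/K)) (𝔟 : Ideal (𝓞 K)) :
    g • (𝔟.map (algebraMap (𝓞 K) (𝓞 L))) = 𝔟.map (algebraMap (𝓞 K) (𝓞 L)) := by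
  rw [Ideal.pointwise_smul_def, Ideal.map_map]
  congr 1
  ext x
  simp

theorem BAmb_smul_mul (g : Gal(L/K)) (I J : Ideal (𝓞 L)) : g • (I * J) = g • I * g • J := by
  rw [Ideal.pointwise_smul_def, Ideal.pointwise_smul_def, Ideal.pointwise_smul_def, Ideal.map_mul]

theorem BAmb_smul_le_smul (g : Gal(L/K)) {I J : Ideal (𝓞 L)} (h : I ≤ J) : g • I ≤ g • J := by
  rw [Ideal.pointwise_smul_def, Ideal.pointwise_smul_def]
  exact Ideal.map_mono h

/-- In an everywhere unramified Galois extension, the extension of a nonzero prime of `K`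
is the product of the primes above it. -/
theorem BAmb_map_prime_eq_prod (hur : UnramifiedEverywhere K L) (𝔮 : Ideal (𝓞 K))
    [h𝔮 : 𝔮.IsMaximal] (hne : 𝔮 ≠ ⊥) :
    𝔮.map (algebraMap (𝓞 K) (𝓞 L)) = ∏ P ∈ (𝔮.primesOver (𝓞 L)).toFinset, P := by
  rw [Ideal.map_algebraMap_eq_finsetProd_pow (R := 𝓞 L) hne]
  refine Finset.prod_congr rfl fun P hP => ?_
  rw [Set.mem_toFinset] at hP
  haveI : P.IsPrime := hP.1
  haveI : P.LiesOver 𝔮 := hP.2
  have h1 := Ideal.ramificationIdxIn_eq_ramificationIdx 𝔮 P Gal(L/K)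
  have h2 := hur ⟨𝔮, h𝔮.isPrime, hne⟩
  simp only at h2
  rw [← h1, h2, pow_one]

theorem BAmb_invariant_extended_aux (hur : UnramifiedEverywhere K L) :
    ∀ (n : ℕ) (𝔅 : Ideal (𝓞 L)), Ideal.absNorm 𝔅 = n → 𝔅 ≠ ⊥ →
      (∀ g : Gal(L/K), g • 𝔅 = 𝔅) →
      ∃ 𝔟 : Ideal (𝓞 K), 𝔟 ≠ ⊥ ∧ 𝔟.map (algebraMap (𝓞 K) (𝓞 L)) = 𝔅 := by
  intro n
  induction n using Nat.strong_induction_on with
  | _ n ih =>
    intro 𝔅 hn hne hinv
    by_cases htop : 𝔅 = ⊤
    · exact ⟨⊤, top_ne_bot, by rw [htop, Ideal.map_top]⟩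
    obtain ⟨𝔓, h𝔓max, h𝔓le⟩ := Ideal.exists_le_maximal 𝔅 htop
    haveI := h𝔓max
    have h𝔓ne : 𝔓 ≠ ⊥ := fun h => hne (le_bot_iff.mp (h ▸ h𝔓le))
    set 𝔮 : Ideal (𝓞 K) := 𝔓.under (𝓞 K) with h𝔮def
    haveI h𝔮prime : 𝔮.IsPrime := inferInstance
    have h𝔮ne : 𝔮 ≠ ⊥ := Ideal.under_ne_bot (𝓞 K) h𝔓ne
    haveI h𝔮max : 𝔮.IsMaximal := h𝔮prime.isMaximal h𝔮ne
    have hmapne : 𝔮.map (algebraMap (𝓞 K) (𝓞 L)) ≠ ⊥ := Ideal.map_ne_bot_of_ne_bot h𝔮ne
    -- the extension of 𝔮 divides 𝔅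
    have hdvd : 𝔮.map (algebraMap (𝓞 K) (𝓞 L)) ∣ 𝔅 := by
      rw [BAmb_map_prime_eq_prod hur 𝔮 h𝔮ne]
      refine Finset.prod_primes_dvd 𝔅 (fun P hP => ?_) (fun P hP => ?_)
      · rw [Set.mem_toFinset] at hP
        haveI : P.IsPrime := hP.1
        haveI : P.LiesOver 𝔮 := hP.2
        exact Ideal.prime_of_isPrime (Ideal.ne_bot_of_liesOver_of_ne_bot h𝔮ne P) hP.1
      · rw [Set.mem_toFinset] at hP
        haveI : P.IsPrime := hP.1
        haveI : P.LiesOver 𝔮 := hP.2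
        obtain ⟨g, hg⟩ := Ideal.exists_smul_eq_of_isGaloisGroup 𝔮 𝔓 P Gal(L/K)
        rw [Ideal.dvd_iff_le, ← hg, ← hinv g]
        exact BAmb_smul_le_smul g h𝔓le
    obtain ⟨𝔅', h𝔅'⟩ := hdvd
    have h𝔅'ne : 𝔅' ≠ ⊥ := by
      rintro rfl
      exact hne (by rw [h𝔅']; simp)
    have hinv' : ∀ g : Gal(L/K), g • 𝔅' = 𝔅' := by
      intro g
      have h := hinv g
      rw [h𝔅', BAmb_smul_mul, BAmb_smul_map] at h
      exact mul_left_cancel₀ hmapne h
    have hmaptop : 𝔮.map (algebraMap (𝓞 K) (𝓞 L)) ≠ ⊤ := by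
      intro h
      have : (𝔮.map (algebraMap (𝓞 K) (𝓞 L))) ≤ 𝔓 := Ideal.map_comap_le
      rw [h] at this
      exact h𝔓max.ne_top (top_le_iff.mp this)
    have hlt : Ideal.absNorm 𝔅' < n := by
      have h1 : Ideal.absNorm 𝔅 = Ideal.absNorm (𝔮.map (algebraMap (𝓞 K) (𝓞 L))) *
          Ideal.absNorm 𝔅' := by rw [h𝔅', map_mul]
      have h2 : Ideal.absNorm (𝔮.map (algebraMap (𝓞 K) (𝓞 L))) ≠ 1 := by
        rw [Ne, Ideal.absNorm_eq_one_iff]; exact hmaptop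
      have h3 : Ideal.absNorm (𝔮.map (algebraMap (𝓞 K) (𝓞 L))) ≠ 0 := by
        rw [Ne, Ideal.absNorm_eq_zero_iff]; exact hmapne
      have h4 : Ideal.absNorm 𝔅' ≠ 0 := by
        rw [Ne, Ideal.absNorm_eq_zero_iff]; exact h𝔅'ne
      rw [← hn, h1]
      have h5 : 2 ≤ Ideal.absNorm (𝔮.map (algebraMap (𝓞 K) (𝓞 L))) := by omega
      calc Ideal.absNorm 𝔅' < 2 * Ideal.absNorm 𝔅' := by omega
        _ ≤ _ := Nat.mul_le_mul_right _ h5
    obtain ⟨𝔟', h𝔟'ne, h𝔟'⟩ := ih _ hlt 𝔅' rfl h𝔅'ne hinv'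
    refine ⟨𝔮 * 𝔟', mul_ne_zero h𝔮ne h𝔟'ne, ?_⟩
    rw [Ideal.map_mul, h𝔟', ← h𝔅']

/-- **Invariant ideals are extended.**  In an everywhere unramified Galois extension `L / K` of
number fields every nonzero ideal of `𝓞 L` which is stable under `Gal(L/K)` is the extension of
an ideal of `𝓞 K`. -/
theorem BAmb_invariant_extended (hur : UnramifiedEverywhere K L) (𝔅 : Ideal (𝓞 L)) (hne : 𝔅 ≠ ⊥)
    (hinv : ∀ g : Gal(L/K), g • 𝔅 = 𝔅) :
    ∃ 𝔟 : Ideal (𝓞 K), 𝔟 ≠ ⊥ ∧ 𝔟.map (algebraMap (𝓞 K) (𝓞 L)) = 𝔅 :=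
  BAmb_invariant_extended_aux hur _ 𝔅 rfl hne hinv

end Extended

section Objects

variable (K : Type) {L : Type} [Field K] [NumberField K] [Field L] [NumberField L] [Algebra K L]
  [IsGalois K L]

/-- the norm `z ↦ ∏ g, g • z` on `𝓞 L` -/
noncomputable def BAmb_nm : 𝓞 L →* 𝓞 L where
  toFun z := ∏ g : Gal(L/K), g • z
  map_one' := by simp
  map_mul' a b := by simp [smul_mul', Finset.prod_mul_distrib]

theorem BAmb_nm_apply (z : 𝓞 L) : BAmb_nm K z = ∏ g : Gal(L/K), g • z := rfl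

theorem BAmb_nm_smul (g : Gal(L/K)) (z : 𝓞 L) : BAmb_nm K (g • z) = BAmb_nm K z := by
  rw [BAmb_nm_apply, BAmb_nm_apply]
  refine Fintype.prod_equiv (Equiv.mulRight g) _ _ fun h => ?_
  simp [mul_smul]

theorem BAmb_smul_nm (g : Gal(L/K)) (z : 𝓞 L) : g • BAmb_nm K z = BAmb_nm K z := by
  rw [BAmb_nm_apply, Finset.smul_prod']
  refine Fintype.prod_equiv (Equiv.mulLeft g) _ _ fun h => ?_
  simp [mul_smul]

theorem BAmb_nm_ne_zero {z : 𝓞 L} (hz : z ≠ 0) : BAmb_nm K z ≠ 0 := by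
  rw [BAmb_nm_apply, Finset.prod_ne_zero_iff]
  intro g _ h
  apply hz
  have := congrArg (fun t => g⁻¹ • t) h
  simpa using this

theorem BAmb_coe_smul (g : Gal(L/K)) (z : 𝓞 L) : ((g • z : 𝓞 L) : L) = g (z : L) := rfl

theorem BAmb_coe_nm (z : 𝓞 L) :
    ((BAmb_nm K z : 𝓞 L) : L) = algebraMap K L (Algebra.norm K (z : L)) := by
  rw [Algebra.norm_eq_prod_automorphisms, BAmb_nm_apply]
  simp [BAmb_coe_smul]

/-- the action of `g` on the units of `𝓞 L` -/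
noncomputable def BAmb_uact (g : Gal(L/K)) : (𝓞 L)ˣ →* (𝓞 L)ˣ :=
  Units.map (MulSemiringAction.toRingHom Gal(L/K) (𝓞 L) g : 𝓞 L →* 𝓞 L)

@[simp] theorem BAmb_coe_uact (g : Gal(L/K)) (u : (𝓞 L)ˣ) :
    ((BAmb_uact K g u : (𝓞 L)ˣ) : 𝓞 L) = g • (u : 𝓞 L) := rfl

/-- the norm on units -/
noncomputable def BAmb_unm : (𝓞 L)ˣ →* (𝓞 L)ˣ := Units.map (BAmb_nm K)

@[simp] theorem BAmb_coe_unm (u : (𝓞 L)ˣ) :
    ((BAmb_unm K u : (𝓞 L)ˣ) : 𝓞 L) = BAmb_nm K (u : 𝓞 L) := rfl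

/-- `u ↦ σ u / u` on units -/
noncomputable def BAmb_uD (σ : Gal(L/K)) : (𝓞 L)ˣ →* (𝓞 L)ˣ :=
  BAmb_uact K σ / MonoidHom.id _

theorem BAmb_uD_apply (σ : Gal(L/K)) (u : (𝓞 L)ˣ) : BAmb_uD K σ u = BAmb_uact K σ u / u := rfl

theorem BAmb_mem_ker_uD {σ : Gal(L/K)} {u : (𝓞 L)ˣ} :
    u ∈ (BAmb_uD K σ).ker ↔ σ • (u : 𝓞 L) = u := by
  rw [MonoidHom.mem_ker, BAmb_uD_apply, div_eq_one, Units.ext_iff, BAmb_coe_uact]

/-- the zeroth Herbrand index `[E^σ : N E]` of the units of `L` -/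
noncomputable def BAmb_h0 (σ : Gal(L/K)) : ℕ := (BAmb_unm K (L := L)).range.relIndex (BAmb_uD K σ).ker

/-- the first Herbrand index `[ker N : (σ - 1) E]` of the units of `L` -/
noncomputable def BAmb_h1 (σ : Gal(L/K)) : ℕ := (BAmb_uD K σ).range.relIndex (BAmb_unm K (L := L)).ker

/-- the action of `σ` on the class group of `L` -/
noncomputable def BAmb_clAct (σ : Gal(L/K)) : ClassGroup (𝓞 L) ≃* ClassGroup (𝓞 L) :=
  ClassGroup.mulEquiv (MulSemiringAction.toRingEquiv Gal(L/K) (𝓞 L) σ)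

theorem BAmb_smul_ne_bot (σ : Gal(L/K)) {I : Ideal (𝓞 L)} (hI : I ≠ ⊥) : σ • I ≠ ⊥ := by
  intro h
  apply hI
  have := congrArg (fun t => σ⁻¹ • t) h
  simpa using this

/-- `σ • I` as a nonzero ideal -/
noncomputable def BAmb_smul0 (σ : Gal(L/K)) (I : (Ideal (𝓞 L))⁰) : (Ideal (𝓞 L))⁰ :=
  ⟨σ • (I : Ideal (𝓞 L)), mem_nonZeroDivisors_iff_ne_zero.mpr
    (BAmb_smul_ne_bot K σ (mem_nonZeroDivisors_iff_ne_zero.mp I.2))⟩

theorem BAmb_clAct_mk0 (σ : Gal(L/K)) (I : (Ideal (𝓞 L))⁰) :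
    BAmb_clAct K σ (ClassGroup.mk0 I) = ClassGroup.mk0 (BAmb_smul0 K σ I) := by
  rw [BAmb_clAct, ClassGroup.mulEquiv_mk0]
  congr 1

end Objects

end Fermat.Agent.S14
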