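import Mathlib
import Fermat.Agent.S14.B.AmbBase

/-!
# P-CFT / S14, module B-AMB: the ambiguous class number inequality

For a cyclic everywhere unramified extension `L / K` of number fields with Galois group generated
by `σ`:
`|Cl(L)^σ| * h1(E_L) ≤ h_K * h0(E_L)`, where `h0 = [E_L^σ : N E_L]`, `h1 = [ker N : (σ-1) E_L]`
are the Herbrand indices of the unit group `E_L = (𝓞 L)ˣ`.
-/

set_option autoImplicit false
set_option linter.unusedSectionVars false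
set_option linter.style.haveILetI false

open NumberField IsDedekindDomain
open scoped nonZeroDivisors Pointwise

namespace Fermat.Agent.S14

variable (K : Type) {L : Type} [Field K] [NumberField K] [Field L] [NumberField L] [Algebra K L]
  [IsGalois K L]

/-- ambiguity data for the ideal `𝔄`: `(x) σ𝔄 = (y) 𝔄` with `x, y ≠ 0`. -/
def BAmb_Data (σ : Gal(L/K)) (𝔄 : Ideal (𝓞 L)) (x y : 𝓞 L) : Prop :=
  x ≠ 0 ∧ y ≠ 0 ∧ Ideal.span {x} * σ • 𝔄 = Ideal.span {y} * 𝔄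

theorem BAmb_smul_span (g : Gal(L/K)) (x : 𝓞 L) :
    g • (Ideal.span {x} : Ideal (𝓞 L)) = Ideal.span {g • x} := by
  rw [Ideal.pointwise_smul_def, Ideal.map_span, Set.image_singleton]
  rfl

theorem BAmb_prod_smul_ne_bot {𝔄 : Ideal (𝓞 L)} (h𝔄 : 𝔄 ≠ ⊥) :
    (∏ g : Gal(L/K), g • 𝔄) ≠ ⊥ := by
  rw [← Ideal.zero_eq_bot, Finset.prod_ne_zero_iff]
  intro g _
  exact BAmb_smul_ne_bot K g h𝔄

/-- the unit attached to ambiguity data -/
theorem BAmb_Data.exists_unit {σ : Gal(L/K)} {𝔄 : Ideal (𝓞 L)} (h𝔄 : 𝔄 ≠ ⊥) {x y : 𝓞 L}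
    (h : BAmb_Data K σ 𝔄 x y) :
    ∃ u : (𝓞 L)ˣ, BAmb_nm K y = u * BAmb_nm K x ∧ u ∈ (BAmb_uD K σ).ker := by
  obtain ⟨hx, hy, he⟩ := h
  have key : Ideal.span {BAmb_nm K x} * (∏ g : Gal(L/K), g • 𝔄) =
      Ideal.span {BAmb_nm K y} * (∏ g : Gal(L/K), g • 𝔄) := by
    have h1 : ∀ g : Gal(L/K), Ideal.span {g • x} * (g * σ) • 𝔄 = Ideal.span {g • y} * g • 𝔄 := by
      intro g
      have := congrArg (fun I => g • I) he
      simp only [BAmb_smul_mul, BAmb_smul_span] at this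
      rwa [mul_smul]
    have h2 := congrArg (fun f => ∏ g : Gal(L/K), f g) (funext h1)
    simp only [Finset.prod_mul_distrib, Ideal.prod_span_singleton] at h2
    have h3 : (∏ g : Gal(L/K), (g * σ) • 𝔄) = ∏ g : Gal(L/K), g • 𝔄 :=
      Fintype.prod_equiv (Equiv.mulRight σ) _ _ fun g => rfl
    rw [h3] at h2
    exact h2
  have hP := BAmb_prod_smul_ne_bot K (L := L) h𝔄
  have h4 : Ideal.span {BAmb_nm K x} = Ideal.span {BAmb_nm K y} :=
    mul_right_cancel₀ hP key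
  obtain ⟨u, hu⟩ := Ideal.span_singleton_eq_span_singleton.mp h4
  refine ⟨u, by rw [← hu, mul_comm], ?_⟩
  rw [BAmb_mem_ker_uD]
  have h5 : σ • (BAmb_nm K x * u) = BAmb_nm K x * u := by rw [hu, BAmb_smul_nm]
  rw [smul_mul', BAmb_smul_nm] at h5
  exact mul_left_cancel₀ (BAmb_nm_ne_zero K hx) h5

/-- invariance under a generator gives invariance under the whole group -/
theorem BAmb_smul_eq_of_generator {σ : Gal(L/K)} (hσ : ∀ g, g ∈ Subgroup.zpowers σ)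
    {𝔅 : Ideal (𝓞 L)} (h : σ • 𝔅 = 𝔅) (g : Gal(L/K)) : g • 𝔅 = 𝔅 := by
  have : Subgroup.zpowers σ ≤ MulAction.stabilizer Gal(L/K) 𝔅 :=
    Subgroup.zpowers_le.mpr (MulAction.mem_stabilizer_iff.mpr h)
  exact MulAction.mem_stabilizer_iff.mp (this (hσ g))

/-- **Kernel lemma.**  If the ideal `𝔄` has ambiguity data `(x, y)` with `N y = N x`, then the
class of `𝔄` is extended from `K`. -/
theorem BAmb_kernel (hur : UnramifiedEverywhere K L) {σ : Gal(L/K)}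
    (hσ : ∀ g, g ∈ Subgroup.zpowers σ) (𝔄 : (Ideal (𝓞 L))⁰) {x y : 𝓞 L}
    (h : BAmb_Data K σ (𝔄 : Ideal (𝓞 L)) x y) (hn : BAmb_nm K y = BAmb_nm K x) :
    ∃ t : ClassGroup (𝓞 K), ClassGroup.extendedHom (𝓞 K) (𝓞 L) t = ClassGroup.mk0 𝔄 := by
  classical
  obtain ⟨hx, hy, he⟩ := h
  have h𝔄 : (𝔄 : Ideal (𝓞 L)) ≠ ⊥ := mem_nonZeroDivisors_iff_ne_zero.mp 𝔄.2
  have hxL : (x : L) ≠ 0 := fun h0 => hx (RingOfIntegers.coe_injective (by simpa using h0))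
  -- the quotient `y / x` has norm one
  have hz : Algebra.norm K ((y : L) / (x : L)) = 1 := by
    have h1 : algebraMap K L (Algebra.norm K (y : L)) = algebraMap K L (Algebra.norm K (x : L)) := by
      rw [← BAmb_coe_nm, ← BAmb_coe_nm, hn]
    have h2 := (algebraMap K L).injective h1
    have h3 : Algebra.norm K ((y : L) / (x : L)) * Algebra.norm K (x : L) =
        Algebra.norm K (y : L) := by
      rw [← map_mul, div_mul_cancel₀ _ hxL]
    have h4 : Algebra.norm K (x : L) ≠ 0 := Algebra.norm_ne_zero_iff.mpr hxL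
    rw [h2] at h3
    exact mul_right_cancel₀ h4 (h3.trans (one_mul _).symm)
  haveI : IsCyclic Gal(L/K) := ⟨⟨σ, hσ⟩⟩
  obtain ⟨β, hβ⟩ := groupCohomology.exists_div_of_norm_eq_one (K := K) (L := L) hσ hz
  obtain ⟨b, d, hd, hbd⟩ := IsFractionRing.div_surjective (𝓞 L) (β : L)
  have hd0 : d ≠ 0 := nonZeroDivisors.ne_zero hd
  have hdL : (d : L) ≠ 0 := fun h0 => hd0 (RingOfIntegers.coe_injective (by simpa using h0))
  have hb0 : b ≠ 0 := by
    rintro rfl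
    have : (β : L) = 0 := by rw [← hbd]; simp
    exact β.ne_zero this
  have hbL : (b : L) ≠ 0 := fun h0 => hb0 (RingOfIntegers.coe_injective (by simpa using h0))
  have hσd0 : σ • d ≠ 0 := by
    intro h0
    apply hd0
    have := congrArg (fun t => σ⁻¹ • t) h0
    simpa using this
  -- the key identity `b * σ d * x = y * σ b * d`
  have hkey : b * σ • d * x = y * σ • b * d := by
    apply RingOfIntegers.coe_injective
    have hσdL : σ (d : L) ≠ 0 := by simpa using hdL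
    have hσbL : σ (b : L) ≠ 0 := by simpa using hbL
    have h3 : ((b : L) / (d : L)) / (σ (b : L) / σ (d : L)) = (y : L) / (x : L) := by
      have h4 : (β : L) = (b : L) / (d : L) := hbd.symm
      rw [← hβ, h4, map_div₀]
    rw [div_div_div_eq, div_eq_div_iff (mul_ne_zero hdL hσbL) hxL] at h3
    simp only [map_mul, BAmb_coe_smul, ← RingOfIntegers.coe_eq_algebraMap]
    linear_combination h3
  set d'' : 𝓞 L := ∏ g ∈ (Finset.univ : Finset Gal(L/K)).erase 1, g • d with hd''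
  have hdd'' : d * d'' = BAmb_nm K d := by
    have := Finset.mul_prod_erase (Finset.univ : Finset Gal(L/K)) (fun g => g • d)
      (Finset.mem_univ 1)
    simpa [BAmb_nm_apply] using this
  have hd''0 : d'' ≠ 0 := by
    intro h0
    have := BAmb_nm_ne_zero K hd0
    rw [← hdd'', h0, mul_zero] at this
    exact this rfl
  have hσdd'' : σ • d * σ • d'' = d * d'' := by
    rw [← smul_mul', hdd'', BAmb_smul_nm]
  -- the element identity
  have helt : σ • (b * d'') * y = x * (b * d'') := by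
    have h5 : d * σ • d ≠ 0 := mul_ne_zero hd0 hσd0
    apply mul_right_cancel₀ h5
    rw [smul_mul']
    linear_combination (-(σ • d'') * (σ • d)) * hkey + (x * b * σ • d) * hσdd''
  -- the invariant ideal
  set 𝔅 : Ideal (𝓞 L) := Ideal.span {b * d''} * (𝔄 : Ideal (𝓞 L)) with h𝔅
  have h𝔅ne : 𝔅 ≠ ⊥ := by
    rw [h𝔅]
    refine mul_ne_zero ?_ h𝔄
    rw [Ne, Ideal.zero_eq_bot, Ideal.span_singleton_eq_bot]
    exact mul_ne_zero hb0 hd''0
  have hσ𝔅 : σ • 𝔅 = 𝔅 := by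
    have h6 : Ideal.span {x} * σ • 𝔅 = Ideal.span {x} * 𝔅 := by
      rw [h𝔅, BAmb_smul_mul, BAmb_smul_span, ← mul_assoc, mul_comm (Ideal.span {x}),
        mul_assoc, he, ← mul_assoc, ← mul_assoc, Ideal.span_singleton_mul_span_singleton,
        Ideal.span_singleton_mul_span_singleton, helt]
    exact (Ideal.span_singleton_mul_right_inj hx).mp h6
  obtain ⟨𝔟, h𝔟ne, h𝔟⟩ := BAmb_invariant_extended hur 𝔅 h𝔅ne
    (BAmb_smul_eq_of_generator K hσ hσ𝔅)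
  refine ⟨ClassGroup.mk0 ⟨𝔟, mem_nonZeroDivisors_iff_ne_zero.mpr h𝔟ne⟩, ?_⟩
  rw [ClassGroup.extendedHom_mk0, ClassGroup.mk0_eq_mk0_iff]
  refine ⟨1, b * d'', one_ne_zero, mul_ne_zero hb0 hd''0, ?_⟩
  simp only [Ideal.span_singleton_one, Ideal.top_mul]
  exact h𝔟

/-- the subgroup of classes fixed by `σ` -/
noncomputable def BAmb_fixed (σ : Gal(L/K)) : Subgroup (ClassGroup (𝓞 L)) where
  carrier := {c | BAmb_clAct K σ c = c}
  one_mem' := map_one _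
  mul_mem' := by
    intro a b ha hb
    change BAmb_clAct K σ a = a at ha
    change BAmb_clAct K σ b = b at hb
    change BAmb_clAct K σ (a * b) = a * b
    rw [map_mul, ha, hb]
  inv_mem' := by
    intro a ha
    change BAmb_clAct K σ a = a at ha
    change BAmb_clAct K σ a⁻¹ = a⁻¹
    rw [map_inv, ha]

theorem BAmb_mem_fixed {σ : Gal(L/K)} {c : ClassGroup (𝓞 L)} :
    c ∈ BAmb_fixed K σ ↔ BAmb_clAct K σ c = c := Iff.rfl

/-- the relation between fixed classes and classes of fixed units modulo norms -/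
def BAmb_RelA (σ : Gal(L/K)) (c : ClassGroup (𝓞 L))
    (q : ↥(BAmb_uD K σ).ker ⧸ (BAmb_unm K (L := L)).range.subgroupOf (BAmb_uD K σ).ker) : Prop :=
  ∃ (𝔄 : (Ideal (𝓞 L))⁰) (x y : 𝓞 L) (u : (𝓞 L)ˣ) (hu : u ∈ (BAmb_uD K σ).ker),
    ClassGroup.mk0 𝔄 = c ∧ BAmb_Data K σ (𝔄 : Ideal (𝓞 L)) x y ∧
      BAmb_nm K y = u * BAmb_nm K x ∧ (QuotientGroup.mk ⟨u, hu⟩ : _ ⧸ _) = q

theorem BAmb_RelA_total (σ : Gal(L/K)) (c : ClassGroup (𝓞 L)) (hc : c ∈ BAmb_fixed K σ) :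
    ∃ q, BAmb_RelA K σ c q := by
  obtain ⟨𝔄, rfl⟩ := ClassGroup.mk0_surjective c
  rw [BAmb_mem_fixed, BAmb_clAct_mk0, ClassGroup.mk0_eq_mk0_iff] at hc
  obtain ⟨x, y, hx, hy, he⟩ := hc
  have hD : BAmb_Data K σ (𝔄 : Ideal (𝓞 L)) x y := ⟨hx, hy, he⟩
  obtain ⟨u, hu1, hu2⟩ := hD.exists_unit K (mem_nonZeroDivisors_iff_ne_zero.mp 𝔄.2)
  exact ⟨_, 𝔄, x, y, u, hu2, rfl, hD, hu1, rfl⟩

theorem BAmb_RelA_fibre (hur : UnramifiedEverywhere K L) {σ : Gal(L/K)}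
    (hσ : ∀ g, g ∈ Subgroup.zpowers σ) (c c' : ClassGroup (𝓞 L))
    (q : ↥(BAmb_uD K σ).ker ⧸ (BAmb_unm K (L := L)).range.subgroupOf (BAmb_uD K σ).ker)
    (h : BAmb_RelA K σ c q) (h' : BAmb_RelA K σ c' q) :
    c * c'⁻¹ ∈ (ClassGroup.extendedHom (𝓞 K) (𝓞 L)).range := by
  obtain ⟨𝔄, x, y, u, hu, rfl, ⟨hx, hy, he⟩, hn, rfl⟩ := h
  obtain ⟨𝔄', x', y', u', hu', rfl, ⟨hx', hy', he'⟩, hn', hq⟩ := h'
  -- the units differ by a norm
  rw [QuotientGroup.eq, Subgroup.mem_subgroupOf] at hq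
  obtain ⟨ε, hε⟩ := hq
  simp only [Subgroup.coe_mul, Subgroup.coe_inv] at hε
  have hu'u : (u : 𝓞 L) = BAmb_nm K ((ε : 𝓞 L)) * (u' : 𝓞 L) := by
    have h1 : u = BAmb_unm K ε * u' := by rw [hε, mul_comm, mul_inv_cancel_left]
    rw [h1]; simp
  -- an inverse ideal
  obtain ⟨𝔄'', h𝔄''⟩ := ClassGroup.mk0_surjective (ClassGroup.mk0 𝔄')⁻¹
  have hprin : ((𝔄' * 𝔄'' : (Ideal (𝓞 L))⁰) : Ideal (𝓞 L)).IsPrincipal := by
    have h1 : ClassGroup.mk0 (𝔄' * 𝔄'') = 1 := by rw [map_mul, h𝔄'', mul_inv_cancel]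
    exact (ClassGroup.mk0_eq_one_iff (𝔄' * 𝔄'').2).mp h1
  obtain ⟨w, hw⟩ := hprin.principal
  simp only [Submonoid.coe_mul] at hw
  change (𝔄' : Ideal (𝓞 L)) * (𝔄'' : Ideal (𝓞 L)) = Ideal.span {w} at hw
  have hw0 : w ≠ 0 := by
    rintro rfl
    have h1 : (𝔄' : Ideal (𝓞 L)) * (𝔄'' : Ideal (𝓞 L)) ≠ 0 :=
      mul_ne_zero (mem_nonZeroDivisors_iff_ne_zero.mp 𝔄'.2)
        (mem_nonZeroDivisors_iff_ne_zero.mp 𝔄''.2)
    rw [hw] at h1
    simp at h1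
  have hσw0 : σ • w ≠ 0 := by
    intro h0
    apply hw0
    have := congrArg (fun t => σ⁻¹ • t) h0
    simpa using this
  have hσw : σ • (𝔄' : Ideal (𝓞 L)) * σ • (𝔄'' : Ideal (𝓞 L)) = Ideal.span {σ • w} := by
    rw [← BAmb_smul_mul, hw, BAmb_smul_span]
  -- data for the product
  have hD : BAmb_Data K σ ((𝔄 * 𝔄'' : (Ideal (𝓞 L))⁰) : Ideal (𝓞 L))
      ((ε : 𝓞 L) * (x * y' * w)) (y * x' * σ • w) := by
    refine ⟨mul_ne_zero ε.ne_zero (mul_ne_zero (mul_ne_zero hx hy') hw0),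
      mul_ne_zero (mul_ne_zero hy hx') hσw0, ?_⟩
    rw [Ideal.span_singleton_mul_left_unit ε.isUnit]
    simp only [Submonoid.coe_mul, BAmb_smul_mul, ← Ideal.span_singleton_mul_span_singleton]
    calc Ideal.span {x} * Ideal.span {y'} * Ideal.span {w} *
          (σ • (𝔄 : Ideal (𝓞 L)) * σ • (𝔄'' : Ideal (𝓞 L)))
        = (Ideal.span {x} * σ • (𝔄 : Ideal (𝓞 L))) * Ideal.span {y'} * Ideal.span {w} *
            σ • (𝔄'' : Ideal (𝓞 L)) := by ring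
      _ = (Ideal.span {y} * (𝔄 : Ideal (𝓞 L))) * Ideal.span {y'} *
            ((𝔄' : Ideal (𝓞 L)) * (𝔄'' : Ideal (𝓞 L))) * σ • (𝔄'' : Ideal (𝓞 L)) := by
          rw [he, hw]
      _ = Ideal.span {y} * (𝔄 : Ideal (𝓞 L)) * (𝔄'' : Ideal (𝓞 L)) *
            (Ideal.span {y'} * (𝔄' : Ideal (𝓞 L))) * σ • (𝔄'' : Ideal (𝓞 L)) := by ring
      _ = Ideal.span {y} * (𝔄 : Ideal (𝓞 L)) * (𝔄'' : Ideal (𝓞 L)) *
            (Ideal.span {x'} * σ • (𝔄' : Ideal (𝓞 L))) * σ • (𝔄'' : Ideal (𝓞 L)) := by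
          rw [he']
      _ = Ideal.span {y} * (𝔄 : Ideal (𝓞 L)) * (𝔄'' : Ideal (𝓞 L)) * Ideal.span {x'} *
            (σ • (𝔄' : Ideal (𝓞 L)) * σ • (𝔄'' : Ideal (𝓞 L))) := by ring
      _ = Ideal.span {y} * Ideal.span {x'} * Ideal.span {σ • w} *
            ((𝔄 : Ideal (𝓞 L)) * (𝔄'' : Ideal (𝓞 L))) := by rw [hσw]; ring
  have hN : BAmb_nm K (y * x' * σ • w) = BAmb_nm K ((ε : 𝓞 L) * (x * y' * w)) := by
    simp only [map_mul, BAmb_nm_smul, hn, hn', hu'u]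
    ring
  obtain ⟨t, ht⟩ := BAmb_kernel K hur hσ (𝔄 * 𝔄'') hD hN
  refine ⟨t, ?_⟩
  rw [ht, map_mul, h𝔄'']

/-- **Step A.**  `|Cl(L)^σ| ≤ |j(Cl(K))| * h0`. -/
theorem BAmb_card_fixed_le (hur : UnramifiedEverywhere K L) {σ : Gal(L/K)}
    (hσ : ∀ g, g ∈ Subgroup.zpowers σ) (h0 : BAmb_h0 K σ ≠ 0) :
    Nat.card (BAmb_fixed K σ) ≤
      Nat.card (ClassGroup.extendedHom (𝓞 K) (𝓞 L)).range * BAmb_h0 K σ := by
  have hfin : Finite (↥(BAmb_uD K σ).ker ⧸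
      (BAmb_unm K (L := L)).range.subgroupOf (BAmb_uD K σ).ker) :=
    Nat.finite_of_card_ne_zero h0
  exact BAmb_count_fibre (BAmb_fixed K σ) (ClassGroup.extendedHom (𝓞 K) (𝓞 L)).range
    (BAmb_RelA K σ) (BAmb_RelA_total K σ)
    (fun c c' q _ _ h h' => BAmb_RelA_fibre K hur hσ c c' q h h')

/-- the relation between units of norm one and classes of `K` which capitulate in `L` -/
def BAmb_RelC (σ : Gal(L/K)) (a : ↥(BAmb_unm K (L := L)).ker)
    (t : ↥(ClassGroup.extendedHom (𝓞 K) (𝓞 L)).ker) : Prop :=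
  ∃ (b : 𝓞 L) (𝔟 : (Ideal (𝓞 K))⁰), b ≠ 0 ∧ ((a : (𝓞 L)ˣ) : 𝓞 L) * σ • b = b ∧
    (𝔟 : Ideal (𝓞 K)).map (algebraMap (𝓞 K) (𝓞 L)) = Ideal.span {b} ∧
    (t : ClassGroup (𝓞 K)) = ClassGroup.mk0 𝔟

theorem BAmb_RelC_total (hur : UnramifiedEverywhere K L) {σ : Gal(L/K)}
    (hσ : ∀ g, g ∈ Subgroup.zpowers σ) (a : ↥(BAmb_unm K (L := L)).ker) :
    ∃ t, BAmb_RelC K σ a t := by
  classical
  obtain ⟨a, ha⟩ := a
  rw [MonoidHom.mem_ker, Units.ext_iff, BAmb_coe_unm] at ha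
  have hz : Algebra.norm K (((a : 𝓞 L) : L)) = 1 := by
    apply (algebraMap K L).injective
    rw [← BAmb_coe_nm, ha]
    simp
  haveI : IsCyclic Gal(L/K) := ⟨⟨σ, hσ⟩⟩
  obtain ⟨β, hβ⟩ := groupCohomology.exists_div_of_norm_eq_one (K := K) (L := L) hσ hz
  obtain ⟨b₀, d, hd, hbd⟩ := IsFractionRing.div_surjective (𝓞 L) (β : L)
  have hd0 : d ≠ 0 := nonZeroDivisors.ne_zero hd
  have hdL : (d : L) ≠ 0 := fun h0 => hd0 (RingOfIntegers.coe_injective (by simpa using h0))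
  have hb0 : b₀ ≠ 0 := by
    rintro rfl
    have : (β : L) = 0 := by rw [← hbd]; simp
    exact β.ne_zero this
  have hbL : (b₀ : L) ≠ 0 := fun h0 => hb0 (RingOfIntegers.coe_injective (by simpa using h0))
  have hσd0 : σ • d ≠ 0 := by
    intro h0
    apply hd0
    have := congrArg (fun t => σ⁻¹ • t) h0
    simpa using this
  have hkey : b₀ * σ • d = (a : 𝓞 L) * σ • b₀ * d := by
    apply RingOfIntegers.coe_injective
    have hσdL : σ (d : L) ≠ 0 := by simpa using hdL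
    have hσbL : σ (b₀ : L) ≠ 0 := by simpa using hbL
    have h3 : ((b₀ : L) / (d : L)) / (σ (b₀ : L) / σ (d : L)) = ((a : 𝓞 L) : L) := by
      have h4 : (β : L) = (b₀ : L) / (d : L) := hbd.symm
      rw [← hβ, h4, map_div₀]
    rw [div_div_div_eq, div_eq_iff (mul_ne_zero hdL hσbL)] at h3
    simp only [map_mul, BAmb_coe_smul, ← RingOfIntegers.coe_eq_algebraMap]
    linear_combination h3
  set d'' : 𝓞 L := ∏ g ∈ (Finset.univ : Finset Gal(L/K)).erase 1, g • d with hd''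
  have hdd'' : d * d'' = BAmb_nm K d := by
    have := Finset.mul_prod_erase (Finset.univ : Finset Gal(L/K)) (fun g => g • d)
      (Finset.mem_univ 1)
    simpa [BAmb_nm_apply] using this
  have hd''0 : d'' ≠ 0 := by
    intro h0
    have := BAmb_nm_ne_zero K hd0
    rw [← hdd'', h0, mul_zero] at this
    exact this rfl
  have hσdd'' : σ • d * σ • d'' = d * d'' := by
    rw [← smul_mul', hdd'', BAmb_smul_nm]
  have hb : (a : 𝓞 L) * σ • (b₀ * d'') = b₀ * d'' := by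
    have h5 : d * σ • d ≠ 0 := mul_ne_zero hd0 hσd0
    apply mul_right_cancel₀ h5
    rw [smul_mul']
    linear_combination (-(σ • d'') * (σ • d)) * hkey + (b₀ * σ • d) * hσdd''
  have hbne : b₀ * d'' ≠ 0 := mul_ne_zero hb0 hd''0
  have hspan : σ • (Ideal.span {b₀ * d''} : Ideal (𝓞 L)) = Ideal.span {b₀ * d''} := by
    rw [BAmb_smul_span, Ideal.span_singleton_eq_span_singleton]
    exact ⟨a, by rw [mul_comm]; exact hb⟩
  have hne : (Ideal.span {b₀ * d''} : Ideal (𝓞 L)) ≠ ⊥ := by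
    rw [Ne, Ideal.span_singleton_eq_bot]; exact hbne
  obtain ⟨𝔟, h𝔟ne, h𝔟⟩ := BAmb_invariant_extended hur _ hne
    (BAmb_smul_eq_of_generator K hσ hspan)
  refine ⟨⟨ClassGroup.mk0 ⟨𝔟, mem_nonZeroDivisors_iff_ne_zero.mpr h𝔟ne⟩, ?_⟩,
    b₀ * d'', ⟨𝔟, mem_nonZeroDivisors_iff_ne_zero.mpr h𝔟ne⟩, hbne, hb, h𝔟, rfl⟩
  rw [MonoidHom.mem_ker, ClassGroup.extendedHom_mk0, ClassGroup.mk0_eq_one_iff]
  exact ⟨⟨b₀ * d'', by rw [← Ideal.span, ← h𝔟]⟩⟩

theorem BAmb_RelC_fibre (σ : Gal(L/K)) (a a' : ↥(BAmb_unm K (L := L)).ker)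
    (t : ↥(ClassGroup.extendedHom (𝓞 K) (𝓞 L)).ker)
    (h : BAmb_RelC K σ a t) (h' : BAmb_RelC K σ a' t) :
    a⁻¹ * a' ∈ (BAmb_uD K σ).range.subgroupOf (BAmb_unm K (L := L)).ker := by
  obtain ⟨b, 𝔟, hb0, hb, h𝔟, ht⟩ := h
  obtain ⟨b', 𝔟', hb'0, hb', h𝔟', ht'⟩ := h'
  rw [ht, ClassGroup.mk0_eq_mk0_iff] at ht'
  obtain ⟨r, r', hr, hr', he⟩ := ht'
  -- extend to `L`
  have heL := congrArg (Ideal.map (algebraMap (𝓞 K) (𝓞 L))) he
  rw [Ideal.map_mul, Ideal.map_mul, Ideal.map_span, Ideal.map_span, Set.image_singleton,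
    Set.image_singleton, h𝔟, h𝔟', Ideal.span_singleton_mul_span_singleton,
    Ideal.span_singleton_mul_span_singleton, Ideal.span_singleton_eq_span_singleton] at heL
  obtain ⟨ε, hε⟩ := heL
  set R : 𝓞 L := algebraMap (𝓞 K) (𝓞 L) r with hR
  set R' : 𝓞 L := algebraMap (𝓞 K) (𝓞 L) r' with hR'
  have hR0 : R ≠ 0 := by
    rw [hR, Ne, map_eq_zero_iff _ (FaithfulSMul.algebraMap_injective (𝓞 K) (𝓞 L))]; exact hr
  have hσR : σ • R = R := by rw [hR, smul_algebraMap]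
  have hσR' : σ • R' = R' := by rw [hR', smul_algebraMap]
  have hσb0 : σ • b ≠ 0 := by
    intro h0
    apply hb0
    have := congrArg (fun t => σ⁻¹ • t) h0
    simpa using this
  -- apply `σ` to `R b ε = R' b'`
  have hσε : R * σ • b * σ • (ε : 𝓞 L) = R' * σ • b' := by
    have := congrArg (fun t => σ • t) hε
    simp only [smul_mul', hσR, hσR'] at this
    exact this
  -- the unit identity `a' * σ ε = a * ε`
  have hunit : ((a' : (𝓞 L)ˣ) : 𝓞 L) * σ • (ε : 𝓞 L) = ((a : (𝓞 L)ˣ) : 𝓞 L) * ε := by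
    apply mul_left_cancel₀ (mul_ne_zero hR0 hσb0)
    linear_combination ((a' : (𝓞 L)ˣ) : 𝓞 L) * hσε + R' * hb' - hε - R * (ε : 𝓞 L) * hb
  have hU : (a' : (𝓞 L)ˣ) * BAmb_uact K σ ε = (a : (𝓞 L)ˣ) * ε :=
    Units.ext (by simpa using hunit)
  rw [Subgroup.mem_subgroupOf]
  refine ⟨ε⁻¹, ?_⟩
  simp only [Subgroup.coe_mul, Subgroup.coe_inv]
  rw [BAmb_uD_apply, map_inv, inv_div_inv, div_eq_iff_eq_mul, mul_assoc, hU,
    inv_mul_cancel_left]

/-- **Step C.**  `h1` is finite and at most the number of classes of `K` which capitulate. -/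
theorem BAmb_h1_le (hur : UnramifiedEverywhere K L) {σ : Gal(L/K)}
    (hσ : ∀ g, g ∈ Subgroup.zpowers σ) :
    BAmb_h1 K σ ≠ 0 ∧ BAmb_h1 K σ ≤ Nat.card (ClassGroup.extendedHom (𝓞 K) (𝓞 L)).ker :=
  BAmb_index_le ((BAmb_uD K σ).range.subgroupOf (BAmb_unm K (L := L)).ker)
    (BAmb_RelC K σ) (BAmb_RelC_total K hur hσ) (BAmb_RelC_fibre K σ)

/-- **B-AMB, the ambiguous class number inequality.**  For a cyclic everywhere unramified
extension `L / K` of number fields with Galois group generated by `σ`: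
`|Cl(L)^σ| * h1 ≤ h_K * h0`. -/
theorem BAmb_main (hur : UnramifiedEverywhere K L) {σ : Gal(L/K)}
    (hσ : ∀ g, g ∈ Subgroup.zpowers σ) (h0 : BAmb_h0 K σ ≠ 0) :
    Nat.card {c : ClassGroup (𝓞 L) //
        ClassGroup.mulEquiv (MulSemiringAction.toRingEquiv Gal(L/K) (𝓞 L) σ) c = c} *
      BAmb_h1 K σ ≤ Nat.card (ClassGroup (𝓞 K)) * BAmb_h0 K σ := by
  have hA := BAmb_card_fixed_le K hur hσ h0
  have hC := (BAmb_h1_le K hur hσ).2
  have hB : Nat.card (ClassGroup.extendedHom (𝓞 K) (𝓞 L)).ker *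
      Nat.card (ClassGroup.extendedHom (𝓞 K) (𝓞 L)).range = Nat.card (ClassGroup (𝓞 K)) := by
    rw [← Subgroup.index_ker]
    exact Subgroup.card_mul_index _
  have hF : Nat.card {c : ClassGroup (𝓞 L) //
      ClassGroup.mulEquiv (MulSemiringAction.toRingEquiv Gal(L/K) (𝓞 L) σ) c = c} =
      Nat.card (BAmb_fixed K σ) := rfl
  rw [hF, ← hB]
  calc Nat.card (BAmb_fixed K σ) * BAmb_h1 K σ
      ≤ (Nat.card (ClassGroup.extendedHom (𝓞 K) (𝓞 L)).range * BAmb_h0 K σ) *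
          Nat.card (ClassGroup.extendedHom (𝓞 K) (𝓞 L)).ker := Nat.mul_le_mul hA hC
    _ = _ := by ring

end Fermat.Agent.S14
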