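import Mathlib
import Fermat.Agent.S14.B.Ambiguous

/-!
# P-CFT / S14, module B-AMB: bridge to additive Herbrand indices

`BAmb_main` is stated with the multiplicative Herbrand indices `BAmb_h0`, `BAmb_h1` of
`(𝓞 L)ˣ`.  Here we show that any pair of additive endomorphisms `D'`, `N'` of
`Additive (𝓞 L)ˣ` which are pointwise `σ - 1` (or `1 - σ`) and the norm `∑_{i<n} σ^i` have the
same indices, and restate the inequality for them.
-/

set_option autoImplicit false
set_option linter.unusedSectionVars false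
set_option linter.style.haveILetI false

open NumberField IsDedekindDomain
open scoped nonZeroDivisors Pointwise

namespace Fermat.Agent.S14

variable (K : Type) {L : Type} [Field K] [NumberField K] [Field L] [NumberField L] [Algebra K L]
  [IsGalois K L]

theorem BAmb_uact_one (u : (𝓞 L)ˣ) : BAmb_uact K (1 : Gal(L/K)) u = u := by
  apply Units.ext
  simp

theorem BAmb_uact_mul (g h : Gal(L/K)) (u : (𝓞 L)ˣ) :
    BAmb_uact K (g * h) u = BAmb_uact K g (BAmb_uact K h u) := by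
  apply Units.ext
  simp [mul_smul]

theorem BAmb_uact_pow (σ : Gal(L/K)) (i : ℕ) (u : (𝓞 L)ˣ) :
    BAmb_uact K (σ ^ i) u = (BAmb_uact K σ)^[i] u := by
  induction i with
  | zero => simp [BAmb_uact_one]
  | succ i ih => rw [pow_succ', BAmb_uact_mul, ih, Function.iterate_succ_apply']

/-- for a generator `σ`, the product over the group is the product over the powers of `σ` -/
theorem BAmb_prod_eq_prod_range {M : Type*} [CommMonoid M] {σ : Gal(L/K)}
    (hσ : ∀ g, g ∈ Subgroup.zpowers σ) (f : Gal(L/K) → M) :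
    ∏ g : Gal(L/K), f g = ∏ i ∈ Finset.range (Nat.card Gal(L/K)), f (σ ^ i) := by
  classical
  have hord : orderOf σ = Nat.card Gal(L/K) := orderOf_eq_card_of_forall_mem_zpowers hσ
  have himg : Finset.image (fun i => σ ^ i) (Finset.range (orderOf σ)) = Finset.univ := by
    ext g
    simp only [Finset.mem_image, Finset.mem_range, Finset.mem_univ, iff_true]
    have hg := hσ g
    rw [← mem_powers_iff_mem_zpowers, mem_powers_iff_mem_range_orderOf] at hg
    simpa using hg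
  rw [← hord, ← himg, Finset.prod_image]
  intro i hi j hj hij
  exact pow_injOn_Iio_orderOf (by simpa using hi) (by simpa using hj) hij

theorem BAmb_nm_eq_prod_range {σ : Gal(L/K)} (hσ : ∀ g, g ∈ Subgroup.zpowers σ) (z : 𝓞 L) :
    BAmb_nm K z = ∏ i ∈ Finset.range (Nat.card Gal(L/K)), (σ ^ i) • z := by
  rw [BAmb_nm_apply, BAmb_prod_eq_prod_range K hσ]

theorem BAmb_unm_eq_prod_range {σ : Gal(L/K)} (hσ : ∀ g, g ∈ Subgroup.zpowers σ)
    (u : (𝓞 L)ˣ) :
    BAmb_unm K u = ∏ i ∈ Finset.range (Nat.card Gal(L/K)), BAmb_uact K (σ ^ i) u := by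
  apply Units.ext
  rw [BAmb_coe_unm, BAmb_nm_eq_prod_range K hσ, Units.coe_prod]
  rfl

theorem BAmb_unm_eq_prod_iterate {σ : Gal(L/K)} (hσ : ∀ g, g ∈ Subgroup.zpowers σ)
    (u : (𝓞 L)ˣ) :
    BAmb_unm K u = ∏ i ∈ Finset.range (Nat.card Gal(L/K)), (BAmb_uact K σ)^[i] u := by
  rw [BAmb_unm_eq_prod_range K hσ]
  exact Finset.prod_congr rfl fun i _ => BAmb_uact_pow K σ i u

theorem BAmb_card_gal : Nat.card Gal(L/K) = Module.finrank K L :=
  IsGalois.card_aut_eq_finrank K L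

section Additive

variable {E : Type*} [CommGroup E]

/-- an additive endomorphism which is pointwise a multiplicative one has the corresponding
kernel -/
theorem BAmb_ker_eq (f : E →* E) (f' : Additive E →+ Additive E)
    (h : ∀ u : E, f' (Additive.ofMul u) = Additive.ofMul (f u)) :
    f'.ker = Subgroup.toAddSubgroup f.ker := by
  ext x
  obtain ⟨u, rfl⟩ := Additive.ofMul.surjective x
  rw [AddMonoidHom.mem_ker, h]
  change Additive.ofMul (f u) = 0 ↔ u ∈ f.ker
  rw [MonoidHom.mem_ker]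
  exact Iff.rfl

theorem BAmb_range_eq (f : E →* E) (f' : Additive E →+ Additive E)
    (h : ∀ u : E, f' (Additive.ofMul u) = Additive.ofMul (f u)) :
    f'.range = Subgroup.toAddSubgroup f.range := by
  ext x
  obtain ⟨u, rfl⟩ := Additive.ofMul.surjective x
  constructor
  · rintro ⟨y, hy⟩
    obtain ⟨v, rfl⟩ := Additive.ofMul.surjective y
    rw [h] at hy
    exact ⟨v, Additive.ofMul.injective hy⟩
  · rintro ⟨v, hv⟩
    exact ⟨Additive.ofMul v, by rw [h]; exact congrArg Additive.ofMul hv⟩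

theorem BAmb_relIndex_eq (f g : E →* E) (f' g' : Additive E →+ Additive E)
    (hf : ∀ u : E, f' (Additive.ofMul u) = Additive.ofMul (f u))
    (hg : ∀ u : E, g' (Additive.ofMul u) = Additive.ofMul (g u)) :
    g'.range.relIndex f'.ker = g.range.relIndex f.ker := by
  rw [BAmb_ker_eq f f' hf, BAmb_range_eq g g' hg, Subgroup.relIndex_toAddSubgroup]

end Additive

/-- `u ↦ u / σ u`, the other sign convention -/
noncomputable def BAmb_uD' (σ : Gal(L/K)) : (𝓞 L)ˣ →* (𝓞 L)ˣ :=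
  MonoidHom.id _ / BAmb_uact K σ

theorem BAmb_uD'_apply (σ : Gal(L/K)) (u : (𝓞 L)ˣ) : BAmb_uD' K σ u = u / BAmb_uact K σ u := rfl

theorem BAmb_uD'_eq_inv (σ : Gal(L/K)) (u : (𝓞 L)ˣ) : BAmb_uD' K σ u = (BAmb_uD K σ u)⁻¹ := by
  rw [BAmb_uD'_apply, BAmb_uD_apply, inv_div]

theorem BAmb_ker_uD' (σ : Gal(L/K)) : (BAmb_uD' K σ).ker = (BAmb_uD K (L := L) σ).ker := by
  ext u
  rw [MonoidHom.mem_ker, MonoidHom.mem_ker, BAmb_uD'_eq_inv, inv_eq_one]

theorem BAmb_range_uD' (σ : Gal(L/K)) :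
    (BAmb_uD' K σ).range = (BAmb_uD K (L := L) σ).range := by
  ext u
  constructor
  · rintro ⟨v, rfl⟩
    exact ⟨v⁻¹, by rw [map_inv, BAmb_uD'_eq_inv]⟩
  · rintro ⟨v, rfl⟩
    exact ⟨v⁻¹, by rw [map_inv, BAmb_uD'_eq_inv, inv_inv]⟩

/-- **B-AMB for additive Herbrand indices**, convention `D' = σ - 1`.  `D'`, `N'` are any
additive endomorphisms of `Additive (𝓞 L)ˣ` which are pointwise `u ↦ σ u / u` and
`u ↦ ∏_{i < [L:K]} σ^i u` (the latter written with iterates of the action of `σ`). -/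
theorem BAmb_main_additive (hur : UnramifiedEverywhere K L) {σ : Gal(L/K)}
    (hσ : ∀ g, g ∈ Subgroup.zpowers σ) (D' N' : Additive (𝓞 L)ˣ →+ Additive (𝓞 L)ˣ)
    (hD : ∀ u : (𝓞 L)ˣ, D' (Additive.ofMul u) = Additive.ofMul (BAmb_uact K σ u / u))
    (hN : ∀ u : (𝓞 L)ˣ, N' (Additive.ofMul u) =
      Additive.ofMul (∏ i ∈ Finset.range (Module.finrank K L), (BAmb_uact K σ)^[i] u))
    (h0 : N'.range.relIndex D'.ker ≠ 0) :
    Nat.card {c : ClassGroup (𝓞 L) //
        ClassGroup.mulEquiv (MulSemiringAction.toRingEquiv Gal(L/K) (𝓞 L) σ) c = c} *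
      D'.range.relIndex N'.ker ≤ Nat.card (ClassGroup (𝓞 K)) * N'.range.relIndex D'.ker := by
  have hN' : ∀ u : (𝓞 L)ˣ, N' (Additive.ofMul u) = Additive.ofMul (BAmb_unm K u) := by
    intro u
    rw [hN, BAmb_unm_eq_prod_iterate K hσ, BAmb_card_gal]
  have e0 : N'.range.relIndex D'.ker = BAmb_h0 K σ :=
    BAmb_relIndex_eq (BAmb_uD K σ) (BAmb_unm K) D' N' hD hN'
  have e1 : D'.range.relIndex N'.ker = BAmb_h1 K σ :=
    BAmb_relIndex_eq (BAmb_unm K) (BAmb_uD K σ) N' D' hN' hD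
  rw [e0] at h0 ⊢
  rw [e1]
  exact BAmb_main K hur hσ h0

/-- **B-AMB for additive Herbrand indices**, convention `D' = 1 - σ`. -/
theorem BAmb_main_additive' (hur : UnramifiedEverywhere K L) {σ : Gal(L/K)}
    (hσ : ∀ g, g ∈ Subgroup.zpowers σ) (D' N' : Additive (𝓞 L)ˣ →+ Additive (𝓞 L)ˣ)
    (hD : ∀ u : (𝓞 L)ˣ, D' (Additive.ofMul u) = Additive.ofMul (u / BAmb_uact K σ u))
    (hN : ∀ u : (𝓞 L)ˣ, N' (Additive.ofMul u) =
      Additive.ofMul (∏ i ∈ Finset.range (Module.finrank K L), (BAmb_uact K σ)^[i] u))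
    (h0 : N'.range.relIndex D'.ker ≠ 0) :
    Nat.card {c : ClassGroup (𝓞 L) //
        ClassGroup.mulEquiv (MulSemiringAction.toRingEquiv Gal(L/K) (𝓞 L) σ) c = c} *
      D'.range.relIndex N'.ker ≤ Nat.card (ClassGroup (𝓞 K)) * N'.range.relIndex D'.ker := by
  have hN' : ∀ u : (𝓞 L)ˣ, N' (Additive.ofMul u) = Additive.ofMul (BAmb_unm K u) := by
    intro u
    rw [hN, BAmb_unm_eq_prod_iterate K hσ, BAmb_card_gal]
  have e0 : N'.range.relIndex D'.ker = BAmb_h0 K σ := by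
    rw [BAmb_relIndex_eq (BAmb_uD' K σ) (BAmb_unm K) D' N' hD hN', BAmb_ker_uD']
    rfl
  have e1 : D'.range.relIndex N'.ker = BAmb_h1 K σ := by
    rw [BAmb_relIndex_eq (BAmb_unm K) (BAmb_uD' K σ) N' D' hN' hD, BAmb_range_uD']
    rfl
  rw [e0] at h0 ⊢
  rw [e1]
  exact BAmb_main K hur hσ h0

end Fermat.Agent.S14
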