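import Mathlib
import Fermat.Agent.S14.Iface

/-!
# Pillar P-CFT (S14), part (B) = second inequality: frozen internal definitions and interfaces

`L/K` is a Galois extension of number fields, `σ ∈ Gal(L/K)`.

* `unitEnd K L σ` : the endomorphism of `Additive (𝓞 L)ˣ` induced by `σ`.
* `hqD s = s - 1`, `hqNm s n = ∑ i < n, s ^ i` in the ring `AddMonoid.End A`.
* `hq0 s n = [ker (s - 1) : range (hqNm s n)]`, `hq1 s n = [ker (hqNm s n) : range (s - 1)]`
  (as `AddSubgroup.relIndex`, so the value `0` encodes an infinite index).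
* `clAct K L σ` : the automorphism of `ClassGroup (𝓞 L)` induced by `σ`.
* `IfaceUnit` : `hq0 ≠ 0` and `hq1 = p * hq0` for the units of `L` (module B-UNIT).
* `IfaceAmb`  : `|Cl(L)^σ| * hq1 ≤ h_K * hq0` for unramified `L/K` (module B-AMB).
-/

set_option autoImplicit false

open NumberField

noncomputable section

namespace Fermat.Agent.S14.B

section Abstract

variable {A : Type*} [AddCommGroup A]

/-- `D = s - 1`. -/
def hqD (s : AddMonoid.End A) : AddMonoid.End A := s - 1

/-- `Nm = 1 + s + ... + s ^ (n - 1)`. -/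
def hqNm (s : AddMonoid.End A) (n : ℕ) : AddMonoid.End A := ∑ i ∈ Finset.range n, s ^ i

/-- `h0 = [ker (s - 1) : range Nm]` (zero if infinite). -/
def hq0 (s : AddMonoid.End A) (n : ℕ) : ℕ :=
  (AddMonoidHom.range (hqNm s n)).relIndex (AddMonoidHom.ker (hqD s))

/-- `h1 = [ker Nm : range (s - 1)]` (zero if infinite). -/
def hq1 (s : AddMonoid.End A) (n : ℕ) : ℕ :=
  (AddMonoidHom.range (hqD s)).relIndex (AddMonoidHom.ker (hqNm s n))

theorem hqD_apply (s : AddMonoid.End A) (x : A) : hqD s x = s x - x := rfl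

theorem hqNm_apply (s : AddMonoid.End A) (n : ℕ) (x : A) :
    hqNm s n x = ∑ i ∈ Finset.range n, (s ^ i) x :=
  AddMonoidHom.finsetSum_apply _ _ _

end Abstract

section NumberField

set_option linter.unusedSectionVars false

variable (K L : Type*) [Field K] [NumberField K] [Field L] [NumberField L] [Algebra K L]

/-- The automorphism of the class group of `L` induced by `σ ∈ Gal(L/K)`. -/
def clAct (σ : Gal(L/K)) : ClassGroup (𝓞 L) ≃* ClassGroup (𝓞 L) :=
  ClassGroup.mulEquiv (MulSemiringAction.toRingEquiv Gal(L/K) (𝓞 L) σ)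

/-- The endomorphism of the unit group of `L` (written additively) induced by `σ ∈ Gal(L/K)`. -/
def unitEnd (σ : Gal(L/K)) : AddMonoid.End (Additive (𝓞 L)ˣ) :=
  MonoidHom.toAdditive
    (Units.map ((MulSemiringAction.toRingEquiv Gal(L/K) (𝓞 L) σ : 𝓞 L ≃+* 𝓞 L) : 𝓞 L →* 𝓞 L))

theorem unitEnd_apply (σ : Gal(L/K)) (u : (𝓞 L)ˣ) :
    unitEnd K L σ (Additive.ofMul u) =
      Additive.ofMul (Units.map
        ((MulSemiringAction.toRingEquiv Gal(L/K) (𝓞 L) σ : 𝓞 L ≃+* 𝓞 L) : 𝓞 L →* 𝓞 L) u) := rfl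

theorem coe_unitEnd_apply (σ : Gal(L/K)) (u : (𝓞 L)ˣ) :
    (((unitEnd K L σ (Additive.ofMul u)).toMul : (𝓞 L)ˣ) : 𝓞 L) = σ • (u : 𝓞 L) := rfl

end NumberField

/-- **B-UNIT**: the Herbrand quotient of the units of a cyclic extension of odd prime degree `p`
is `1 / p`. -/
def IfaceUnit : Prop :=
  ∀ (p : ℕ), p.Prime → 3 ≤ p →
    ∀ (K L : Type) [Field K] [NumberField K] [Field L] [NumberField L] [Algebra K L]
      [IsGalois K L], Module.finrank K L = p →
    ∀ σ : Gal(L/K), (∀ τ : Gal(L/K), τ ∈ Subgroup.zpowers σ) →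
      hq0 (unitEnd K L σ) p ≠ 0 ∧ hq1 (unitEnd K L σ) p = p * hq0 (unitEnd K L σ) p

/-- **B-AMB**: the ambiguous class number inequality for an everywhere unramified cyclic
extension of odd prime degree `p`. -/
def IfaceAmb : Prop :=
  ∀ (p : ℕ), p.Prime → 3 ≤ p →
    ∀ (K L : Type) [Field K] [NumberField K] [Field L] [NumberField L] [Algebra K L]
      [IsGalois K L], Module.finrank K L = p → UnramifiedEverywhere K L →
    ∀ σ : Gal(L/K), (∀ τ : Gal(L/K), τ ∈ Subgroup.zpowers σ) →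
      hq0 (unitEnd K L σ) p ≠ 0 →
      Nat.card {c : ClassGroup (𝓞 L) // clAct K L σ c = c} * hq1 (unitEnd K L σ) p ≤
        Nat.card (ClassGroup (𝓞 K)) * hq0 (unitEnd K L σ) p

end Fermat.Agent.S14.B
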