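import Mathlib
import Fermat.Agent.S14.B.Defs
import Fermat.Agent.S14.B.AmbBridge

/-!
# P-CFT / S14, module B-AMB: the frozen interface `IfaceAmb`

`theorem ifaceAmb : IfaceAmb` (the ambiguous class number inequality in the shape frozen in
`Fermat/Agent/S14/B/Defs.lean`), deduced from `BAmb_main_additive`.
-/

set_option autoImplicit false
set_option linter.unusedSectionVars false

open NumberField

namespace Fermat.Agent.S14.B

theorem BAmb_unitEnd_apply {K L : Type} [Field K] [NumberField K] [Field L] [NumberField L]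
    [Algebra K L] [IsGalois K L] (σ : Gal(L/K)) (u : (𝓞 L)ˣ) :
    unitEnd K L σ (Additive.ofMul u) = Additive.ofMul (BAmb_uact K σ u) := rfl

theorem BAmb_unitEnd_pow_apply {K L : Type} [Field K] [NumberField K] [Field L] [NumberField L]
    [Algebra K L] [IsGalois K L] (σ : Gal(L/K)) (i : ℕ) (u : (𝓞 L)ˣ) :
    (unitEnd K L σ ^ i) (Additive.ofMul u) = Additive.ofMul ((BAmb_uact K σ)^[i] u) := by
  induction i with
  | zero => rfl
  | succ i ih =>
    rw [pow_succ', Function.iterate_succ_apply']
    change unitEnd K L σ ((unitEnd K L σ ^ i) (Additive.ofMul u)) = _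
    rw [ih, BAmb_unitEnd_apply]

/-- **B-AMB**: the ambiguous class number inequality, in the frozen shape. -/
theorem ifaceAmb : IfaceAmb := by
  intro p _ _ K L _ _ _ _ _ _ hdeg hunr σ hσ h0
  refine BAmb_main_additive K hunr hσ (hqD (unitEnd K L σ)) (hqNm (unitEnd K L σ) p) ?_ ?_ h0
  · intro u
    refine (hqD_apply (unitEnd K L σ) (Additive.ofMul u)).trans ?_
    rw [BAmb_unitEnd_apply]
    rfl
  · intro u
    refine (hqNm_apply (unitEnd K L σ) p (Additive.ofMul u)).trans ?_
    rw [hdeg, ofMul_prod]
    exact Finset.sum_congr rfl fun i _ => BAmb_unitEnd_pow_apply σ i u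

end Fermat.Agent.S14.B
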