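import Mathlib
import Fermat.Agent.S14.Iface
import Fermat.Prelude.Def_ClassGroup_GaloisAction

/-!
# Pillar P-CFT (S14), module B-FIN: the second inequality, final step (core)

* `BFin_card_range_le` : for a finite commutative group `A` with an automorphism `s` and a
  homomorphism `g` with `g ∘ s = g`, `|g(A)| ≤ |A^s|`.
* `BFin_normHom` : the norm homomorphism `Cl(L) → Cl(K)` induced by `Ideal.relNorm`.
* `BFin_core` : if `p * |Cl(L)^σ| ≤ h_K` for some `σ ∈ Gal(L/K)` and `2 ≤ p`, then the classes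
  of norms do not fill `Cl(K)`.  (`σ` acts on `Cl(L)` by
  `ClassGroup.mulEquiv (MulSemiringAction.toRingEquiv Gal(L/K) (𝓞 L) σ)`.)
-/

set_option autoImplicit false

open NumberField IsDedekindDomain
open scoped nonZeroDivisors Pointwise

noncomputable section

namespace Fermat.Agent.S14

/-- In a finite commutative group `A` with an automorphism `s`, the image of a homomorphism `g`
with `g ∘ s = g` has at most as many elements as there are fixed points of `s`. -/
theorem BFin_card_range_le {A B : Type*} [CommGroup A] [Finite A] [Group B] (s : A ≃* A)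
    (g : A →* B) (hg : ∀ c, g (s c) = g c) :
    Nat.card g.range ≤ Nat.card {c : A // s c = c} := by
  classical
  -- the homomorphism `D = s - 1`
  let D : A →* A :=
    { toFun := fun c => s c / c
      map_one' := by simp
      map_mul' := fun a b => by
        rw [map_mul]
        exact mul_div_mul_comm (s a) (s b) a b }
  have hDker : ∀ c, c ∈ D.ker ↔ s c = c := by
    intro c
    rw [MonoidHom.mem_ker]
    show s c / c = 1 ↔ _
    rw [div_eq_one]
  have hle : D.range ≤ g.ker := by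
    rintro _ ⟨c, rfl⟩
    rw [MonoidHom.mem_ker]
    show g (s c / c) = 1
    rw [map_div, hg, div_self']
  have h1 : g.ker.index = Nat.card g.range := Subgroup.index_ker g
  have h2 : g.ker.index ∣ D.range.index := Subgroup.index_dvd_of_le hle
  have h3 : D.range.index = Nat.card D.ker := by
    have e1 := Subgroup.index_mul_card D.range
    have e2 := Subgroup.index_mul_card D.ker
    rw [Subgroup.index_ker D] at e2
    have hpos : 0 < Nat.card D.range := Nat.card_pos
    have : D.range.index * Nat.card D.range = Nat.card D.ker * Nat.card D.range := by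
      rw [e1, ← e2, mul_comm]
    exact Nat.eq_of_mul_eq_mul_right hpos this
  have h4 : Nat.card D.ker = Nat.card {c : A // s c = c} :=
    Nat.card_congr (Equiv.subtypeEquivRight hDker)
  have h5 : D.range.index ≠ 0 := Subgroup.index_ne_zero_of_finite
  rw [← h1, ← h4, ← h3]
  exact Nat.le_of_dvd (Nat.pos_of_ne_zero h5) h2

section NormHom

variable (K L : Type*) [Field K] [NumberField K] [Field L] [NumberField L] [Algebra K L]

/-- The relative norm of a nonzero ideal, as a nonzero ideal. -/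
def BFin_relNorm0 (I : (Ideal (𝓞 L))⁰) : (Ideal (𝓞 K))⁰ :=
  ⟨Ideal.relNorm (𝓞 K) (I : Ideal (𝓞 L)), by
    refine mem_nonZeroDivisors_iff_ne_zero.mpr ?_
    rw [Ideal.zero_eq_bot, Ne, Ideal.relNorm_eq_bot_iff]
    exact nonZeroDivisors.coe_ne_zero I⟩

@[simp] theorem BFin_coe_relNorm0 (I : (Ideal (𝓞 L))⁰) :
    (BFin_relNorm0 K L I : Ideal (𝓞 K)) = Ideal.relNorm (𝓞 K) (I : Ideal (𝓞 L)) := rfl

theorem BFin_relNorm0_mul (I J : (Ideal (𝓞 L))⁰) :
    BFin_relNorm0 K L (I * J) = BFin_relNorm0 K L I * BFin_relNorm0 K L J := by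
  apply Subtype.ext
  simp [BFin_relNorm0]

/-- The class of the norm depends only on the class of the ideal. -/
theorem BFin_mk0_relNorm0_congr {I J : (Ideal (𝓞 L))⁰}
    (h : ClassGroup.mk0 I = ClassGroup.mk0 J) :
    ClassGroup.mk0 (BFin_relNorm0 K L I) = ClassGroup.mk0 (BFin_relNorm0 K L J) := by
  obtain ⟨x, y, hx, hy, hxy⟩ := ClassGroup.mk0_eq_mk0_iff.mp h
  refine ClassGroup.mk0_eq_mk0_iff.mpr
    ⟨Algebra.intNorm (𝓞 K) (𝓞 L) x, Algebra.intNorm (𝓞 K) (𝓞 L) y,
      Algebra.intNorm_ne_zero.mpr hx, Algebra.intNorm_ne_zero.mpr hy, ?_⟩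
  have := congrArg (Ideal.relNorm (𝓞 K)) hxy
  rw [map_mul, map_mul, Ideal.relNorm_singleton, Ideal.relNorm_singleton] at this
  exact this

/-- The norm homomorphism on class groups. -/
def BFin_normHom : ClassGroup (𝓞 L) →* ClassGroup (𝓞 K) :=
  MonoidHom.mk'
    (fun c => ClassGroup.mk0 (BFin_relNorm0 K L (Function.surjInv ClassGroup.mk0_surjective c)))
    (by
      intro a b
      have ha := Function.surjInv_eq (ClassGroup.mk0_surjective (R := 𝓞 L)) a
      have hb := Function.surjInv_eq (ClassGroup.mk0_surjective (R := 𝓞 L)) b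
      have hab := Function.surjInv_eq (ClassGroup.mk0_surjective (R := 𝓞 L)) (a * b)
      rw [← map_mul, ← BFin_relNorm0_mul]
      refine BFin_mk0_relNorm0_congr K L ?_
      rw [hab, map_mul, ha, hb])

theorem BFin_normHom_mk0 (I : (Ideal (𝓞 L))⁰) :
    BFin_normHom K L (ClassGroup.mk0 I) = ClassGroup.mk0 (BFin_relNorm0 K L I) := by
  show ClassGroup.mk0 (BFin_relNorm0 K L (Function.surjInv ClassGroup.mk0_surjective
    (ClassGroup.mk0 I))) = _
  exact BFin_mk0_relNorm0_congr K L (Function.surjInv_eq ClassGroup.mk0_surjective _)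

theorem BFin_normClassSubgroup_le : normClassSubgroup K L ≤ (BFin_normHom K L).range := by
  rw [normClassSubgroup, Subgroup.closure_le]
  rintro c ⟨𝔄, 𝔞, h𝔞, rfl⟩
  refine ⟨ClassGroup.mk0 𝔄, ?_⟩
  rw [BFin_normHom_mk0]
  congr 1
  exact Subtype.ext h𝔞.symm

theorem BFin_normHom_range_le : (BFin_normHom K L).range ≤ normClassSubgroup K L := by
  rintro _ ⟨c, rfl⟩
  obtain ⟨I, rfl⟩ := ClassGroup.mk0_surjective c
  rw [BFin_normHom_mk0]
  exact Subgroup.subset_closure ⟨I, BFin_relNorm0 K L I, rfl, rfl⟩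

theorem BFin_normClassSubgroup_eq : normClassSubgroup K L = (BFin_normHom K L).range :=
  le_antisymm (BFin_normClassSubgroup_le K L) (BFin_normHom_range_le K L)

end NormHom

section Galois

variable (K L : Type*) [Field K] [NumberField K] [Field L] [NumberField L] [Algebra K L]
  [IsGalois K L]

theorem BFin_normHom_clAct (σ : Gal(L/K)) (c : ClassGroup (𝓞 L)) :
    BFin_normHom K L
      (ClassGroup.mulEquiv (MulSemiringAction.toRingEquiv Gal(L/K) (𝓞 L) σ) c) =
      BFin_normHom K L c := by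
  obtain ⟨I, rfl⟩ := ClassGroup.mk0_surjective c
  rw [ClassGroup.mulEquiv_mk0, BFin_normHom_mk0, BFin_normHom_mk0]
  congr 1
  apply Subtype.ext
  rw [BFin_coe_relNorm0, BFin_coe_relNorm0, Ideal.coe_mapNonZero]
  exact Ideal.relNorm_map_algEquiv (MulSemiringAction.toAlgEquiv (𝓞 K) (𝓞 L) σ) (I : Ideal (𝓞 L))

/-- **B-FIN, core**: if `p * |Cl(L)^σ| ≤ h_K` with `2 ≤ p`, the classes of norms from `L` do not
fill the class group of `K`. -/
theorem BFin_core (σ : Gal(L/K)) (p : ℕ) (hp : 2 ≤ p)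
    (h : p * Nat.card {c : ClassGroup (𝓞 L) //
        ClassGroup.mulEquiv (MulSemiringAction.toRingEquiv Gal(L/K) (𝓞 L) σ) c = c}
      ≤ Nat.card (ClassGroup (𝓞 K))) :
    normClassSubgroup K L ≠ ⊤ := by
  intro htop
  have h1 : Nat.card (BFin_normHom K L).range ≤
      Nat.card {c : ClassGroup (𝓞 L) //
        ClassGroup.mulEquiv (MulSemiringAction.toRingEquiv Gal(L/K) (𝓞 L) σ) c = c} :=
    BFin_card_range_le _ (BFin_normHom K L) (BFin_normHom_clAct K L σ)
  rw [← BFin_normClassSubgroup_eq, htop] at h1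
  have h2 : Nat.card (⊤ : Subgroup (ClassGroup (𝓞 K))) = Nat.card (ClassGroup (𝓞 K)) :=
    Subgroup.card_top
  rw [h2] at h1
  have h3 : 0 < Nat.card {c : ClassGroup (𝓞 L) //
      ClassGroup.mulEquiv (MulSemiringAction.toRingEquiv Gal(L/K) (𝓞 L) σ) c = c} := by
    have : Nonempty {c : ClassGroup (𝓞 L) //
        ClassGroup.mulEquiv (MulSemiringAction.toRingEquiv Gal(L/K) (𝓞 L) σ) c = c} :=
      ⟨⟨1, map_one _⟩⟩
    exact Nat.card_pos
  nlinarith

/-- **B-FIN, index form**: the same conclusion from the outputs of B-UNIT (`p * h0 = h1`,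
`h0 ≠ 0`) and B-AMB (`|Cl(L)^σ| * h1 ≤ h_K * h0`), for arbitrary natural numbers `h0`, `h1`. -/
theorem BFin_of_indices (σ : Gal(L/K)) (p h0 h1 : ℕ) (hp : 2 ≤ p) (h0ne : h0 ≠ 0)
    (hunit : p * h0 = h1)
    (hamb : Nat.card {c : ClassGroup (𝓞 L) //
        ClassGroup.mulEquiv (MulSemiringAction.toRingEquiv Gal(L/K) (𝓞 L) σ) c = c} * h1
      ≤ Nat.card (ClassGroup (𝓞 K)) * h0) :
    normClassSubgroup K L ≠ ⊤ := by
  refine BFin_core K L σ p hp ?_
  rw [← hunit] at hamb
  have h0pos : 0 < h0 := Nat.pos_of_ne_zero h0ne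
  refine Nat.le_of_mul_le_mul_right ?_ h0pos
  calc p * Nat.card {c : ClassGroup (𝓞 L) //
        ClassGroup.mulEquiv (MulSemiringAction.toRingEquiv Gal(L/K) (𝓞 L) σ) c = c} * h0
      = Nat.card {c : ClassGroup (𝓞 L) //
        ClassGroup.mulEquiv (MulSemiringAction.toRingEquiv Gal(L/K) (𝓞 L) σ) c = c} *
          (p * h0) := by ring
    _ ≤ Nat.card (ClassGroup (𝓞 K)) * h0 := hamb

end Galois

end Fermat.Agent.S14
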