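import Mathlib
import Fermat.Agent.S14.B.Defs
import Fermat.Agent.S14.B.FinalCore

/-!
# Pillar P-CFT (S14), part (B): assembly of the second inequality

`ifaceB_of : IfaceUnit → IfaceAmb → IfaceB`.
-/

set_option autoImplicit false

open NumberField

namespace Fermat.Agent.S14.B

/-- The Galois group of a Galois extension of prime degree has a generator. -/
theorem exists_generator_of_finrank_prime (p : ℕ) (hp : p.Prime) (K L : Type*) [Field K]
    [Field L] [Algebra K L] [FiniteDimensional K L] [IsGalois K L]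
    (hdeg : Module.finrank K L = p) :
    ∃ σ : Gal(L/K), ∀ τ : Gal(L/K), τ ∈ Subgroup.zpowers σ := by
  have : Fact p.Prime := ⟨hp⟩
  have hcard : Nat.card Gal(L/K) = p := by
    rw [IsGalois.card_aut_eq_finrank, hdeg]
  have : IsCyclic Gal(L/K) := isCyclic_of_prime_card hcard
  exact IsCyclic.exists_generator

/-- **(B)** from B-UNIT and B-AMB (B-FIN is `BFin_of_indices`). -/
theorem ifaceB_of (hU : IfaceUnit) (hA : IfaceAmb) : IfaceB := by
  intro p hp h3 K L _ _ _ _ _ _ hdeg hunr
  obtain ⟨σ, hσ⟩ := exists_generator_of_finrank_prime p hp K L hdeg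
  obtain ⟨h0ne, h1eq⟩ := hU p hp h3 K L hdeg σ hσ
  have hamb := hA p hp h3 K L hdeg hunr σ hσ h0ne
  exact BFin_of_indices K L σ p _ _ (by omega) h0ne h1eq.symm hamb

end Fermat.Agent.S14.B
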