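/-
P-CFT (S14), task B-UNIT, number-field half (helper64).
An equivariant family of units for a cyclic extension of odd prime degree:
finite index, and relations of rank one generated by a shift-invariant vector.
-/
import Mathlib

open NumberField NumberField.Units NumberField.InfinitePlace NumberField.Units.dirichletUnitTheorem

namespace Fermat.Agent.S14

noncomputable section

variable (L : Type) [Field L] [NumberField L]

set_option backward.isDefEq.respectTransparency.types false in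
/-- Piece 1: a family of units with the sign pattern of `exists_unit` has linearly independent
logarithmic embeddings (after dropping the distinguished place). -/
theorem BUnit_linearIndependent (u : InfinitePlace L → (𝓞 L)ˣ)
    (hu : ∀ w w' : InfinitePlace L, w' ≠ w → Real.log (w' (u w)) < 0) :
    LinearIndependent ℝ (fun w : {w : InfinitePlace L // w ≠ w₀} ↦
      logEmbedding L (Additive.ofMul (u w.1))) := by
  classical
  let B := Pi.basisFun ℝ {w : InfinitePlace L // w ≠ w₀}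
  let v := fun w : { w : InfinitePlace L // w ≠ w₀ } ↦
    logEmbedding L (Additive.ofMul (u w.1))
  suffices B.det v ≠ 0 by
    rw [← isUnit_iff_ne_zero, ← Module.Basis.is_basis_iff_det] at this
    exact this.1
  rw [Module.Basis.det_apply]
  refine det_ne_zero_of_sum_col_lt_diag (fun w ↦ ?_)
  simp_rw [Real.norm_eq_abs, B, Module.Basis.coePiBasisFun.toMatrix_eq_transpose,
    Matrix.transpose_apply]
  rw [← sub_pos, Finset.sum_congr rfl (fun x hx ↦ abs_of_neg ?_), Finset.sum_neg_distrib,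
    sub_neg_eq_add, Finset.sum_erase_eq_sub (Finset.mem_univ _), ← add_comm_sub]
  · refine add_pos_of_nonneg_of_pos ?_ ?_
    · rw [sub_nonneg]
      exact le_abs_self _
    · rw [sum_logEmbedding_component (u w.1)]
      refine mul_pos_of_neg_of_neg ?_ (hu _ _ w.prop.symm)
      rw [mult]; split_ifs <;> norm_num
  · refine mul_neg_of_pos_of_neg ?_ (hu _ _ ?_)
    · rw [mult]; split_ifs <;> norm_num
    · exact Subtype.ext_iff.not.mp (Finset.ne_of_mem_erase hx)

/-- Piece 2: such a family generates a subgroup of finite index. -/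
theorem BUnit_finiteIndex (u : InfinitePlace L → (𝓞 L)ˣ)
    (hu : ∀ w w' : InfinitePlace L, w' ≠ w → Real.log (w' (u w)) < 0) :
    (Subgroup.closure (Set.range u)).FiniteIndex := by
  have h1 := BUnit_linearIndependent L u hu
  have h2 : IsMaxRank (fun i : Fin (rank L) ↦ u (equivFinRank L i).1) :=
    h1.comp (equivFinRank L) (equivFinRank L).injective
  rw [isMaxRank_iff_closure_finiteIndex] at h2
  refine @Subgroup.finiteIndex_of_le _ _ _ _ h2 (Subgroup.closure_mono ?_)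
  rintro _ ⟨i, rfl⟩
  exact ⟨_, rfl⟩

/-- Piece 3: any family of units indexed by the infinite places satisfies a nontrivial
multiplicative relation. -/
theorem BUnit_exists_relation (u : InfinitePlace L → (𝓞 L)ˣ) :
    ∃ x : InfinitePlace L → ℤ, x ≠ 0 ∧ ∏ w, u w ^ x w = 1 := by
  classical
  have hfin : Module.finrank ℤ (Additive (𝓞 L)ˣ) = rank L := finrank_eq L
  have hnot : ¬ LinearIndependent ℤ (fun w ↦ Additive.ofMul (u w)) := by
    intro h
    have := h.fintype_card_le_finrank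
    rw [hfin, rank] at this
    have hpos : 0 < Fintype.card (InfinitePlace L) := Fintype.card_pos
    omega
  rw [Fintype.not_linearIndependent_iff] at hnot
  obtain ⟨g, hg, i, hi⟩ := hnot
  refine ⟨g, fun h ↦ hi (congrFun h i), ?_⟩
  have := congrArg Additive.toMul hg
  simpa using this


/-- The exponent map `x ↦ ∏ w, u w ^ x w` as an additive homomorphism. -/
def BUnit_expHom {ι : Type} [Fintype ι] (u : ι → (𝓞 L)ˣ) :
    (ι → ℤ) →+ Additive (𝓞 L)ˣ where
  toFun x := Additive.ofMul (∏ w, u w ^ x w)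
  map_zero' := by simp
  map_add' x y := by
    simp only [Pi.add_apply, zpow_add, Finset.prod_mul_distrib, ofMul_mul]

theorem BUnit_expHom_apply {ι : Type} [Fintype ι] (u : ι → (𝓞 L)ˣ) (x : ι → ℤ) :
    BUnit_expHom L u x = Additive.ofMul (∏ w, u w ^ x w) := rfl

theorem BUnit_mem_ker_expHom {ι : Type} [Fintype ι] (u : ι → (𝓞 L)ˣ) (x : ι → ℤ) :
    x ∈ (BUnit_expHom L u).ker ↔ ∏ w, u w ^ x w = 1 := by
  rw [AddMonoidHom.mem_ker, BUnit_expHom_apply]
  exact Iff.rfl

/-- A relation vanishing at the distinguished place is trivial. -/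
theorem BUnit_relation_eq_zero (u : InfinitePlace L → (𝓞 L)ˣ)
    (hu : ∀ w w' : InfinitePlace L, w' ≠ w → Real.log (w' (u w)) < 0)
    (x : InfinitePlace L → ℤ) (hx : ∏ w, u w ^ x w = 1) (hx0 : x w₀ = 0) : x = 0 := by
  classical
  have h1 := BUnit_linearIndependent L u hu
  rw [Fintype.linearIndependent_iff] at h1
  have h2 : logEmbedding L (Additive.ofMul (∏ w, u w ^ x w)) = 0 := by
    rw [hx]; simp
  have h3 : ∑ w : {w : InfinitePlace L // w ≠ w₀},
      ((x w.1 : ℤ) : ℝ) • logEmbedding L (Additive.ofMul (u w.1)) = 0 := by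
    rw [← h2, ofMul_prod, map_sum, Fintype.sum_eq_add_sum_subtype_ne _ w₀, hx0]
    simp only [zpow_zero, ofMul_one, map_zero, zero_add]
    refine Finset.sum_congr rfl fun w _ ↦ ?_
    rw [ofMul_zpow, map_zsmul, Int.cast_smul_eq_zsmul]
  have h4 := h1 _ h3
  funext w
  by_cases hw : w = w₀
  · rw [hw, hx0]; rfl
  · have := h4 ⟨w, hw⟩
    simpa using this

/-- Piece 4: the kernel of the exponent map is infinite cyclic. -/
theorem BUnit_kernel (u : InfinitePlace L → (𝓞 L)ˣ)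
    (hu : ∀ w w' : InfinitePlace L, w' ≠ w → Real.log (w' (u w)) < 0) :
    ∃ x₀ : InfinitePlace L → ℤ, x₀ ≠ 0 ∧
      ∀ x : InfinitePlace L → ℤ, (∏ w, u w ^ x w = 1) ↔ ∃ n : ℤ, x = n • x₀ := by
  classical
  set Kr := (BUnit_expHom L u).ker with hKr
  obtain ⟨d, hd⟩ := Int.subgroup_cyclic (Kr.map (Pi.evalAddMonoidHom (fun _ ↦ ℤ) w₀))
  have hdmem : d ∈ Kr.map (Pi.evalAddMonoidHom (fun _ ↦ ℤ) w₀) := by
    rw [hd]; exact AddSubgroup.mem_closure_singleton_self d
  obtain ⟨x₀, hx₀K, hx₀d⟩ := hdmem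
  have hx₀K' : ∏ w, u w ^ x₀ w = 1 := (BUnit_mem_ker_expHom L u x₀).1 hx₀K
  have hx₀d' : x₀ w₀ = d := hx₀d
  have key : ∀ x : InfinitePlace L → ℤ, (∏ w, u w ^ x w = 1) → ∃ n : ℤ, x = n • x₀ := by
    intro x hx
    have hxK : x ∈ Kr := (BUnit_mem_ker_expHom L u x).2 hx
    have hmem : x w₀ ∈ Kr.map (Pi.evalAddMonoidHom (fun _ ↦ ℤ) w₀) := ⟨x, hxK, rfl⟩
    rw [hd, AddSubgroup.mem_closure_singleton] at hmem
    obtain ⟨n, hn⟩ := hmem
    refine ⟨n, ?_⟩
    have hsub : x - n • x₀ ∈ Kr := Kr.sub_mem hxK (Kr.zsmul_mem hx₀K n)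
    have h0 : (x - n • x₀) w₀ = 0 := by
      simp only [Pi.sub_apply, Pi.smul_apply, hx₀d', hn, sub_self]
    have := BUnit_relation_eq_zero L u hu _ ((BUnit_mem_ker_expHom L u _).1 hsub) h0
    exact sub_eq_zero.1 this
  refine ⟨x₀, ?_, fun x ↦ ⟨key x, ?_⟩⟩
  · obtain ⟨y, hy0, hy⟩ := BUnit_exists_relation L u
    obtain ⟨n, hn⟩ := key y hy
    rintro rfl
    exact hy0 (by simpa using hn)
  · rintro ⟨n, rfl⟩
    exact (BUnit_mem_ker_expHom L u _).1 (Kr.zsmul_mem hx₀K n)

section Galois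

variable (p : ℕ) [hp : Fact p.Prime] (K L : Type) [Field K] [NumberField K] [Field L]
  [NumberField L] [Algebra K L] [IsGalois K L]

theorem BUnit_card_gal (hfr : Module.finrank K L = p) : Nat.card (L ≃ₐ[K] L) = p := by
  rw [IsGalois.card_aut_eq_finrank, hfr]

theorem BUnit_orderOf (hfr : Module.finrank K L = p) (σ : L ≃ₐ[K] L) (hσ : σ ≠ 1) :
    orderOf σ = p := by
  refine orderOf_eq_prime ?_ hσ
  rw [← BUnit_card_gal p K L hfr]
  exact pow_card_eq_one'

theorem BUnit_pow_val_add_one (hfr : Module.finrank K L = p) (σ : L ≃ₐ[K] L) (hσ : σ ≠ 1)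
    (i : ZMod p) : σ ^ (i + 1).val = σ * σ ^ i.val := by
  have ho := BUnit_orderOf p K L hfr σ hσ
  have : Fact (1 < p) := ⟨hp.out.one_lt⟩
  rw [ZMod.val_add, ZMod.val_one, ← pow_succ']
  have := pow_mod_orderOf σ (i.val + 1)
  rw [ho] at this
  exact this

theorem BUnit_exists_pow (hfr : Module.finrank K L = p) (σ : L ≃ₐ[K] L) (hσ : σ ≠ 1)
    (τ : L ≃ₐ[K] L) : ∃ i : ZMod p, τ = σ ^ i.val := by
  have htop := zpowers_eq_top_of_prime_card (BUnit_card_gal p K L hfr) hσ
  have hτ : τ ∈ Subgroup.zpowers σ := htop ▸ Subgroup.mem_top τ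
  obtain ⟨k, rfl⟩ := Subgroup.mem_zpowers_iff.1 hτ
  refine ⟨(k : ZMod p), ?_⟩
  rw [← zpow_natCast, zpow_eq_zpow_iff_modEq, BUnit_orderOf p K L hfr σ hσ,
    ← ZMod.intCast_eq_intCast_iff]
  simp

theorem BUnit_pow_val_injective (hfr : Module.finrank K L = p) (σ : L ≃ₐ[K] L) (hσ : σ ≠ 1)
    (i i' : ZMod p) (h : σ ^ i.val = σ ^ i'.val) : i = i' := by
  have ho := BUnit_orderOf p K L hfr σ hσ
  rw [pow_eq_pow_iff_modEq, ho] at h
  apply ZMod.val_injective
  have h1 := Nat.mod_eq_of_lt (ZMod.val_lt i)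
  have h2 := Nat.mod_eq_of_lt (ZMod.val_lt i')
  rw [← h1, ← h2]
  exact h

theorem BUnit_stabilizer (hfr : Module.finrank K L = p) (hp2 : p ≠ 2) (w : InfinitePlace L) :
    MulAction.stabilizer (L ≃ₐ[K] L) w = ⊥ := by
  have hodd : Odd (Module.finrank K L) := by
    rw [hfr]; exact hp.out.odd_of_ne_two hp2
  have := IsUnramifiedAtInfinitePlaces_of_odd_finrank hodd
  exact (InfinitePlace.isUnramified K w).stabilizer_eq_bot

/-- The parametrisation of the infinite places by orbits and powers of `σ`. -/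
def BUnit_pl (σ : L ≃ₐ[K] L) :
    MulAction.orbitRel.Quotient (L ≃ₐ[K] L) (InfinitePlace L) × ZMod p → InfinitePlace L :=
  fun a ↦ σ ^ a.2.val • a.1.out

theorem BUnit_pl_bijective (hfr : Module.finrank K L = p) (hp2 : p ≠ 2) (σ : L ≃ₐ[K] L)
    (hσ : σ ≠ 1) : Function.Bijective (BUnit_pl p K L σ) := by
  constructor
  · rintro ⟨j, i⟩ ⟨j', i'⟩ h
    simp only [BUnit_pl] at h
    have hj : j = j' := by
      have h1 : (⟦σ ^ i.val • j.out⟧ : MulAction.orbitRel.Quotient (L ≃ₐ[K] L) (InfinitePlace L))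
          = ⟦σ ^ i'.val • j'.out⟧ := by rw [h]
      rw [MulAction.orbitRel.Quotient.quotient_smul_eq,
        MulAction.orbitRel.Quotient.quotient_smul_eq, Quotient.out_eq, Quotient.out_eq] at h1
      exact h1
    subst hj
    have hst : (σ ^ i'.val)⁻¹ * σ ^ i.val ∈ MulAction.stabilizer (L ≃ₐ[K] L) j.out := by
      rw [MulAction.mem_stabilizer_iff, mul_smul, h, inv_smul_smul]
    rw [BUnit_stabilizer p K L hfr hp2, Subgroup.mem_bot, inv_mul_eq_one] at hst
    rw [BUnit_pow_val_injective p K L hfr σ hσ _ _ hst.symm]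
  · intro w
    have h1 : (⟦w⟧ : MulAction.orbitRel.Quotient (L ≃ₐ[K] L) (InfinitePlace L)).out ∈
        MulAction.orbit (L ≃ₐ[K] L) w := by
      rw [← MulAction.orbitRel_apply]
      exact Quotient.exact (Quotient.out_eq _)
    obtain ⟨τ, hτ⟩ := h1
    obtain ⟨i, hi⟩ := BUnit_exists_pow p K L hfr σ hσ τ⁻¹
    refine ⟨(⟦w⟧, i), ?_⟩
    simp only [BUnit_pl]
    rw [← hi, ← hτ, inv_smul_smul]

/-- The action of the Galois group on the units of `𝓞 L`. -/
def BUnit_act (τ : L ≃ₐ[K] L) : (𝓞 L)ˣ →* (𝓞 L)ˣ :=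
  Units.map (RingOfIntegers.mapRingHom (τ : L →+* L)).toMonoidHom

theorem BUnit_act_coe (τ : L ≃ₐ[K] L) (x : (𝓞 L)ˣ) :
    (((BUnit_act K L τ x : (𝓞 L)ˣ) : 𝓞 L) : L) = τ ((x : 𝓞 L) : L) := rfl

theorem BUnit_act_mul (τ₁ τ₂ : L ≃ₐ[K] L) (x : (𝓞 L)ˣ) :
    BUnit_act K L (τ₁ * τ₂) x = BUnit_act K L τ₁ (BUnit_act K L τ₂ x) := by
  apply Units.ext
  apply RingOfIntegers.ext
  rw [BUnit_act_coe, BUnit_act_coe, BUnit_act_coe, AlgEquiv.mul_apply]

theorem BUnit_place_act (τ : L ≃ₐ[K] L) (w : InfinitePlace L) (x : (𝓞 L)ˣ) :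
    w (((BUnit_act K L τ x : (𝓞 L)ˣ) : 𝓞 L) : L) = (τ⁻¹ • w) ((x : 𝓞 L) : L) := by
  rw [BUnit_act_coe, InfinitePlace.smul_apply]
  rfl

/-- The equivariant family of units. -/
def BUnit_fam (σ : L ≃ₐ[K] L) :
    MulAction.orbitRel.Quotient (L ≃ₐ[K] L) (InfinitePlace L) × ZMod p → (𝓞 L)ˣ :=
  fun a ↦ BUnit_act K L (σ ^ a.2.val) (exists_unit L a.1.out).choose

theorem BUnit_fam_succ (hfr : Module.finrank K L = p) (σ : L ≃ₐ[K] L) (hσ : σ ≠ 1)
    (j : MulAction.orbitRel.Quotient (L ≃ₐ[K] L) (InfinitePlace L)) (i : ZMod p) :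
    BUnit_fam p K L σ (j, i + 1) = BUnit_act K L σ (BUnit_fam p K L σ (j, i)) := by
  simp only [BUnit_fam]
  rw [BUnit_pow_val_add_one p K L hfr σ hσ, BUnit_act_mul]

theorem BUnit_fam_log_neg (σ : L ≃ₐ[K] L)
    (a : MulAction.orbitRel.Quotient (L ≃ₐ[K] L) (InfinitePlace L) × ZMod p)
    (w' : InfinitePlace L) (hw' : w' ≠ BUnit_pl p K L σ a) :
    Real.log (w' ((BUnit_fam p K L σ a : 𝓞 L) : L)) < 0 := by
  simp only [BUnit_fam]
  rw [BUnit_place_act]
  refine (exists_unit L a.1.out).choose_spec _ ?_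
  intro h
  apply hw'
  simp only [BUnit_pl]
  rw [← h, smul_inv_smul]

/-- Applying `σ` to a product of powers of the family shifts the exponents. -/
theorem BUnit_act_prod (hfr : Module.finrank K L = p) (σ : L ≃ₐ[K] L) (hσ : σ ≠ 1)
    {J' : Type} [Fintype J']
    (e : J' ≃ MulAction.orbitRel.Quotient (L ≃ₐ[K] L) (InfinitePlace L))
    (x : J' × ZMod p → ℤ) :
    BUnit_act K L σ (∏ a, BUnit_fam p K L σ (e a.1, a.2) ^ x a) =
      ∏ a : J' × ZMod p, BUnit_fam p K L σ (e a.1, a.2) ^ x (a.1, a.2 - 1) := by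
  rw [map_prod]
  simp only [map_zpow]
  have h1 : ∀ a : J' × ZMod p,
      BUnit_act K L σ (BUnit_fam p K L σ (e a.1, a.2)) ^ x a =
        (fun b : J' × ZMod p ↦ BUnit_fam p K L σ (e b.1, b.2) ^ x (b.1, b.2 - 1))
          ((Equiv.prodCongr (Equiv.refl J') (Equiv.addRight (1 : ZMod p))) a) := by
    rintro ⟨j, i⟩
    simp only [Equiv.prodCongr_apply, Equiv.coe_refl, Prod.map_apply, id_eq,
      Equiv.coe_addRight, add_sub_cancel_right]
    rw [BUnit_fam_succ p K L hfr σ hσ]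
  rw [Finset.prod_congr rfl (fun a _ ↦ h1 a)]
  exact Equiv.prod_comp (Equiv.prodCongr (Equiv.refl J') (Equiv.addRight (1 : ZMod p)))
    (fun b : J' × ZMod p ↦ BUnit_fam p K L σ (e b.1, b.2) ^ x (b.1, b.2 - 1))

end Galois

/-- **B-UNIT, number-field half.**  For a cyclic extension `L/K` of odd prime degree `p` with
generator `σ` there is a `σ`-equivariant family of units `u : J × ZMod p → (𝓞 L)ˣ` generating a
subgroup of finite index, whose module of multiplicative relations is infinite cyclic, generated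
by a shift-invariant vector. -/
theorem BUnit_exists_family (p : ℕ) [hp : Fact p.Prime] (hp2 : p ≠ 2)
    (K L : Type) [Field K] [NumberField K] [Field L] [NumberField L] [Algebra K L] [IsGalois K L]
    (hfr : Module.finrank K L = p) (σ : L ≃ₐ[K] L) (hσ : σ ≠ 1) :
    ∃ (J : Type) (_ : Fintype J) (u : J × ZMod p → (𝓞 L)ˣ) (x₀ : J × ZMod p → ℤ),
      (∀ j i, ((u (j, i + 1) : 𝓞 L) : L) = σ ((u (j, i) : 𝓞 L) : L)) ∧
      (Subgroup.closure (Set.range u)).FiniteIndex ∧
      x₀ ≠ 0 ∧ (∀ j i, x₀ (j, i + 1) = x₀ (j, i)) ∧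
      ∀ x : J × ZMod p → ℤ, (∏ a, u a ^ x a = 1) ↔ ∃ n : ℤ, x = n • x₀ := by
  classical
  let J := MulAction.orbitRel.Quotient (L ≃ₐ[K] L) (InfinitePlace L)
  let _ : Fintype J := Fintype.ofFinite J
  let u : J × ZMod p → (𝓞 L)ˣ := BUnit_fam p K L σ
  let e : J × ZMod p ≃ InfinitePlace L :=
    Equiv.ofBijective _ (BUnit_pl_bijective p K L hfr hp2 σ hσ)
  let uS : InfinitePlace L → (𝓞 L)ˣ := u ∘ e.symm
  have huS : ∀ w w' : InfinitePlace L, w' ≠ w → Real.log (w' (uS w)) < 0 := by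
    intro w w' hw
    refine BUnit_fam_log_neg p K L σ (e.symm w) w' ?_
    have : BUnit_pl p K L σ (e.symm w) = w := e.apply_symm_apply w
    rwa [this]
  have hfi := BUnit_finiteIndex L uS huS
  have hrange : Set.range uS = Set.range u := EquivLike.range_comp u e.symm
  rw [hrange] at hfi
  obtain ⟨y₀, hy₀, hker⟩ := BUnit_kernel L uS huS
  have hker' : ∀ x : J × ZMod p → ℤ, (∏ a, u a ^ x a = 1) ↔ ∃ n : ℤ, x = n • (y₀ ∘ e) := by
    intro x
    have h1 : ∏ a, u a ^ x a = ∏ w, uS w ^ (x ∘ e.symm) w :=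
      (Equiv.prod_comp e.symm (fun a ↦ u a ^ x a)).symm
    rw [h1, hker]
    constructor
    · rintro ⟨n, hn⟩
      refine ⟨n, ?_⟩
      funext a
      have := congrFun hn (e a)
      simpa using this
    · rintro ⟨n, hn⟩
      refine ⟨n, ?_⟩
      funext w
      have := congrFun hn (e.symm w)
      simpa using this
  have hx₀ : y₀ ∘ e ≠ 0 := by
    intro h
    apply hy₀
    funext w
    have := congrFun h (e.symm w)
    simpa using this
  set x₀ : J × ZMod p → ℤ := y₀ ∘ e with hx₀def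
  have hmem : ∏ a, u a ^ x₀ a = 1 := (hker' x₀).2 ⟨1, by simp⟩
  have hshift : ∏ a : J × ZMod p, u a ^ x₀ (a.1, a.2 - 1) = 1 := by
    have := BUnit_act_prod p K L hfr σ hσ (Equiv.refl J) x₀
    simp only [Equiv.refl_apply, Prod.mk.eta] at this
    rw [← this]
    have hm : ∏ a, BUnit_fam p K L σ a ^ x₀ a = 1 := hmem
    rw [hm, map_one]
  obtain ⟨n, hn⟩ := (hker' (fun a ↦ x₀ (a.1, a.2 - 1))).1 hshift
  have hn' : ∀ j i, x₀ (j, i - 1) = n * x₀ (j, i) := fun j i ↦ by
    simpa using congrFun hn (j, i)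
  have hpow : ∀ k : ℕ, ∀ j i, x₀ (j, i - k) = n ^ k * x₀ (j, i) := by
    intro k
    induction k with
    | zero => intro j i; simp
    | succ k ih =>
      intro j i
      have : i - ((k + 1 : ℕ) : ZMod p) = (i - k) - 1 := by push_cast; ring
      rw [this, hn', ih]; ring
  have hnp : n ^ p = 1 := by
    obtain ⟨a, ha⟩ : ∃ a, x₀ a ≠ 0 := by
      by_contra h
      push Not at h
      exact hx₀ (funext h)
    have := hpow p a.1 a.2
    rw [ZMod.natCast_self, sub_zero] at this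
    have h2 : (n ^ p - 1) * x₀ a = 0 := by linear_combination -this
    rcases mul_eq_zero.1 h2 with h | h
    · linarith
    · exact absurd h ha
  have hn1 : n = 1 := by
    have hodd : Odd p := hp.out.odd_of_ne_two hp2
    apply (hodd.strictMono_pow (R := ℤ)).injective
    simp [hnp]
  refine ⟨J, inferInstance, u, x₀, ?_, hfi, hx₀, ?_, hker'⟩
  · intro j i
    have := BUnit_fam_succ p K L hfr σ hσ j i
    change ((BUnit_fam p K L σ (j, i + 1) : 𝓞 L) : L) = _
    rw [this, BUnit_act_coe]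
  · intro j i
    have := hn' j (i + 1)
    rw [add_sub_cancel_right, hn1, one_mul] at this
    exact this.symm

end

end Fermat.Agent.S14
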