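/-
P-CFT (S14), task B-UNIT (helper64): the Herbrand quotient of the units of a cyclic extension
of odd prime degree `p` is `1 / p`, in the frozen form `IfaceUnit` of `B/Defs.lean`.
Glue of `BUnit_exists_family` (number-field half) with the abstract Herbrand computation
`Fermat.Agent.CFT.H8.units_index_h0_h1` (helper8).
-/
import Mathlib
import Fermat.Agent.S14.B.Defs
import Fermat.Agent.S14.B.UnitsFamily
import Fermat.Agent.CFT.HerbrandUnitsAdapter

open NumberField

namespace Fermat.Agent.S14.B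

noncomputable section

section Glue

variable (K L : Type) [Field K] [NumberField K] [Field L] [NumberField L] [Algebra K L]

theorem BUnitG_unitEnd_coe (σ : Gal(L/K)) (x : Additive (𝓞 L)ˣ) :
    ((((unitEnd K L σ x).toMul : (𝓞 L)ˣ) : 𝓞 L) : L) = σ (((x.toMul : (𝓞 L)ˣ) : 𝓞 L) : L) :=
  rfl

theorem BUnitG_unitEnd_one : unitEnd K L (1 : Gal(L/K)) = 1 := by
  ext x
  rfl

theorem BUnitG_unitEnd_mul (σ τ : Gal(L/K)) :
    unitEnd K L (σ * τ) = unitEnd K L σ * unitEnd K L τ := by
  ext x
  rfl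

theorem BUnitG_unitEnd_pow (σ : Gal(L/K)) (k : ℕ) :
    unitEnd K L σ ^ k = unitEnd K L (σ ^ k) := by
  induction k with
  | zero => rw [pow_zero, pow_zero, BUnitG_unitEnd_one]
  | succ k ih => rw [pow_succ, pow_succ, BUnitG_unitEnd_mul, ih]

/-- The exponent map intertwines the shift of exponents with the action of `σ`. -/
theorem BUnitG_equivariant (σ : Gal(L/K)) {J : Type} [Fintype J] (p : ℕ) [NeZero p]
    (u : J × ZMod p → (𝓞 L)ˣ)
    (hu : ∀ j i, ((u (j, i + 1) : 𝓞 L) : L) = σ ((u (j, i) : 𝓞 L) : L))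
    (m : J × ZMod p → ℤ) :
    BUnit_expHom L u ((CFT.H8.permEnd (CFT.H8.shiftPerm J p) : AddMonoid.End (J × ZMod p → ℤ)) m)
      = unitEnd K L σ (BUnit_expHom L u m) := by
  have hu' : ∀ a : J × ZMod p, unitEnd K L σ (Additive.ofMul (u a)) =
      Additive.ofMul (u (CFT.H8.shiftPerm J p a)) := by
    rintro ⟨j, i⟩
    apply Additive.toMul.injective
    apply Units.ext
    apply RingOfIntegers.ext
    exact (hu j i).symm
  rw [BUnit_expHom_apply, BUnit_expHom_apply, ofMul_prod, ofMul_prod, map_sum]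
  simp only [ofMul_zpow, map_zsmul, hu']
  rw [← Equiv.sum_comp (CFT.H8.shiftPerm J p)
    (fun a ↦ (CFT.H8.permEnd (CFT.H8.shiftPerm J p) : AddMonoid.End (J × ZMod p → ℤ)) m a •
      Additive.ofMul (u a))]
  refine Finset.sum_congr rfl fun a _ ↦ ?_
  rw [CFT.H8.permEnd_apply, Equiv.symm_apply_apply]

/-- The image of the exponent map has finite index when the family generates a subgroup of
finite index. -/
theorem BUnitG_index_ne_zero {J : Type} [Fintype J] [DecidableEq J] (u : J → (𝓞 L)ˣ)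
    (hfi : (Subgroup.closure (Set.range u)).FiniteIndex) :
    (BUnit_expHom L u).range.index ≠ 0 := by
  have hle : Subgroup.closure (Set.range u) ≤
      Subgroup.toAddSubgroup.symm (BUnit_expHom L u).range := by
    rw [Subgroup.closure_le]
    rintro _ ⟨a, rfl⟩
    change Additive.ofMul (u a) ∈ (BUnit_expHom L u).range
    refine ⟨Pi.single a 1, ?_⟩
    rw [BUnit_expHom_apply]
    congr 1
    rw [Finset.prod_eq_single a]
    · simp
    · intro b _ hb
      simp [Pi.single_eq_of_ne hb]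
    · intro h
      exact absurd (Finset.mem_univ a) h
  have h1 : (Subgroup.toAddSubgroup.symm (BUnit_expHom L u).range).FiniteIndex :=
    Subgroup.finiteIndex_of_le hle
  have h2 := h1.index_ne_zero
  intro h
  apply h2
  rw [← h]
  rfl

/-- The kernel of the exponent map is infinite cyclic. -/
def BUnitG_kerEquiv {J : Type} [Fintype J] (u : J → (𝓞 L)ˣ) (x₀ : J → ℤ) (hx₀ : x₀ ≠ 0)
    (hker : ∀ x : J → ℤ, (∏ a, u a ^ x a = 1) ↔ ∃ n : ℤ, x = n • x₀) :
    (BUnit_expHom L u).ker ≃+ ℤ :=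
  (AddEquiv.ofBijective
    ({ toFun := fun n ↦ ⟨n • x₀, (BUnit_mem_ker_expHom L u _).2 ((hker _).2 ⟨n, rfl⟩)⟩
       map_zero' := by ext; simp
       map_add' := fun a b ↦ by ext; simp [add_mul] } : ℤ →+ (BUnit_expHom L u).ker)
    (by
      constructor
      · intro a b hab
        have h1 : a • x₀ = b • x₀ := congrArg Subtype.val hab
        obtain ⟨i, hi⟩ : ∃ i, x₀ i ≠ 0 := by
          by_contra h
          push Not at h
          exact hx₀ (funext h)
        have h2 := congrFun h1 i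
        simp only [Pi.smul_apply, smul_eq_mul] at h2
        exact mul_right_cancel₀ hi h2
      · rintro ⟨x, hx⟩
        obtain ⟨n, hn⟩ := (hker x).1 ((BUnit_mem_ker_expHom L u x).1 hx)
        exact ⟨n, Subtype.ext hn.symm⟩)).symm

end Glue

/-- **B-UNIT**: the frozen interface `IfaceUnit`. -/
theorem ifaceUnit : IfaceUnit := by
  intro p hp hp3 K L _ _ _ _ _ _ hfr σ hσ
  classical
  have : Fact p.Prime := ⟨hp⟩
  have : NeZero p := ⟨hp.ne_zero⟩
  have hp2 : p ≠ 2 := by omega
  have hodd : Odd p := hp.odd_of_ne_two hp2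
  have hcard : Nat.card Gal(L/K) = p := by rw [IsGalois.card_aut_eq_finrank, hfr]
  have hσ1 : σ ≠ 1 := by
    rintro rfl
    have hsub : Subsingleton Gal(L/K) := by
      refine ⟨fun a b ↦ ?_⟩
      have ha := hσ a
      have hb := hσ b
      rw [Subgroup.zpowers_one_eq_bot, Subgroup.mem_bot] at ha hb
      rw [ha, hb]
    have : Nat.card Gal(L/K) = 1 := Nat.card_unique
    omega
  obtain ⟨J, hJ, u, x₀, hequiv, hfi, hx₀, -, hker⟩ := BUnit_exists_family p hp2 K L hfr σ hσ1
  have hs : unitEnd K L σ ^ p = 1 := by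
    rw [BUnitG_unitEnd_pow, ← hcard, pow_card_eq_one', BUnitG_unitEnd_one]
  have key := CFT.H8.units_index_h0_h1 (unitEnd K L σ) p hodd hs (CFT.H8.shiftPerm J p)
    (CFT.H8.shiftPerm_pow_eq_one J p) (CFT.H8.shiftPerm_free J p) (BUnit_expHom L u)
    (BUnitG_equivariant K L σ p u hequiv) (BUnitG_index_ne_zero L u hfi)
    (BUnitG_kerEquiv L u x₀ hx₀ hker)
  exact ⟨key.1, key.2.symm⟩

end

end Fermat.Agent.S14.B
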