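import Fermat.Agent.S14.B.Main
import Fermat.Agent.S14.B.AmbIface
import Fermat.Agent.S14.B.Units

/-!
# Pillar P-CFT (S14), part (B): the second inequality

`ifaceB : IfaceB` — for an everywhere unramified Galois extension `L/K` of number fields of odd
prime degree `p`, the classes of the relative norms of ideals of `L` do not fill the class
group of `K`.
-/

set_option autoImplicit false

namespace Fermat.Agent.S14.B

/-- **(B)**, the second inequality. -/
theorem ifaceB : IfaceB := ifaceB_of ifaceUnit ifaceAmb

end Fermat.Agent.S14.B
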