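import Mathlib
import Fermat.Agent.S14.B.Defs

/-!
# Pillar P-CFT (S14), part (B), module B-UNIT: reduction to two leaves

* `IfaceRank` (pure algebra): for a finitely generated abelian group `M` with an endomorphism `s`
  such that `s ^ p = 1` (`p` prime), with `a = finrank ℤ (ker (s - 1))`, there is `b` with
  `finrank ℤ M = a + (p - 1) * b`, both Herbrand indices are finite and
  `hq0 * p ^ b = hq1 * p ^ a`.
* `IfaceRankTriv`, `IfaceRankNm` (pure algebra): the two torsion-free special cases from which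
  `IfaceRank` follows by the hexagon lemma (module B-HQ).
* `IfaceUnitRk` (number fields): the `σ`-invariant units of `L` have the rank of the units of `K`.
* `ifaceUnit_of : IfaceRank → IfaceUnitRk → IfaceUnit`.
-/

set_option autoImplicit false

open NumberField

noncomputable section

namespace Fermat.Agent.S14.B

/-- **(R)**, the abstract rank formula for the Herbrand quotient of a finitely generated abelian
group with an automorphism of prime order. -/
def IfaceRank : Prop :=
  ∀ (p : ℕ), p.Prime → ∀ (M : Type) [AddCommGroup M] [Module.Finite ℤ M] (s : AddMonoid.End M),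
    s ^ p = 1 →
    ∃ b : ℕ, Module.finrank ℤ M = Module.finrank ℤ (AddMonoidHom.ker (hqD s)) + (p - 1) * b ∧
      hq0 s p ≠ 0 ∧ hq1 s p ≠ 0 ∧
      hq0 s p * p ^ b = hq1 s p * p ^ Module.finrank ℤ (AddMonoidHom.ker (hqD s))

/-- **(R1)**, the torsion-free case with trivial action: `hq0 = [A : pA] = p ^ rank`, `hq1 = 1`. -/
def IfaceRankTriv : Prop :=
  ∀ (p : ℕ), p.Prime → ∀ (A : Type) [AddCommGroup A] [Module.Finite ℤ A],
    (∀ (n : ℕ) (x : A), n ≠ 0 → n • x = 0 → x = 0) →
    hq0 (1 : AddMonoid.End A) p = p ^ Module.finrank ℤ A ∧ hq1 (1 : AddMonoid.End A) p = 1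

/-- **(R2)**, the torsion-free case with `Nm = 0` (a lattice over `ℤ[ζ_p]`): `hq0 = 1` and
`hq1 = [A : (s - 1) A] = p ^ b` where `rank A = (p - 1) * b`. -/
def IfaceRankNm : Prop :=
  ∀ (p : ℕ), p.Prime → ∀ (A : Type) [AddCommGroup A] [Module.Finite ℤ A],
    (∀ (n : ℕ) (x : A), n ≠ 0 → n • x = 0 → x = 0) →
    ∀ s : AddMonoid.End A, hqNm s p = 0 →
      hq0 s p = 1 ∧ ∃ b : ℕ, Module.finrank ℤ A = (p - 1) * b ∧ hq1 s p = p ^ b

/-- **(RK)**, the units of `L` fixed by a generator `σ` of `Gal(L/K)` have the same rank as the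
units of `K`. -/
def IfaceUnitRk : Prop :=
  ∀ (K L : Type) [Field K] [NumberField K] [Field L] [NumberField L] [Algebra K L]
    [IsGalois K L] (σ : Gal(L/K)), (∀ τ : Gal(L/K), τ ∈ Subgroup.zpowers σ) →
      Module.finrank ℤ (AddMonoidHom.ker (hqD (unitEnd K L σ))) = NumberField.Units.rank K

section

set_option linter.unusedSectionVars false

variable (K L : Type*) [Field K] [NumberField K] [Field L] [NumberField L] [Algebra K L]

theorem unitEnd_one : unitEnd K L (1 : Gal(L/K)) = 1 := by
  refine AddMonoidHom.ext fun u => ?_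
  induction u using Additive.rec with
  | _ u =>
    apply Additive.toMul.injective
    apply Units.ext
    exact one_smul Gal(L/K) (u : 𝓞 L)

theorem unitEnd_mul (σ τ : Gal(L/K)) : unitEnd K L (σ * τ) = unitEnd K L σ * unitEnd K L τ := by
  refine AddMonoidHom.ext fun u => ?_
  induction u using Additive.rec with
  | _ u =>
    apply Additive.toMul.injective
    apply Units.ext
    exact mul_smul σ τ (u : 𝓞 L)

theorem unitEnd_pow (σ : Gal(L/K)) (n : ℕ) : unitEnd K L (σ ^ n) = unitEnd K L σ ^ n := by
  induction n with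
  | zero => simpa using unitEnd_one K L
  | succ n ih => rw [pow_succ, pow_succ, unitEnd_mul, ih]

end

/-- **B-UNIT** from the abstract rank formula and the rank of the invariant units. -/
theorem ifaceUnit_of (hR : IfaceRank) (hK : IfaceUnitRk) : IfaceUnit := by
  intro p hp h3 K L _ _ _ _ _ _ hdeg σ hσ
  have hcard : Nat.card Gal(L/K) = p := by rw [IsGalois.card_aut_eq_finrank, hdeg]
  have hσp : σ ^ p = 1 := by rw [← hcard]; exact pow_card_eq_one'
  have hs : unitEnd K L σ ^ p = 1 := by rw [← unitEnd_pow, hσp, unitEnd_one]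
  obtain ⟨b, hb, h0, h1, hq⟩ := hR p hp (Additive (𝓞 L)ˣ) (unitEnd K L σ) hs
  have ha := hK K L σ hσ
  rw [ha] at hb hq
  have hodd : Odd (Module.finrank K L) := by
    rw [hdeg]; exact hp.odd_of_ne_two (by omega)
  have : IsUnramifiedAtInfinitePlaces K L := IsUnramifiedAtInfinitePlaces_of_odd_finrank hodd
  have hL : Fintype.card (InfinitePlace L) = Fintype.card (InfinitePlace K) * p := by
    rw [IsUnramifiedAtInfinitePlaces.card_infinitePlace K L, hdeg]
  have hrL : Module.finrank ℤ (Additive (𝓞 L)ˣ) = Fintype.card (InfinitePlace L) - 1 :=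
    NumberField.Units.finrank_eq L
  have hrK : NumberField.Units.rank K = Fintype.card (InfinitePlace K) - 1 := rfl
  have hm : 0 < Fintype.card (InfinitePlace K) := Fintype.card_pos
  generalize Fintype.card (InfinitePlace K) = m at hL hrK hm
  have hp2 : 2 ≤ p := hp.two_le
  -- `b = m`
  have hbm : b = m := by
    rw [hrL, hL, hrK] at hb
    obtain ⟨m', rfl⟩ : ∃ m', m = m' + 1 := ⟨m - 1, by omega⟩
    obtain ⟨p', rfl⟩ : ∃ p', p = p' + 1 := ⟨p - 1, by omega⟩
    have hp' : 0 < p' := by omega
    simp only [Nat.add_sub_cancel] at hb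
    have : p' * (m' + 1) = p' * b := by
      have e : (m' + 1) * (p' + 1) - 1 = m' + p' * (m' + 1) := by
        have : (m' + 1) * (p' + 1) = m' + p' * (m' + 1) + 1 := by ring
        omega
      omega
    exact (Nat.eq_of_mul_eq_mul_left hp' this).symm
  refine ⟨h0, ?_⟩
  rw [hbm, hrK] at hq
  have hpm : p ^ m = p * p ^ (m - 1) := by
    rw [← pow_succ']; congr 1; omega
  rw [hpm] at hq
  have hpos : 0 < p ^ (m - 1) := pow_pos (by omega) _
  have : hq1 (unitEnd K L σ) p * p ^ (m - 1) = p * hq0 (unitEnd K L σ) p * p ^ (m - 1) := by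
    rw [← hq]; ring
  exact Nat.eq_of_mul_eq_mul_right hpos this

end Fermat.Agent.S14.B
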