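import Mathlib
import Fermat.Agent.S14.B.Defs
import Fermat.Agent.CFT.HerbrandUnitsAdapter

/-!
# Pillar P-CFT (S14), part (B), module B-UNIT: from an equivariant family of units to `IfaceUnit`

`ifaceUnit_of_family : UnitFamilyStatement → IfaceUnit`, where `UnitFamilyStatement` is the
number-field half of B-UNIT (an equivariant family of units `u : J × ZMod p → (𝓞 L)ˣ` generating
a subgroup of finite index, with relation lattice `ℤ • x₀`).  The Herbrand computation is
`Fermat.Agent.CFT.H8.units_index_h0_h1`.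
-/

set_option autoImplicit false

open NumberField

noncomputable section

namespace Fermat.Agent.S14.B.H8Glue

open Fermat.Agent.CFT.H8

section Abstract

variable {U : Type*} [CommGroup U] {S : Type*} [Fintype S]

/-- The exponent map `(S → ℤ) →+ Additive U`, `m ↦ ∏ a, u a ^ m a`. -/
def expHom (u : S → U) : (S → ℤ) →+ Additive U :=
  ∑ a : S, (zmultiplesHom (Additive U) (Additive.ofMul (u a))).comp (Pi.evalAddMonoidHom _ a)

theorem expHom_apply (u : S → U) (m : S → ℤ) :
    expHom u m = ∑ a, m a • Additive.ofMul (u a) := by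
  unfold expHom
  rw [AddMonoidHom.finsetSum_apply]
  rfl

theorem expHom_eq_ofMul (u : S → U) (m : S → ℤ) :
    expHom u m = Additive.ofMul (∏ a, u a ^ m a) := by
  rw [expHom_apply, ofMul_prod]
  rfl

theorem expHom_eq_zero_iff (u : S → U) (m : S → ℤ) :
    expHom u m = 0 ↔ ∏ a, u a ^ m a = 1 := by
  rw [expHom_eq_ofMul]
  exact ofMul_eq_zero

theorem expHom_single [DecidableEq S] (u : S → U) (a : S) :
    expHom u (Pi.single a 1) = Additive.ofMul (u a) := by
  rw [expHom_apply, Finset.sum_eq_single a]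
  · rw [Pi.single_eq_same, one_smul]
  · intro b _ hb
    rw [Pi.single_eq_of_ne hb, zero_smul]
  · intro h
    exact absurd (Finset.mem_univ a) h

theorem closure_le_range_expHom (u : S → U) :
    Subgroup.toAddSubgroup (Subgroup.closure (Set.range u)) ≤ (expHom u).range := by
  classical
  have h : Subgroup.closure (Set.range u) ≤ Subgroup.toAddSubgroup.symm (expHom u).range := by
    rw [Subgroup.closure_le]
    rintro _ ⟨a, rfl⟩
    exact ⟨Pi.single a 1, expHom_single u a⟩
  intro x hx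
  exact h hx

theorem index_range_expHom_ne_zero (u : S → U)
    (hfin : (Subgroup.closure (Set.range u)).FiniteIndex) :
    (expHom u).range.index ≠ 0 := by
  have h1 : (Subgroup.toAddSubgroup (Subgroup.closure (Set.range u))).index ≠ 0 := by
    rw [Subgroup.index_toAddSubgroup]
    exact hfin.index_ne_zero
  exact ne_zero_of_dvd_ne_zero h1 (AddSubgroup.index_dvd_of_le (closure_le_range_expHom u))

/-- The kernel of the exponent map is infinite cyclic if the relation lattice is `ℤ • x₀` with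
`x₀ ≠ 0`. -/
def kerEquivInt (u : S → U) (x₀ : S → ℤ) (hx₀ : x₀ ≠ 0)
    (hker : ∀ x : S → ℤ, (∏ a, u a ^ x a = 1) ↔ ∃ n : ℤ, x = n • x₀) :
    (expHom u).ker ≃+ ℤ := by
  have hinj : Function.Injective (zmultiplesHom (S → ℤ) x₀) := by
    rw [injective_iff_map_eq_zero]
    intro n hn
    rw [zmultiplesHom_apply] at hn
    rcases smul_eq_zero.mp hn with h | h
    · exact h
    · exact absurd h hx₀
  have hrange : (zmultiplesHom (S → ℤ) x₀).range = (expHom u).ker := by
    ext x
    rw [AddMonoidHom.mem_range, AddMonoidHom.mem_ker, expHom_eq_zero_iff, hker]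
    constructor
    · rintro ⟨n, rfl⟩
      exact ⟨n, rfl⟩
    · rintro ⟨n, rfl⟩
      exact ⟨n, rfl⟩
  exact ((AddMonoidHom.ofInjective hinj).trans (AddEquiv.addSubgroupCongr hrange)).symm

theorem expHom_permEnd (u : S → U) (τ : Equiv.Perm S) (s : Additive U →+ Additive U)
    (hs : ∀ a, s (Additive.ofMul (u a)) = Additive.ofMul (u (τ a))) (m : S → ℤ) :
    expHom u ((permEnd τ : AddMonoid.End (S → ℤ)) m) = s (expHom u m) := by
  rw [expHom_apply, expHom_apply, map_sum]
  rw [← Equiv.sum_comp τ]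
  refine Finset.sum_congr rfl fun a _ => ?_
  rw [map_zsmul, hs, permEnd_apply, Equiv.symm_apply_apply]

end Abstract

section NumberField

variable (K L : Type*) [Field K] [NumberField K] [Field L] [NumberField L] [Algebra K L]

theorem unitEnd_one : unitEnd K L (1 : Gal(L/K)) = 1 := by
  refine DFunLike.ext _ _ fun x => ?_
  obtain ⟨u, rfl⟩ := Additive.ofMul.surjective x
  apply Additive.toMul.injective
  apply Units.ext
  have h := coe_unitEnd_apply K L 1 u
  rw [one_smul] at h
  exact h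

theorem unitEnd_mul (σ τ : Gal(L/K)) : unitEnd K L (σ * τ) = unitEnd K L σ * unitEnd K L τ := by
  refine DFunLike.ext _ _ fun x => ?_
  obtain ⟨u, rfl⟩ := Additive.ofMul.surjective x
  apply Additive.toMul.injective
  apply Units.ext
  have h := coe_unitEnd_apply K L (σ * τ) u
  rw [mul_smul] at h
  exact h

theorem unitEnd_pow (σ : Gal(L/K)) (k : ℕ) : unitEnd K L (σ ^ k) = unitEnd K L σ ^ k := by
  induction k with
  | zero => rw [pow_zero, pow_zero, unitEnd_one]
  | succ k ih => rw [pow_succ, pow_succ, unitEnd_mul, ih]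

theorem unitEnd_ofMul_eq (σ : Gal(L/K)) (u v : (𝓞 L)ˣ)
    (h : ((v : 𝓞 L) : L) = σ ((u : 𝓞 L) : L)) :
    unitEnd K L σ (Additive.ofMul u) = Additive.ofMul v := by
  apply Additive.toMul.injective
  apply Units.ext
  apply RingOfIntegers.ext
  show (((unitEnd K L σ (Additive.ofMul u)).toMul : (𝓞 L)ˣ) : L) = ((v : 𝓞 L) : L)
  rw [coe_unitEnd_apply, h]
  rfl

/-- **Herbrand quotient of the units from an equivariant family of units.** -/
theorem hq_of_unit_family (σ : Gal(L/K)) (n : ℕ) (hodd : Odd n) (hσ : σ ^ n = 1)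
    {S : Type*} [Fintype S] (τ : Equiv.Perm S) (hτ : τ ^ n = 1)
    (hfree : ∀ x, ∀ i, 0 < i → i < n → (τ ^ i) x ≠ x)
    (u : S → (𝓞 L)ˣ)
    (hu : ∀ a, ((u (τ a) : 𝓞 L) : L) = σ ((u a : 𝓞 L) : L))
    (hfin : (Subgroup.closure (Set.range u)).FiniteIndex)
    (x₀ : S → ℤ) (hx₀ : x₀ ≠ 0)
    (hker : ∀ x : S → ℤ, (∏ a, u a ^ x a = 1) ↔ ∃ n : ℤ, x = n • x₀) :
    hq0 (unitEnd K L σ) n ≠ 0 ∧ hq1 (unitEnd K L σ) n = n * hq0 (unitEnd K L σ) n := by
  have hs : unitEnd K L σ ^ n = 1 := by
    rw [← unitEnd_pow, hσ, unitEnd_one]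
  have key := units_index_h0_h1 (unitEnd K L σ) n hodd hs τ hτ hfree (expHom u)
    (expHom_permEnd u τ (unitEnd K L σ) (fun a => unitEnd_ofMul_eq K L σ (u a) (u (τ a)) (hu a)))
    (index_range_expHom_ne_zero u hfin) (kerEquivInt u x₀ hx₀ hker)
  exact ⟨key.1, key.2.symm⟩

end NumberField

/-- The number-field half of B-UNIT: an equivariant family of units of finite index with
relation lattice `ℤ • x₀`. -/
def UnitFamilyStatement : Prop :=
  ∀ (p : ℕ) [Fact p.Prime], p ≠ 2 →
    ∀ (K L : Type) [Field K] [NumberField K] [Field L] [NumberField L] [Algebra K L]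
      [IsGalois K L], Module.finrank K L = p → ∀ σ : L ≃ₐ[K] L, σ ≠ 1 →
    ∃ (J : Type) (_ : Fintype J) (u : J × ZMod p → (𝓞 L)ˣ) (x₀ : J × ZMod p → ℤ),
      (∀ j i, ((u (j, i + 1) : 𝓞 L) : L) = σ ((u (j, i) : 𝓞 L) : L)) ∧
      (Subgroup.closure (Set.range u)).FiniteIndex ∧
      x₀ ≠ 0 ∧ (∀ j i, x₀ (j, i + 1) = x₀ (j, i)) ∧
      ∀ x : J × ZMod p → ℤ, (∏ a, u a ^ x a = 1) ↔ ∃ n : ℤ, x = n • x₀

/-- **B-UNIT** from the number-field half. -/
theorem ifaceUnit_of_family (H : UnitFamilyStatement) : IfaceUnit := by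
  intro p hp h3 K L _ _ _ _ _ _ hdeg σ hσ
  have : Fact p.Prime := ⟨hp⟩
  have hcard : Nat.card Gal(L/K) = p := by
    rw [IsGalois.card_aut_eq_finrank, hdeg]
  have hσp : σ ^ p = 1 := by
    rw [← hcard]
    exact pow_card_eq_one'
  have hσ1 : σ ≠ 1 := by
    intro h1
    have htriv : ∀ τ : Gal(L/K), τ = 1 := by
      intro τ
      obtain ⟨k, hk⟩ := Subgroup.mem_zpowers_iff.mp (hσ τ)
      rw [← hk, h1, one_zpow]
    have hsub : Subsingleton Gal(L/K) := ⟨fun a b => by rw [htriv a, htriv b]⟩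
    have : Nat.card Gal(L/K) ≤ 1 := Finite.card_le_one_iff_subsingleton.mpr hsub
    omega
  have hodd : Odd p := hp.odd_of_ne_two (by omega)
  obtain ⟨J, hJ, u, x₀, hu, hfin, hx₀, -, hker⟩ := H p (by omega) K L hdeg σ hσ1
  exact hq_of_unit_family K L σ p hodd hσp (shiftPerm J p) (shiftPerm_pow_eq_one J p)
    (shiftPerm_free J p) u (fun a => hu a.1 a.2) hfin x₀ hx₀ hker

end Fermat.Agent.S14.B.H8Glue
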