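import Mathlib

/-!
# A family of "Minkowski units" generates a subgroup of finite index in the unit group

`BUIdx_finiteIndex_closure`: if `u w` is a unit of `𝓞 L` for every infinite place `w` of `L`
with `w' (u w) < 1` for all `w' ≠ w`, then the subgroup generated by the `u w` has finite
index in `(𝓞 L)ˣ`.
-/

open NumberField NumberField.InfinitePlace NumberField.Units
  NumberField.Units.dirichletUnitTheorem Module

namespace Fermat.Agent.S14

noncomputable section

variable (L : Type*) [Field L] [NumberField L]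

/-- The determinant argument of Mathlib's `unitLattice_span_eq_top`, for an arbitrary family of
units which are small at all places but one. -/
theorem BUIdx_linearIndependent_log
    (u : InfinitePlace L → (𝓞 L)ˣ)
    (hu : ∀ w w' : InfinitePlace L, w' ≠ w → w' ((u w : 𝓞 L) : L) < 1) :
    LinearIndependent ℝ (fun w : {w : InfinitePlace L // w ≠ w₀} ↦
      logEmbedding L (Additive.ofMul (u w.1))) := by
  classical
  have hlog : ∀ w w' : InfinitePlace L, w' ≠ w → Real.log (w' ((u w : 𝓞 L) : L)) < 0 :=
    fun w w' h ↦ Real.log_neg (pos_at_place (u w) w') (hu w w' h)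
  let B := Pi.basisFun ℝ {w : InfinitePlace L // w ≠ w₀}
  let v := fun w : { w : InfinitePlace L // w ≠ w₀ } ↦
    logEmbedding L (Additive.ofMul (u w.1))
  suffices B.det v ≠ 0 by
    rw [← isUnit_iff_ne_zero, ← Basis.is_basis_iff_det] at this
    exact this.1
  rw [Basis.det_apply]
  refine _root_.det_ne_zero_of_sum_col_lt_diag (fun w ↦ ?_)
  simp_rw [Real.norm_eq_abs, B, Basis.coePiBasisFun.toMatrix_eq_transpose, Matrix.transpose_apply]
  rw [← sub_pos, Finset.sum_congr rfl (fun x hx ↦ abs_of_neg ?_), Finset.sum_neg_distrib,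
    sub_neg_eq_add, Finset.sum_erase_eq_sub (Finset.mem_univ _), ← add_comm_sub]
  · refine add_pos_of_nonneg_of_pos ?_ ?_
    · rw [sub_nonneg]
      exact le_abs_self _
    · rw [sum_logEmbedding_component (u w.1)]
      refine mul_pos_of_neg_of_neg ?_ (hlog _ _ w.prop.symm)
      rw [mult]; split_ifs <;> norm_num
  · refine mul_neg_of_pos_of_neg ?_ (hlog _ _ ?_)
    · rw [mult]; split_ifs <;> norm_num
    · exact Subtype.ext_iff.not.mp (Finset.ne_of_mem_erase hx)

/-- A family of units `u w` (one for each infinite place `w`), small at all the places different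
from `w`, generates a subgroup of finite index of the unit group. -/
theorem BUIdx_finiteIndex_closure
    (u : InfinitePlace L → (𝓞 L)ˣ)
    (hu : ∀ w w' : InfinitePlace L, w' ≠ w → w' ((u w : 𝓞 L) : L) < 1) :
    (Subgroup.closure (Set.range u)).FiniteIndex := by
  classical
  let Λ : Submodule ℤ (logSpace L) := unitLattice L
  have hmem : ∀ x : Additive (𝓞 L)ˣ, logEmbedding L x ∈ Λ := fun x ↦
    Submodule.mem_map_of_mem (f := (logEmbedding L).toIntLinearMap) trivial
  let v' : {w : InfinitePlace L // w ≠ w₀} → Λ := fun w ↦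
    ⟨logEmbedding L (Additive.ofMul (u w.1)), hmem _⟩
  have hli : LinearIndependent ℤ v' := by
    have h1 := (BUIdx_linearIndependent_log L u hu).restrict_scalars' ℤ
    exact LinearIndependent.of_comp Λ.subtype h1
  let Λ' : Submodule ℤ Λ := Submodule.span ℤ (Set.range v')
  have hrank : finrank ℤ Λ' = finrank ℤ Λ := by
    rw [finrank_span_eq_card hli, unitLattice_rank, ← Units.finrank_eq_rank,
      finrank_fintype_fun_eq_card]
  have hfin : Finite (Λ ⧸ Λ') := Submodule.finiteQuotientOfFreeOfRankEq Λ' hrank
  let f : Additive (𝓞 L)ˣ →+ Λ := (logEmbedding L).codRestrict Λ hmem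
  let g : (𝓞 L)ˣ →* Multiplicative (Λ ⧸ Λ') :=
    AddMonoidHom.toMultiplicativeRight ((Λ'.mkQ.toAddMonoidHom).comp f)
  have hker : g.ker.FiniteIndex := Subgroup.finiteIndex_ker g
  set H : Subgroup (𝓞 L)ˣ := Subgroup.closure (Set.range u) with hH
  have hle : g.ker ≤ H ⊔ torsion L := by
    intro x hx
    have hx' : f (Additive.ofMul x) ∈ Λ' := by
      have := (MonoidHom.mem_ker).mp hx
      simpa [g, Submodule.Quotient.mk_eq_zero] using this
    obtain ⟨c, hc⟩ := (Submodule.mem_span_range_iff_exists_fun ℤ).mp hx'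
    let y : (𝓞 L)ˣ := ∏ w, (u w.1) ^ (c w)
    have hy : y ∈ H := Subgroup.prod_mem _ fun w _ ↦
      Subgroup.zpow_mem _ (Subgroup.subset_closure (Set.mem_range_self w.1)) _
    have hlogy : logEmbedding L (Additive.ofMul y) = logEmbedding L (Additive.ofMul x) := by
      have h2 := congrArg (Subtype.val) hc
      simp only [f, v', AddMonoidHom.codRestrict_apply] at h2
      rw [← h2]
      simp [y, ofMul_prod, ofMul_zpow, map_sum, map_zsmul]
    have ht : x * y⁻¹ ∈ torsion L := by
      rw [← logEmbedding_eq_zero_iff, ofMul_mul, ofMul_inv, map_add, map_neg, hlogy, add_neg_cancel]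
    have : x = y * (x * y⁻¹) := by
      rw [mul_comm x, mul_inv_cancel_left]
    rw [this]
    exact Subgroup.mul_mem_sup hy ht
  have hsup : (H ⊔ torsion L).FiniteIndex := Subgroup.finiteIndex_of_le hle
  have hrel : H.relIndex (H ⊔ torsion L) ≠ 0 := by
    rw [Subgroup.relIndex_sup_left]
    exact Subgroup.index_ne_zero_of_finite
  refine ⟨?_⟩
  rw [← Subgroup.relIndex_mul_index (le_sup_left : H ≤ H ⊔ torsion L)]
  exact mul_ne_zero hrel hsup.index_ne_zero

end

end Fermat.Agent.S14
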