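import Mathlib
import Fermat.Agent.S14.B.UnitsIndex

/-!
# The kernel of the exponent map of a family of "Minkowski units" is infinite cyclic

For a family `u : S → (𝓞 L)ˣ` indexed by (a type in bijection with) the infinite places of `L`,
with `u a` small at all the places different from `a`, the relations `∏ a, u a ^ x a = 1`
form an infinite cyclic group `ℤ • x₀`.
-/

open NumberField NumberField.InfinitePlace NumberField.Units
  NumberField.Units.dirichletUnitTheorem Module

namespace Fermat.Agent.S14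

noncomputable section

variable (L : Type*) [Field L] [NumberField L]

/-- The exponent map `x ↦ ∏ a, u a ^ x a`, written additively, as a `ℤ`-linear map. -/
def BUKer_expMap {S : Type*} [Fintype S] (u : S → (𝓞 L)ˣ) : (S → ℤ) →ₗ[ℤ] Additive (𝓞 L)ˣ :=
  Fintype.linearCombination ℤ (fun a ↦ Additive.ofMul (u a))

omit [NumberField L] in
theorem BUKer_expMap_apply {S : Type*} [Fintype S] (u : S → (𝓞 L)ˣ) (x : S → ℤ) :
    BUKer_expMap L u x = Additive.ofMul (∏ a, u a ^ x a) := by
  simp [BUKer_expMap, Fintype.linearCombination_apply, ofMul_prod, ofMul_zpow]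

omit [NumberField L] in
theorem BUKer_expMap_eq_zero_iff {S : Type*} [Fintype S] (u : S → (𝓞 L)ˣ) (x : S → ℤ) :
    BUKer_expMap L u x = 0 ↔ ∏ a, u a ^ x a = 1 := by
  rw [BUKer_expMap_apply]
  exact ofMul_eq_zero

theorem BUKer_finrank_ker {S : Type*} [Fintype S] (e : S ≃ InfinitePlace L) (u : S → (𝓞 L)ˣ)
    (hu : ∀ a b : S, b ≠ a → e b ((u a : 𝓞 L) : L) < 1) :
    finrank ℤ (LinearMap.ker (BUKer_expMap L u)) = 1 := by
  classical
  set φ := BUKer_expMap L u with hφ
  have h1 := (LinearMap.ker φ).finrank_quotient_add_finrank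
  rw [LinearEquiv.finrank_eq φ.quotKerEquivRange, finrank_fintype_fun_eq_card,
    Fintype.card_congr e] at h1
  have h3 : finrank ℤ (LinearMap.range φ) ≤ Units.rank L := by
    rw [← Units.finrank_eq]
    exact Submodule.finrank_le _
  have hu' : ∀ w w' : InfinitePlace L, w' ≠ w → w' (((u ∘ e.symm) w : 𝓞 L) : L) < 1 := by
    intro w w' h
    have := hu (e.symm w) (e.symm w') (fun h' ↦ h (e.symm.injective h'))
    simpa using this
  have hli := (BUIdx_linearIndependent_log L (u ∘ e.symm) hu').restrict_scalars' ℤ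
  let v' : {w : InfinitePlace L // w ≠ w₀} → LinearMap.range φ := fun w ↦
    ⟨Additive.ofMul (u (e.symm w.1)), ⟨Pi.single (e.symm w.1) 1, by
      simp [hφ, BUKer_expMap, Fintype.linearCombination_apply, Pi.single_apply]⟩⟩
  have hli' : LinearIndependent ℤ v' := by
    refine LinearIndependent.of_comp
      ((logEmbedding L).toIntLinearMap ∘ₗ (LinearMap.range φ).subtype) ?_
    exact hli
  have h4 := hli'.fintype_card_le_finrank
  have h5 : Fintype.card {w : InfinitePlace L // w ≠ w₀} = Units.rank L := by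
    rw [← Units.finrank_eq_rank, finrank_fintype_fun_eq_card]
  have h6 : 0 < Fintype.card (InfinitePlace L) := Fintype.card_pos
  have h7 : Units.rank L = Fintype.card (InfinitePlace L) - 1 := rfl
  omega

/-- The relations between the units of the family form an infinite cyclic group. -/
theorem BUKer_generator {S : Type*} [Fintype S] (e : S ≃ InfinitePlace L) (u : S → (𝓞 L)ˣ)
    (hu : ∀ a b : S, b ≠ a → e b ((u a : 𝓞 L) : L) < 1) :
    ∃ x₀ : S → ℤ, x₀ ≠ 0 ∧
      ∀ x : S → ℤ, (∏ a, u a ^ x a = 1) ↔ ∃ n : ℤ, x = n • x₀ := by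
  classical
  have hrk := BUKer_finrank_ker L e u hu
  let b : Basis (Fin 1) ℤ (LinearMap.ker (BUKer_expMap L u)) := Module.finBasisOfFinrankEq ℤ _ hrk
  refine ⟨(b 0 : S → ℤ), ?_, fun x ↦ ?_⟩
  · intro h
    exact b.ne_zero 0 (Subtype.ext h)
  · rw [← BUKer_expMap_eq_zero_iff, ← LinearMap.mem_ker]
    constructor
    · intro hx
      refine ⟨b.repr ⟨x, hx⟩ 0, ?_⟩
      have := congrArg Subtype.val (b.sum_repr ⟨x, hx⟩)
      simpa using this.symm
    · rintro ⟨n, rfl⟩
      exact Submodule.smul_mem _ _ (b 0).2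

/-- The kernel of the exponent map, as an additive group, is isomorphic to `ℤ`. -/
theorem BUKer_ker_equiv_int {S : Type*} [Fintype S] (e : S ≃ InfinitePlace L) (u : S → (𝓞 L)ˣ)
    (hu : ∀ a b : S, b ≠ a → e b ((u a : 𝓞 L) : L) < 1) :
    Nonempty ((BUKer_expMap L u).toAddMonoidHom.ker ≃+ ℤ) := by
  classical
  have hrk := BUKer_finrank_ker L e u hu
  let b : Basis (Fin 1) ℤ (LinearMap.ker (BUKer_expMap L u)) := Module.finBasisOfFinrankEq ℤ _ hrk
  let E1 : (LinearMap.ker (BUKer_expMap L u)) ≃ₗ[ℤ] ℤ :=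
    b.equivFun.trans (LinearEquiv.funUnique (Fin 1) ℤ ℤ)
  exact ⟨{ toFun := fun x ↦ E1 ⟨x.1, x.2⟩
           invFun := fun n ↦ ⟨(E1.symm n).1, (E1.symm n).2⟩
           left_inv := fun x ↦ by
            apply Subtype.ext
            change ((E1.symm (E1 ⟨x.1, x.2⟩) : LinearMap.ker (BUKer_expMap L u)) : S → ℤ) = x.1
            rw [LinearEquiv.symm_apply_apply]
           right_inv := fun n ↦ by
            change E1 ⟨(E1.symm n).1, (E1.symm n).2⟩ = n
            exact E1.apply_symm_apply n
           map_add' := fun x y ↦ by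
            change E1 (⟨x.1, x.2⟩ + ⟨y.1, y.2⟩) = _
            exact map_add E1 _ _ }⟩

/-- The range of the exponent map has finite index in the unit group. -/
theorem BUKer_range_index_ne_zero {S : Type*} [Fintype S] (e : S ≃ InfinitePlace L)
    (u : S → (𝓞 L)ˣ) (hu : ∀ a b : S, b ≠ a → e b ((u a : 𝓞 L) : L) < 1) :
    (BUKer_expMap L u).toAddMonoidHom.range.index ≠ 0 := by
  classical
  have hu' : ∀ w w' : InfinitePlace L, w' ≠ w → w' (((u ∘ e.symm) w : 𝓞 L) : L) < 1 := by
    intro w w' h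
    have := hu (e.symm w) (e.symm w') (fun h' ↦ h (e.symm.injective h'))
    simpa using this
  have hfi := BUIdx_finiteIndex_closure L (u ∘ e.symm) hu'
  have hle : Subgroup.toAddSubgroup (Subgroup.closure (Set.range (u ∘ e.symm))) ≤
      (BUKer_expMap L u).toAddMonoidHom.range := by
    intro y hy
    have hy' : y.toMul ∈ Subgroup.closure (Set.range (u ∘ e.symm)) := hy
    have key : ∀ z : (𝓞 L)ˣ, z ∈ Subgroup.closure (Set.range (u ∘ e.symm)) →
        Additive.ofMul z ∈ (BUKer_expMap L u).toAddMonoidHom.range := by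
      intro z hz
      induction hz using Subgroup.closure_induction with
      | mem z hz =>
        obtain ⟨w, rfl⟩ := hz
        refine ⟨Pi.single (e.symm w) 1, ?_⟩
        simp [BUKer_expMap, Fintype.linearCombination_apply, Pi.single_apply]
      | one => exact zero_mem _
      | mul a b _ _ ha hb => exact add_mem ha hb
      | inv a _ ha => exact neg_mem ha
    exact key _ hy'
  have h1 : (Subgroup.toAddSubgroup (Subgroup.closure (Set.range (u ∘ e.symm)))).index ≠ 0 := by
    rw [Subgroup.index_toAddSubgroup]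
    exact hfi.index_ne_zero
  exact ne_zero_of_dvd_ne_zero h1 (AddSubgroup.index_dvd_of_le hle)

end

/-- A generator of the group of relations is invariant under every permutation of odd order
which preserves the relations. -/
theorem BUKer_invariant {S U : Type*} [Fintype S] [CommGroup U] (u : S → U) (x₀ : S → ℤ)
    (hx₀ : x₀ ≠ 0) (hker : ∀ x : S → ℤ, (∏ a, u a ^ x a = 1) ↔ ∃ n : ℤ, x = n • x₀)
    (τ : Equiv.Perm S) (n : ℕ) (hn : Odd n) (hτ : τ ^ n = 1)
    (hinv : ∀ x : S → ℤ, ∏ a, u a ^ x a = 1 → ∏ a, u a ^ x (τ a) = 1) (a : S) :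
    x₀ (τ a) = x₀ a := by
  have h0 : ∏ a, u a ^ x₀ a = 1 := (hker x₀).mpr ⟨1, (one_smul _ _).symm⟩
  obtain ⟨m, hm⟩ := (hker (fun a ↦ x₀ (τ a))).mp (hinv x₀ h0)
  have hm' : ∀ a, x₀ (τ a) = m * x₀ a := fun a ↦ by
    have := congrFun hm a
    simpa using this
  have hpow : ∀ k : ℕ, ∀ a, x₀ ((τ ^ k) a) = m ^ k * x₀ a := by
    intro k
    induction k with
    | zero => intro a; simp
    | succ k ih =>
      intro a
      rw [pow_succ', Equiv.Perm.mul_apply, hm', ih, pow_succ]
      ring
  obtain ⟨c, hc⟩ : ∃ c, x₀ c ≠ 0 := by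
    by_contra h
    exact hx₀ (funext fun c ↦ by
      by_contra h'
      exact h ⟨c, h'⟩)
  have h1 : m ^ n = 1 := by
    have := hpow n c
    rw [hτ, Equiv.Perm.one_apply] at this
    have h2 : (m ^ n - 1) * x₀ c = 0 := by linarith
    rcases mul_eq_zero.mp h2 with h3 | h3
    · linarith
    · exact absurd h3 hc
  have hm1 : m = 1 := by
    rcases Int.isUnit_iff.mp (IsUnit.of_pow_eq_one h1 hn.pos.ne') with h | h
    · exact h
    · rw [h, hn.neg_one_pow] at h1
      norm_num at h1
  rw [hm', hm1, one_mul]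

end Fermat.Agent.S14
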